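import Mathlib.Analysis.SpecialFunctions.Pow.Real
import Mathlib.Data.Nat.Prime.Basic
import Mathlib.Tactic

/-!
# Selberg's quadruple sum for a mollifier on sets of primes

A mollifier is a family of finite sets `s` of primes, `s` standing for `∏ s` with the coefficient
`(-1/2) ^ #s`. The quadruple sum `∑ β β β β / (ν λ) · (gcd (μ λ, ν κ) / (μ κ)) ^ (1 - θ)` is
multiplicative in disjoint sets of primes, so it is a product over the primes up to the error of
the truncation, which is `2 ^ (-K)` times the same sum without the coefficients.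
-/

set_option autoImplicit false

noncomputable section

namespace FA.SelbergZeros

open Finset

/-- `∏ s`. -/
def setProd (s : Finset ℕ) : ℕ := ∏ p ∈ s, p

/-- `(-1/2) ^ #s`. -/
def setCoef (s : Finset ℕ) : ℝ := (-1 / 2 : ℝ) ^ s.card

/-- The term without its coefficients. -/
def quadWeight (θ : ℝ) (a b c d : Finset ℕ) : ℝ :=
  1 / ((setProd b : ℝ) * setProd d) *
    ((Nat.gcd (setProd a * setProd d) (setProd b * setProd c) : ℝ) /
      ((setProd a : ℝ) * setProd c)) ^ (1 - θ)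

/-- The term. -/
def quadTerm (θ : ℝ) (a b c d : Finset ℕ) : ℝ :=
  setCoef a * setCoef b * setCoef c * setCoef d * quadWeight θ a b c d

/-- The sum over quadruples. -/
def quadSum (G : Finset ℕ → Finset ℕ → Finset ℕ → Finset ℕ → ℝ) (A : Finset (Finset ℕ)) : ℝ :=
  ∑ a ∈ A, ∑ b ∈ A, ∑ c ∈ A, ∑ d ∈ A, G a b c d

/-- Multiplicative in disjoint sets of primes. -/
def SplitMul (G : Finset ℕ → Finset ℕ → Finset ℕ → Finset ℕ → ℝ) : Prop :=
  ∀ P Q : Finset ℕ, Disjoint P Q → (∀ p ∈ P ∪ Q, p.Prime) → ∀ a b c d x y z t : Finset ℕ,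
    a ⊆ P → b ⊆ P → c ⊆ P → d ⊆ P → x ⊆ Q → y ⊆ Q → z ⊆ Q → t ⊆ Q →
      G (a ∪ x) (b ∪ y) (c ∪ z) (d ∪ t) = G a b c d * G x y z t

theorem setProd_union {s t : Finset ℕ} (h : Disjoint s t) :
    setProd (s ∪ t) = setProd s * setProd t :=
  prod_union h

theorem setProd_pos {s : Finset ℕ} (h : ∀ p ∈ s, p.Prime) : 0 < setProd s :=
  prod_pos fun p hp => (h p hp).pos

theorem setProd_coprime {s t : Finset ℕ} (h : Disjoint s t) (hs : ∀ p ∈ s, p.Prime)
    (ht : ∀ p ∈ t, p.Prime) : (setProd s).Coprime (setProd t) :=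
  Nat.Coprime.prod_left fun p hp => Nat.Coprime.prod_right fun q hq =>
    (Nat.coprime_primes (hs p hp) (ht q hq)).2 fun e =>
      disjoint_left.1 h hp (e ▸ hq)

theorem gcd_mul_split {x₁ x₂ y₁ y₂ : ℕ} (hy : y₁.Coprime y₂) (h₁ : x₂.Coprime y₁)
    (h₂ : x₁.Coprime y₂) : (x₁ * x₂).gcd (y₁ * y₂) = x₁.gcd y₁ * x₂.gcd y₂ := by
  rw [Nat.Coprime.gcd_mul _ hy, h₁.gcd_mul_right_cancel, h₂.gcd_mul_left_cancel]

theorem splitMul_quadWeight (θ : ℝ) : SplitMul (quadWeight θ) := by
  intro P Q hPQ hpr a b c d x y z t ha hb hc hd hx hy hz ht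
  have hP : ∀ s, s ⊆ P → ∀ p ∈ s, p.Prime := fun s hs p hp => hpr p (mem_union_left _ (hs hp))
  have hQ : ∀ s, s ⊆ Q → ∀ p ∈ s, p.Prime := fun s hs p hp => hpr p (mem_union_right _ (hs hp))
  have hd' : ∀ s u, s ⊆ P → u ⊆ Q → Disjoint s u := fun s u hs hu => hPQ.mono hs hu
  have hco : ∀ s u, s ⊆ P → u ⊆ Q → (setProd s).Coprime (setProd u) := fun s u hs hu =>
    setProd_coprime (hd' s u hs hu) (hP s hs) (hQ u hu)
  simp only [quadWeight, setProd_union (hd' _ _ ha hx), setProd_union (hd' _ _ hb hy),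
    setProd_union (hd' _ _ hc hz), setProd_union (hd' _ _ hd ht)]
  have hg : (setProd a * setProd x * (setProd d * setProd t)).gcd
      (setProd b * setProd y * (setProd c * setProd z)) =
      (setProd a * setProd d).gcd (setProd b * setProd c) *
        (setProd x * setProd t).gcd (setProd y * setProd z) := by
    rw [mul_mul_mul_comm, mul_mul_mul_comm (setProd b)]
    refine gcd_mul_split ?_ ?_ ?_
    · exact Nat.Coprime.mul_left ((hco b y hb hy).mul_right (hco b z hb hz))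
        ((hco c y hc hy).mul_right (hco c z hc hz))
    · exact Nat.Coprime.mul_left ((hco b x hb hx).symm.mul_right (hco c x hc hx).symm)
        ((hco b t hb ht).symm.mul_right (hco c t hc ht).symm)
    · exact Nat.Coprime.mul_left ((hco a y ha hy).mul_right (hco a z ha hz))
        ((hco d y hd hy).mul_right (hco d z hd hz))
  rw [hg]
  push_cast
  rw [show (setProd a : ℝ) * setProd x * ((setProd c : ℝ) * setProd z) =
    (setProd a : ℝ) * setProd c * ((setProd x : ℝ) * setProd z) by ring, ← div_mul_div_comm,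
    Real.mul_rpow (by positivity) (by positivity)]
  ring

theorem splitMul_quadTerm (θ : ℝ) : SplitMul (quadTerm θ) := by
  intro P Q hPQ hpr a b c d x y z t ha hb hc hd hx hy hz ht
  have hd' : ∀ s u, s ⊆ P → u ⊆ Q → Disjoint s u := fun s u hs hu => hPQ.mono hs hu
  simp only [quadTerm, splitMul_quadWeight θ P Q hPQ hpr a b c d x y z t ha hb hc hd hx hy hz ht,
    setCoef, card_union_of_disjoint (hd' _ _ ha hx), card_union_of_disjoint (hd' _ _ hb hy),
    card_union_of_disjoint (hd' _ _ hc hz), card_union_of_disjoint (hd' _ _ hd ht), pow_add]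
  ring

theorem quadWeight_nonneg (θ : ℝ) (a b c d : Finset ℕ) : 0 ≤ quadWeight θ a b c d := by
  rw [quadWeight]
  positivity

theorem abs_quadTerm (θ : ℝ) (a b c d : Finset ℕ) :
    |quadTerm θ a b c d| =
      quadWeight θ a b c d * (1 / 2) ^ (a.card + b.card + c.card + d.card) := by
  rw [quadTerm, abs_mul, abs_of_nonneg (quadWeight_nonneg θ a b c d), mul_comm]
  simp only [setCoef, ← pow_add, abs_pow]
  norm_num

/-- The sum is multiplicative. -/
theorem quadSum_union {G : Finset ℕ → Finset ℕ → Finset ℕ → Finset ℕ → ℝ} (hG : SplitMul G)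
    {P Q : Finset ℕ} (hPQ : Disjoint P Q) (hpr : ∀ p ∈ P ∪ Q, p.Prime)
    {A B : Finset (Finset ℕ)} (hA : ∀ s ∈ A, s ⊆ P) (hB : ∀ s ∈ B, s ⊆ Q) :
    quadSum G ((A ×ˢ B).image fun e => e.1 ∪ e.2) = quadSum G A * quadSum G B := by
  classical
  have hinj : Set.InjOn (fun e : Finset ℕ × Finset ℕ => e.1 ∪ e.2) ↑(A ×ˢ B) := by
    rintro ⟨a, x⟩ h ⟨a', x'⟩ h' e
    rw [mem_coe, mem_product] at h h'
    simp only at e
    have key : ∀ u v : Finset ℕ, u ⊆ P → v ⊆ Q →
        (u ∪ v) ∩ P = u ∧ (u ∪ v) ∩ Q = v := fun u v hu hv => by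
      rw [union_inter_distrib_right, union_inter_distrib_right, inter_eq_left.2 hu,
        inter_eq_left.2 hv, disjoint_iff_inter_eq_empty.1 (hPQ.mono_left hu),
        disjoint_iff_inter_eq_empty.1 (hPQ.symm.mono_left hv), union_empty, empty_union]
      exact ⟨rfl, rfl⟩
    obtain ⟨h1, h2⟩ := key a x (hA a h.1) (hB x h.2)
    obtain ⟨h3, h4⟩ := key a' x' (hA a' h'.1) (hB x' h'.2)
    rw [e] at h1 h2
    exact Prod.ext (h1.symm.trans h3) (h2.symm.trans h4)
  simp only [quadSum, sum_image hinj, sum_product]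
  calc ∑ a ∈ A, ∑ x ∈ B, ∑ b ∈ A, ∑ y ∈ B, ∑ c ∈ A, ∑ z ∈ B, ∑ d ∈ A, ∑ t ∈ B,
        G (a ∪ x) (b ∪ y) (c ∪ z) (d ∪ t)
      = ∑ a ∈ A, ∑ x ∈ B, ∑ b ∈ A, ∑ y ∈ B, ∑ c ∈ A, ∑ z ∈ B, ∑ d ∈ A, ∑ t ∈ B,
          G a b c d * G x y z t := by
        refine sum_congr rfl fun a ha => sum_congr rfl fun x hx => sum_congr rfl fun b hb =>
          sum_congr rfl fun y hy => sum_congr rfl fun c hc => sum_congr rfl fun z hz =>
          sum_congr rfl fun d hd => sum_congr rfl fun t ht => ?_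
        exact hG P Q hPQ hpr a b c d x y z t (hA a ha) (hA b hb) (hA c hc) (hA d hd) (hB x hx)
          (hB y hy) (hB z hz) (hB t ht)
    _ = _ := by
        simp only [← mul_sum, ← sum_mul]

/-- `p ^ θ / p`, the largest of the terms at one prime. -/
def primeSize (θ : ℝ) (p : ℕ) : ℝ := (p : ℝ) ^ θ / p

theorem quadSum_prime {p : ℕ} (hp : p.Prime) (θ : ℝ) :
    quadSum (quadTerm θ) ({p} : Finset ℕ).powerset =
      1 - 3 / 4 * primeSize θ p - 1 / (2 * p) + 1 / (4 * p * (p : ℝ) ^ θ) +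
        primeSize θ p / (4 * p) - 3 / (16 * (p : ℝ) ^ 2) := by
  have h2 : ({p} : Finset ℕ).powerset = {∅, {p}} := by
    rw [← insert_empty, powerset_insert, powerset_empty, image_singleton]
    rfl
  have hne : (∅ : Finset ℕ) ≠ {p} := (singleton_ne_empty p).symm
  have hp0 : (0 : ℝ) < p := Nat.cast_pos.2 hp.pos
  have hw : 0 < (p : ℝ) ^ θ := Real.rpow_pos_of_pos hp0 θ
  simp only [quadSum, h2, sum_pair hne, quadTerm, quadWeight, setCoef, setProd, prod_empty,
    prod_singleton, card_empty, card_singleton, Nat.gcd_self, Nat.gcd_one_left, Nat.gcd_one_right,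
    Nat.gcd_mul_left_left, Nat.gcd_mul_left_right, one_mul, mul_one, Nat.cast_one, pow_zero,
    pow_one, Nat.cast_mul, div_one, Real.one_rpow, primeSize]
  have e1 : (p : ℝ) / ((p : ℝ) * p) = 1 / p := by field_simp
  have e2 : (p : ℝ) / p = 1 := div_self hp0.ne'
  have e3 : (p : ℝ) * p / ((p : ℝ) * p) = 1 := div_self (by positivity)
  have e4 : (1 / (p : ℝ)) ^ (1 - θ) = (p : ℝ) ^ θ / p := by
    rw [Real.div_rpow zero_le_one hp0.le, Real.one_rpow, Real.rpow_sub hp0, Real.rpow_one,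
      one_div_div]
  have e5 : (p : ℝ) ^ (1 - θ) = p / (p : ℝ) ^ θ := by
    rw [Real.rpow_sub hp0, Real.rpow_one]
  simp only [e1, e2, e3, e4, e5, Real.one_rpow]
  field_simp
  ring

theorem quadSum_weight_prime {p : ℕ} (hp : p.Prime) {θ : ℝ} (hθ : 0 ≤ θ) :
    quadSum (quadWeight θ) ({p} : Finset ℕ).powerset ≤ 1 + 15 * primeSize θ p := by
  have h2 : ({p} : Finset ℕ).powerset = {∅, {p}} := by
    rw [← insert_empty, powerset_insert, powerset_empty, image_singleton]
    rfl
  have hne : (∅ : Finset ℕ) ≠ {p} := (singleton_ne_empty p).symm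
  have hp0 : (0 : ℝ) < p := Nat.cast_pos.2 hp.pos
  have hp1 : (1 : ℝ) ≤ p := Nat.one_le_cast.2 hp.one_le
  obtain ⟨w, hwd⟩ : ∃ w, w = (p : ℝ) ^ θ := ⟨_, rfl⟩
  have hw1 : 1 ≤ w := hwd ▸ Real.one_le_rpow hp1 hθ
  have hw : 0 < w := by linarith
  simp only [quadSum, h2, sum_pair hne, quadWeight, setProd, prod_empty,
    prod_singleton, Nat.gcd_self, Nat.gcd_one_left, Nat.gcd_one_right,
    Nat.gcd_mul_left_left, Nat.gcd_mul_left_right, one_mul, mul_one, Nat.cast_one,
    Nat.cast_mul, div_one, Real.one_rpow, primeSize]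
  have e1 : (p : ℝ) / ((p : ℝ) * p) = 1 / p := by field_simp
  have e2 : (p : ℝ) / p = 1 := div_self hp0.ne'
  have e3 : (p : ℝ) * p / ((p : ℝ) * p) = 1 := div_self (by positivity)
  have e4 : (1 / (p : ℝ)) ^ (1 - θ) = w / p := by
    rw [hwd, Real.div_rpow zero_le_one hp0.le, Real.one_rpow, Real.rpow_sub hp0, Real.rpow_one,
      one_div_div]
  have e5 : (p : ℝ) ^ (1 - θ) = p / w := by
    rw [hwd, Real.rpow_sub hp0, Real.rpow_one]
  simp only [e1, e2, e3, e4, e5, Real.one_rpow, ← hwd]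
  field_simp
  have f1 := mul_le_mul_of_nonneg_left hw1 (show (0 : ℝ) ≤ p * w by positivity)
  have f2 := mul_le_mul_of_nonneg_right hp1 (show (0 : ℝ) ≤ w * w by positivity)
  have f3 := mul_le_mul_of_nonneg_left (one_le_mul_of_one_le_of_one_le hw1 hw1) hp0.le
  have f4 := mul_le_mul_of_nonneg_left (one_le_mul_of_one_le_of_one_le hp1 hw1) hw.le
  linarith

/-- Over all the subsets the sum is a product over the primes. -/
theorem quadSum_powerset {G : Finset ℕ → Finset ℕ → Finset ℕ → Finset ℕ → ℝ} (hG : SplitMul G)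
    (h0 : G ∅ ∅ ∅ ∅ = 1) : ∀ B : Finset ℕ, (∀ p ∈ B, p.Prime) →
      quadSum G B.powerset = ∏ p ∈ B, quadSum G ({p} : Finset ℕ).powerset := by
  intro B
  induction B using Finset.induction with
  | empty => intro _; simp [quadSum, h0]
  | insert p B hpB ih =>
    intro hB
    rw [prod_insert hpB, ← ih fun q hq => hB q (mem_insert_of_mem hq),
      ← quadSum_union hG (P := {p}) (Q := B) (disjoint_singleton_left.2 hpB)
        (by rwa [← insert_eq]) (fun s hs => mem_powerset.1 hs) fun s hs => mem_powerset.1 hs]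
    congr 1
    ext s
    simp only [mem_powerset, mem_image, mem_product, Prod.exists]
    constructor
    · intro hs
      exact ⟨s ∩ {p}, s ∩ B, ⟨inter_subset_right, inter_subset_right⟩, by
        rw [← inter_union_distrib_left, inter_eq_left]; rwa [← insert_eq]⟩
    · rintro ⟨a, b, ⟨ha, hb⟩, rfl⟩
      rw [insert_eq]
      exact union_subset_union ha hb

/-- The truncation. -/
theorem abs_quadSum_trunc_sub_le (θ : ℝ) (B : Finset ℕ) (K : ℕ) :
    |quadSum (quadTerm θ) (B.powerset.filter fun s => s.card ≤ K) -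
        quadSum (quadTerm θ) B.powerset| ≤
      (1 / 2) ^ K * quadSum (quadWeight θ) B.powerset := by
  classical
  have e : ∀ (G : Finset ℕ → Finset ℕ → Finset ℕ → Finset ℕ → ℝ) (A : Finset (Finset ℕ)),
      quadSum G A = ∑ e ∈ (A ×ˢ A) ×ˢ (A ×ˢ A), G e.1.1 e.1.2 e.2.1 e.2.2 := fun G A => by
    simp only [quadSum, sum_product]
  obtain ⟨A, hA⟩ : ∃ A, A = B.powerset.filter fun s => s.card ≤ K := ⟨_, rfl⟩
  rw [← hA, e, e, e]
  have hsub : (A ×ˢ A) ×ˢ (A ×ˢ A) ⊆ (B.powerset ×ˢ B.powerset) ×ˢ (B.powerset ×ˢ B.powerset) := by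
    have : A ⊆ B.powerset := hA ▸ filter_subset _ _
    exact product_subset_product (product_subset_product this this)
      (product_subset_product this this)
  rw [← sum_sdiff hsub, ← sub_sub, sub_right_comm, sub_self, zero_sub, abs_neg, mul_sum]
  refine (abs_sum_le_sum_abs _ _).trans ((sum_le_sum fun e he => ?_).trans
    (sum_le_sum_of_subset_of_nonneg sdiff_subset fun e _ _ =>
      mul_nonneg (by positivity) (quadWeight_nonneg _ _ _ _ _)))
  rw [abs_quadTerm, mul_comm]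
  refine mul_le_mul_of_nonneg_right (pow_le_pow_of_le_one (by norm_num) (by norm_num) ?_)
    (quadWeight_nonneg _ _ _ _ _)
  obtain ⟨he1, he2⟩ := mem_sdiff.1 he
  simp only [mem_product] at he1 he2
  obtain ⟨⟨h1, h2⟩, h3, h4⟩ := he1
  simp only [hA, mem_filter, h1, h2, h3, h4, true_and] at he2
  omega

end FA.SelbergZeros
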