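import Fermat.Agent.ErdosKac.Mertens
import Fermat.Agent.SelbergZeros.QuadSum
import Mathlib.Analysis.PSeries

/-!
# The multiscale mollifier

The primes `≤ exp L` fall into the blocks `L e^(-j-1) < log p ≤ L e^(-j)`, each with reciprocal
sum `O (1)`, and a set may have `K + j` primes of the `j`th. It stands for a number at most
`exp (L (2 K + 2))`, and the quadruple sum is `O (1 / L)` for `0 ≤ θ ≤ 2 A / L` once `K` is large
in terms of `A`.
-/

set_option autoImplicit false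

noncomputable section

namespace FA.SelbergZeros

open Finset FA.ErdosKac

/-- The `j`th block. -/
def molBlock (L : ℝ) (j : ℕ) : Finset ℕ :=
  (primesUpTo ⌊Real.exp L⌋₊).filter fun p =>
    L * Real.exp (-((j : ℝ) + 1)) < Real.log p ∧ Real.log p ≤ L * Real.exp (-(j : ℝ))

/-- The union of the first blocks. -/
def molPrimes (L : ℝ) : ℕ → Finset ℕ
  | 0 => ∅
  | J + 1 => molPrimes L J ∪ molBlock L J

/-- The sets with at most `K + j` primes of the `j`th block, for `j < J`. -/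
def molSets (L : ℝ) (K : ℕ) : ℕ → Finset (Finset ℕ)
  | 0 => {∅}
  | J + 1 => ((molSets L K J) ×ˢ ((molBlock L J).powerset.filter fun s => s.card ≤ K + J)).image
      fun e => e.1 ∪ e.2

/-- The sets of the mollifier. -/
def mollifierSets (L : ℝ) (K : ℕ) : Finset (Finset ℕ) := molSets L K ⌈2 * L⌉₊

theorem molBlock_prime {L : ℝ} {j p : ℕ} (hp : p ∈ molBlock L j) : p.Prime :=
  (mem_primesUpTo.1 (mem_filter.1 hp).1).1

theorem molPrimes_prime {L : ℝ} : ∀ {J p : ℕ}, p ∈ molPrimes L J → p.Prime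
  | 0, p, hp => by simp [molPrimes] at hp
  | J + 1, p, hp => by
    rw [molPrimes, mem_union] at hp
    exact hp.elim molPrimes_prime molBlock_prime

theorem log_gt_of_mem_molPrimes {L : ℝ} (hL : 0 ≤ L) :
    ∀ {J p : ℕ}, p ∈ molPrimes L J → L * Real.exp (-(J : ℝ)) < Real.log p
  | 0, p, hp => by simp [molPrimes] at hp
  | J + 1, p, hp => by
    rw [molPrimes, mem_union] at hp
    push_cast
    rcases hp with hp | hp
    · exact lt_of_le_of_lt (mul_le_mul_of_nonneg_left (Real.exp_le_exp.2 (by linarith)) hL)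
        (log_gt_of_mem_molPrimes hL hp)
    · exact (mem_filter.1 hp).2.1

theorem disjoint_molPrimes {L : ℝ} (hL : 0 ≤ L) (J : ℕ) :
    Disjoint (molPrimes L J) (molBlock L J) :=
  disjoint_left.2 fun _ h1 h2 =>
    absurd (mem_filter.1 h2).2.2 (not_le.2 (log_gt_of_mem_molPrimes hL h1))

theorem subset_of_mem_molSets {L : ℝ} {K : ℕ} :
    ∀ {J : ℕ} {s : Finset ℕ}, s ∈ molSets L K J → s ⊆ molPrimes L J
  | 0, s, hs => by simp [molSets] at hs; simp [hs]
  | J + 1, s, hs => by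
    rw [molSets, mem_image] at hs
    obtain ⟨e, he, rfl⟩ := hs
    rw [mem_product, mem_filter, mem_powerset] at he
    exact union_subset_union (subset_of_mem_molSets he.1) he.2.1

theorem empty_mem_molSets (L : ℝ) (K : ℕ) : ∀ J : ℕ, (∅ : Finset ℕ) ∈ molSets L K J
  | 0 => by simp [molSets]
  | J + 1 => by
    rw [molSets, mem_image]
    exact ⟨(∅, ∅), mem_product.2 ⟨empty_mem_molSets L K J,
      mem_filter.2 ⟨empty_mem_powerset _, Nat.zero_le _⟩⟩, empty_union _⟩

theorem sum_geom_le (J : ℕ) : ∑ j ∈ range J, (1 / 2 : ℝ) ^ j ≤ 2 - 2 * (1 / 2) ^ J := by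
  induction J with
  | zero => norm_num
  | succ J ih => rw [sum_range_succ, pow_succ]; linarith

theorem sum_mul_geom_le (J : ℕ) :
    ∑ j ∈ range J, (j : ℝ) * (1 / 2) ^ j ≤ 2 - 2 * ((J : ℝ) + 1) * (1 / 2) ^ J := by
  induction J with
  | zero => norm_num
  | succ J ih => rw [sum_range_succ, pow_succ]; push_cast; linarith

theorem log_setProd_le {L : ℝ} (hL : 0 ≤ L) {K : ℕ} : ∀ {J : ℕ} {s : Finset ℕ},
    s ∈ molSets L K J →
      Real.log (setProd s) ≤ L * ∑ j ∈ range J, ((K : ℝ) + j) * (1 / 2) ^ j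
  | 0, s, hs => by simp [molSets] at hs; simp [hs, setProd]
  | J + 1, s, hs => by
    rw [molSets, mem_image] at hs
    obtain ⟨⟨a, b⟩, he, rfl⟩ := hs
    rw [mem_product, mem_filter, mem_powerset] at he
    have hd : Disjoint a b :=
      (disjoint_molPrimes hL J).mono (subset_of_mem_molSets he.1) he.2.1
    have ha : (setProd a : ℝ) ≠ 0 := Nat.cast_ne_zero.2 (setProd_pos fun p hp =>
      molPrimes_prime (subset_of_mem_molSets he.1 hp)).ne'
    have hb : (setProd b : ℝ) ≠ 0 := Nat.cast_ne_zero.2 (setProd_pos fun p hp =>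
      molBlock_prime (he.2.1 hp)).ne'
    rw [setProd_union hd, Nat.cast_mul, Real.log_mul ha hb, sum_range_succ, mul_add]
    refine add_le_add (log_setProd_le hL he.1) ?_
    rw [setProd, Nat.cast_prod, Real.log_prod fun p hp => Nat.cast_ne_zero.2
      (molBlock_prime (he.2.1 hp)).ne_zero]
    refine (sum_le_card_nsmul _ _ (L * (1 / 2) ^ J) fun p hp => ?_).trans ?_
    · refine (mem_filter.1 (he.2.1 hp)).2.2.trans (mul_le_mul_of_nonneg_left ?_ hL)
      rw [show -(J : ℝ) = (J : ℕ) * (-1 : ℝ) by ring, Real.exp_nat_mul, one_div]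
      refine pow_le_pow_left₀ (Real.exp_pos _).le ?_ J
      rw [Real.exp_neg]
      exact inv_anti₀ two_pos (by linarith [Real.add_one_le_exp (1 : ℝ)])
    · rw [nsmul_eq_mul, mul_left_comm L]
      refine mul_le_mul_of_nonneg_right ?_ (by positivity)
      exact_mod_cast he.2.2

/-- The numbers of the mollifier are small. -/
theorem setProd_le_of_mem {L : ℝ} (hL : 0 ≤ L) {K : ℕ} {s : Finset ℕ}
    (hs : s ∈ mollifierSets L K) : (setProd s : ℝ) ≤ Real.exp (L * (2 * (K : ℝ) + 2)) := by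
  have hpos : (0 : ℝ) < setProd s := Nat.cast_pos.2 (setProd_pos fun p hp =>
    molPrimes_prime (subset_of_mem_molSets hs hp))
  rw [← Real.log_le_iff_le_exp hpos]
  refine (log_setProd_le hL hs).trans (mul_le_mul_of_nonneg_left ?_ hL)
  simp only [add_mul, sum_add_distrib, ← mul_sum]
  refine add_le_add ?_ ?_
  · refine (mul_le_mul_of_nonneg_left (?_ : _ ≤ (2 : ℝ)) (Nat.cast_nonneg K)).trans
      (mul_comm _ _).le
    have := sum_geom_le ⌈2 * L⌉₊
    have : (0 : ℝ) ≤ (1 / 2) ^ ⌈2 * L⌉₊ := by positivity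
    linarith
  · refine (sum_mul_geom_le _).trans (sub_le_self _ ?_)
    positivity

theorem setProd_injOn {S : Finset (Finset ℕ)} (hS : ∀ s ∈ S, ∀ p ∈ s, Nat.Prime p) :
    Set.InjOn setProd ↑S := fun a ha b hb e => by
  rw [← Nat.primeFactors_prod (hS a ha), ← Nat.primeFactors_prod (hS b hb)]
  exact congrArg Nat.primeFactors e

theorem mem_mollifierSets_prime {L : ℝ} {K : ℕ} {s : Finset ℕ} (hs : s ∈ mollifierSets L K) :
    ∀ p ∈ s, p.Prime := fun _ hp => molPrimes_prime (subset_of_mem_molSets hs hp)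

/-- The reciprocal sums of the blocks are bounded. -/
theorem exists_block_recip_le : ∃ B : ℝ, 0 ≤ B ∧ ∀ (L : ℝ) (j : ℕ),
    ∑ p ∈ molBlock L j, (p : ℝ)⁻¹ ≤ B := by
  obtain ⟨C, hC⟩ := exists_abs_recipSum_sub_le
  have hC0 : 0 ≤ C := (abs_nonneg _).trans (hC 2 le_rfl)
  refine ⟨3 + 2 * C, by linarith, fun L j => ?_⟩
  rcases (molBlock L j).eq_empty_or_nonempty with h | ⟨p₀, hp₀⟩
  · rw [h, sum_empty]
    linarith
  obtain ⟨u, hu⟩ : ∃ u, u = L * Real.exp (-((j : ℝ) + 1)) := ⟨_, rfl⟩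
  have hue : L * Real.exp (-(j : ℝ)) = u * Real.exp 1 := by
    rw [hu, mul_assoc, ← Real.exp_add]
    ring_nf
  have hmem : ∀ p ∈ molBlock L j, p.Prime ∧ u < Real.log p ∧ Real.log p ≤ u * Real.exp 1 :=
    fun p hp => ⟨molBlock_prime hp, hu ▸ (mem_filter.1 hp).2.1, hue ▸ (mem_filter.1 hp).2.2⟩
  obtain ⟨n₁, hn₁⟩ : ∃ n : ℕ, n = ⌊Real.exp u⌋₊ := ⟨_, rfl⟩
  obtain ⟨n₂, hn₂⟩ : ∃ n : ℕ, n = ⌊Real.exp (u * Real.exp 1)⌋₊ := ⟨_, rfl⟩
  have hsub : molBlock L j ⊆ primesUpTo n₂ := fun p hp => by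
    obtain ⟨h1, -, h3⟩ := hmem p hp
    exact mem_primesUpTo.2 ⟨h1, hn₂ ▸ Nat.le_floor
      ((Real.log_le_iff_le_exp (Nat.cast_pos.2 h1.pos)).1 h3)⟩
  have hn₂2 : 2 ≤ n₂ := (molBlock_prime hp₀).two_le.trans (mem_primesUpTo.1 (hsub hp₀)).2
  have hu0 : 0 < u := by
    obtain ⟨h1, -, h3⟩ := hmem p₀ hp₀
    have := Real.log_pos (show (1 : ℝ) < p₀ from Nat.one_lt_cast.2 h1.one_lt)
    exact pos_of_mul_pos_left (this.trans_le h3) (Real.exp_pos 1).le
  have hlog2 : Real.log (Real.log n₂) ≤ 1 + Real.log u := by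
    refine (Real.log_le_log (Real.log_pos (Nat.one_lt_cast.2 hn₂2)) ((Real.log_le_iff_le_exp
      (Nat.cast_pos.2 (by omega))).2 (hn₂ ▸ Nat.floor_le (Real.exp_pos _).le))).trans (le_of_eq ?_)
    rw [Real.log_mul hu0.ne' (Real.exp_pos 1).ne', Real.log_exp, add_comm]
  have hr2 := (abs_le.1 (hC n₂ hn₂2)).2
  rcases Nat.lt_or_ge n₁ 2 with hlt | hge
  · have hu2 : u < 1 := by
      by_contra h1
      have : 2 ≤ n₁ := hn₁ ▸ Nat.le_floor (by
        push_cast
        linarith [Real.add_one_le_exp u, not_lt.1 h1])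
      omega
    refine (sum_le_sum_of_subset_of_nonneg hsub fun p _ _ => by positivity).trans ?_
    have hlu : Real.log u ≤ 0 := Real.log_nonpos hu0.le hu2.le
    show recipSum n₂ ≤ _
    linarith
  · have hl1 : u / 3 ≤ Real.log n₁ := by
      have h2 : Real.log 2 ≤ Real.log n₁ :=
        Real.log_le_log two_pos (by exact_mod_cast hge)
      have h3 : u ≤ Real.log ((3 / 2) * (n₁ : ℝ)) := by
        rw [Real.le_log_iff_exp_le (by positivity)]
        have h4 := Nat.lt_floor_add_one (Real.exp u)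
        rw [← hn₁] at h4
        have : (2 : ℝ) ≤ n₁ := by exact_mod_cast hge
        linarith
      rw [Real.log_mul (by norm_num) (by positivity)] at h3
      have h5 := Real.log_le_log (by norm_num : (0 : ℝ) < 3 / 2) (by norm_num : (3 / 2 : ℝ) ≤ 2)
      linarith
    have hlog1 : Real.log u - 2 ≤ Real.log (Real.log n₁) := by
      refine le_trans ?_ (Real.log_le_log (by positivity) hl1)
      rw [Real.log_div hu0.ne' (by norm_num)]
      linarith [Real.log_le_sub_one_of_pos (show (0 : ℝ) < 3 by norm_num)]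
    have hr1 := (abs_le.1 (hC n₁ hge)).1
    have hdiff : molBlock L j ⊆ primesUpTo n₂ \ primesUpTo n₁ := fun p hp => by
      refine mem_sdiff.2 ⟨hsub hp, fun h => ?_⟩
      obtain ⟨h1, h2, -⟩ := hmem p hp
      have hle := (Nat.cast_le (α := ℝ)).2 (mem_primesUpTo.1 h).2
      exact absurd ((Real.log_le_iff_le_exp (Nat.cast_pos.2 h1.pos)).2
        (hle.trans (hn₁ ▸ Nat.floor_le (Real.exp_pos u).le))) (not_le.2 h2)
    refine (sum_le_sum_of_subset_of_nonneg hdiff fun p _ _ => by positivity).trans ?_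
    have h12 : primesUpTo n₁ ⊆ primesUpTo n₂ := fun p hp => by
      obtain ⟨h1, h2⟩ := mem_primesUpTo.1 hp
      refine mem_primesUpTo.2 ⟨h1, h2.trans ?_⟩
      rw [hn₁, hn₂]
      exact Nat.floor_mono (Real.exp_le_exp.2 (le_mul_of_one_le_right hu0.le
        (Real.one_le_exp zero_le_one)))
    rw [sum_sdiff_eq_sub h12]
    show recipSum n₂ - recipSum n₁ ≤ _
    linarith

theorem primeSize_le {θ : ℝ} {p : ℕ} (hp : p.Prime) (hθ : θ ≤ 1 / 4) :
    primeSize θ p ≤ 3 / 4 := by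
  have h2 : (2 : ℝ) ≤ p := Nat.ofNat_le_cast.2 hp.two_le
  have h1 : (p : ℝ) ^ θ ≤ (p : ℝ) ^ (1 / 4 : ℝ) :=
    Real.rpow_le_rpow_of_exponent_le (by linarith) hθ
  obtain ⟨q, hq⟩ : ∃ q, q = (p : ℝ) ^ (1 / 4 : ℝ) := ⟨_, rfl⟩
  have hq4 : q ^ 4 = p := by
    rw [hq, ← Real.rpow_natCast, ← Real.rpow_mul (by linarith)]
    norm_num
  have hq0 : 0 ≤ q := hq ▸ Real.rpow_nonneg (by linarith) _
  have hq1 : q ≤ 3 / 4 * p := by
    by_contra h
    push Not at h
    have h5 := pow_le_pow_left₀ (show (0 : ℝ) ≤ 3 / 4 * p by linarith) h.le 4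
    rw [hq4, mul_pow] at h5
    have : (8 : ℝ) * p ≤ (p : ℝ) ^ 4 := by
      calc (8 : ℝ) * p = 2 ^ 3 * p := by norm_num
        _ ≤ (p : ℝ) ^ 3 * p := by gcongr
        _ = (p : ℝ) ^ 4 := by ring
    linarith
  rw [primeSize, div_le_iff₀ (by linarith)]
  linarith

/-- The factor of one prime. -/
theorem quadSum_prime_bounds {θ : ℝ} {p : ℕ} (hp : p.Prime) (h0 : 0 ≤ θ) (hθ : θ ≤ 1 / 4) :
    Real.exp (-(16 * primeSize θ p)) ≤ quadSum (quadTerm θ) ({p} : Finset ℕ).powerset ∧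
      quadSum (quadTerm θ) ({p} : Finset ℕ).powerset ≤
        Real.exp (-(p : ℝ)⁻¹ + ((p : ℝ) ^ 2)⁻¹) := by
  obtain ⟨w, hw⟩ : ∃ w, w = (p : ℝ) ^ θ := ⟨_, rfl⟩
  obtain ⟨a, ha⟩ : ∃ a : ℝ, a = (p : ℝ)⁻¹ := ⟨_, rfl⟩
  have h2 : (2 : ℝ) ≤ p := Nat.ofNat_le_cast.2 hp.two_le
  have hw1 : 1 ≤ w := hw ▸ Real.one_le_rpow (by linarith) h0
  have ha0 : 0 < a := ha ▸ by positivity
  have ha2 : a ≤ 1 / 2 := by
    rw [ha, one_div]
    exact inv_anti₀ two_pos h2
  have hsz : primeSize θ p = a * w := by rw [primeSize, ← hw, ha, div_eq_inv_mul]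
  have haw : a * w ≤ 3 / 4 := hsz ▸ primeSize_le hp hθ
  have hP : quadSum (quadTerm θ) ({p} : Finset ℕ).powerset =
      1 - 3 / 4 * (a * w) - a / 2 + a / (4 * w) + a * w * a / 4 - 3 / 16 * a ^ 2 := by
    rw [quadSum_prime hp, hsz, ← hw, ha]
    field_simp
  rw [hP, hsz, ← ha, show ((p : ℝ) ^ 2)⁻¹ = a ^ 2 by rw [ha, inv_pow]]
  have hinv : a / (4 * w) ≤ a / 4 :=
    div_le_div_of_nonneg_left ha0.le (by norm_num) (by linarith)
  have hinv0 : 0 ≤ a / (4 * w) := by positivity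
  have ha' := mul_le_mul_of_nonneg_left ha2 ha0.le
  have haw0 : 0 ≤ a * w := by positivity
  have hawa : 0 ≤ a * w * a := by positivity
  have haw1 : a ≤ a * w := le_mul_of_one_le_right ha0.le hw1
  constructor
  · obtain ⟨Q, hQ⟩ : ∃ Q, Q = 1 - 3 / 4 * (a * w) - a / 2 + a / (4 * w) + a * w * a / 4 -
        3 / 16 * a ^ 2 := ⟨_, rfl⟩
    rw [← hQ]
    have hQ8 : 1 / 8 ≤ Q := by rw [hQ, sq]; linarith
    have hQ2 : 1 - 2 * (a * w) ≤ Q := by rw [hQ, sq]; linarith
    rw [← Real.le_log_iff_exp_le (by linarith)]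
    refine le_trans ?_ (Real.one_sub_inv_le_log_of_pos (by linarith))
    rw [inv_eq_one_div, le_sub_iff_add_le, ← le_sub_iff_add_le', div_le_iff₀ (by linarith)]
    have := mul_le_mul_of_nonneg_left hQ8 haw0
    linarith
  · refine le_trans ?_ (Real.add_one_le_exp _)
    have h1 : 0 ≤ (w - 1) * (3 / 4 * a - a * a / 4) :=
      mul_nonneg (by linarith) (by linarith)
    rw [sq]
    have : 0 ≤ a * a := by positivity
    linarith

/-- One block. -/
theorem exists_block_le : ∃ B : ℝ, 0 ≤ B ∧ ∀ A θ L : ℝ, 0 ≤ A → 1 ≤ L → 0 ≤ θ → θ ≤ 1 / 4 →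
    θ * L ≤ A → ∀ K j : ℕ, Real.exp (31 * B * Real.exp A) ≤ 2 ^ K →
      |quadSum (quadTerm θ) ((molBlock L j).powerset.filter fun s => s.card ≤ K + j)| ≤
        (∏ p ∈ molBlock L j, quadSum (quadTerm θ) ({p} : Finset ℕ).powerset) *
          Real.exp ((1 / 2) ^ j) := by
  obtain ⟨B, hB0, hB⟩ := exists_block_recip_le
  refine ⟨B, hB0, fun A θ L hA hL h0 hθ hθL K j hK => ?_⟩
  obtain ⟨E, hE⟩ : ∃ E, E = ∏ p ∈ molBlock L j, quadSum (quadTerm θ) ({p} : Finset ℕ).powerset :=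
    ⟨_, rfl⟩
  have hpr : ∀ p ∈ molBlock L j, p.Prime := fun p hp => molBlock_prime hp
  have hfull : quadSum (quadTerm θ) (molBlock L j).powerset = E :=
    hE ▸ quadSum_powerset (splitMul_quadTerm θ) (by
      simp [quadTerm, quadWeight, setCoef, setProd]) _ hpr
  have hwfull : quadSum (quadWeight θ) (molBlock L j).powerset =
      ∏ p ∈ molBlock L j, quadSum (quadWeight θ) ({p} : Finset ℕ).powerset :=
    quadSum_powerset (splitMul_quadWeight θ) (by simp [quadWeight, setProd]) _ hpr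
  obtain ⟨Z, hZ⟩ : ∃ Z, Z = ∑ p ∈ molBlock L j, primeSize θ p := ⟨_, rfl⟩
  have hZle : Z ≤ B * Real.exp A := by
    rw [hZ]
    refine (sum_le_sum fun p hp => ?_).trans ((mul_sum (molBlock L j) (fun p : ℕ => (p : ℝ)⁻¹)
      (Real.exp A)).symm.le.trans ((mul_le_mul_of_nonneg_left (hB L j) (Real.exp_pos A).le).trans
        (mul_comm _ _).le))
    rw [primeSize, div_eq_mul_inv]
    refine mul_le_mul_of_nonneg_right ?_ (by positivity)
    rw [Real.rpow_def_of_pos (Nat.cast_pos.2 (hpr p hp).pos), Real.exp_le_exp, mul_comm]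
    refine le_trans (mul_le_mul_of_nonneg_left ((mem_filter.1 hp).2.2.trans ?_) h0) hθL
    exact mul_le_of_le_one_right (by linarith) (Real.exp_le_one_iff.2 (by simp))
  have hElow : Real.exp (-(16 * Z)) ≤ E := by
    rw [hE, hZ, mul_sum, ← sum_neg_distrib, Real.exp_sum]
    exact prod_le_prod (fun p _ => (Real.exp_pos _).le) fun p hp =>
      (quadSum_prime_bounds (hpr p hp) h0 hθ).1
  have hWup : quadSum (quadWeight θ) (molBlock L j).powerset ≤ Real.exp (15 * Z) := by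
    rw [hwfull, hZ, mul_sum, Real.exp_sum]
    refine prod_le_prod (fun p _ => sum_nonneg fun a _ => sum_nonneg fun b _ => sum_nonneg
      fun c _ => sum_nonneg fun d _ => quadWeight_nonneg θ a b c d) fun p hp => ?_
    refine (quadSum_weight_prime (hpr p hp) h0).trans ?_
    linarith [Real.add_one_le_exp (15 * primeSize θ p)]
  have hE0 : 0 < E := (Real.exp_pos _).trans_le hElow
  have h := abs_quadSum_trunc_sub_le θ (molBlock L j) (K + j)
  rw [hfull] at h
  rw [← hE]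
  have herr : (1 / 2 : ℝ) ^ (K + j) * quadSum (quadWeight θ) (molBlock L j).powerset ≤
      E * (1 / 2) ^ j := by
    refine (mul_le_mul_of_nonneg_left hWup (by positivity)).trans ?_
    refine le_trans ?_ (mul_le_mul_of_nonneg_right hElow (by positivity))
    rw [pow_add, mul_comm ((1 / 2 : ℝ) ^ K), mul_assoc, mul_comm (Real.exp (-(16 * Z)))]
    refine mul_le_mul_of_nonneg_left ?_ (by positivity)
    rw [one_div, inv_pow, inv_mul_le_iff₀ (by positivity)]
    refine le_trans ?_ (mul_le_mul_of_nonneg_right hK (Real.exp_pos _).le)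
    rw [← Real.exp_add]
    exact Real.exp_le_exp.2 (by linarith)
  have h3 : E + E * (1 / 2) ^ j ≤ E * Real.exp ((1 / 2) ^ j) := by
    have := mul_le_mul_of_nonneg_left (Real.add_one_le_exp ((1 / 2 : ℝ) ^ j)) hE0.le
    linarith
  have h4 := abs_le.1 (h.trans herr)
  rw [abs_le]
  constructor <;> linarith

/-- The whole product. -/
theorem exists_primes_prod_le : ∃ C : ℝ, 0 < C ∧ ∀ L θ : ℝ, 1 ≤ L → 0 ≤ θ → θ ≤ 1 / 4 →
    ∏ p ∈ molPrimes L ⌈2 * L⌉₊, quadSum (quadTerm θ) ({p} : Finset ℕ).powerset ≤ C / L := by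
  obtain ⟨C, hC⟩ := exists_abs_recipSum_sub_le
  refine ⟨Real.exp (C + 4), Real.exp_pos _, fun L θ hL h0 hθ => ?_⟩
  obtain ⟨n, hn⟩ : ∃ n : ℕ, n = ⌊Real.exp L⌋₊ := ⟨_, rfl⟩
  obtain ⟨J, hJ⟩ : ∃ J : ℕ, J = ⌈2 * L⌉₊ := ⟨_, rfl⟩
  rw [← hJ]
  have hsub : primesUpTo n ⊆ molPrimes L J := by
    intro p hp
    obtain ⟨hpp, hpn⟩ := mem_primesUpTo.1 hp
    have hlp : Real.log 2 ≤ Real.log p :=
      Real.log_le_log two_pos (Nat.ofNat_le_cast.2 hpp.two_le)
    have hlo : L * Real.exp (-(J : ℝ)) < Real.log p := by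
      refine lt_of_lt_of_le ?_ hlp
      rw [Real.exp_neg, ← div_eq_mul_inv, div_lt_iff₀ (Real.exp_pos _)]
      have h1 : 2 * L + 1 ≤ Real.exp J := le_trans (by
        rw [hJ]
        linarith [Nat.le_ceil (2 * L)]) (Real.add_one_le_exp (J : ℝ))
      have h2 := mul_le_mul_of_nonneg_left h1 (show 0 ≤ Real.log 2 by positivity)
      have h3 := mul_le_mul_of_nonneg_left Real.log_two_gt_d9.le (show 0 ≤ 2 * L + 1 by linarith)
      linarith
    have key : ∀ m : ℕ, L * Real.exp (-(m : ℝ)) < Real.log p → p ∈ molPrimes L m := by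
      intro m
      induction m with
      | zero =>
        intro hm
        exfalso
        have hle : Real.log p ≤ L := (Real.log_le_iff_le_exp (Nat.cast_pos.2 hpp.pos)).2
          ((Nat.cast_le.2 hpn).trans (hn ▸ Nat.floor_le (Real.exp_pos L).le))
        rw [Nat.cast_zero, neg_zero, Real.exp_zero, mul_one] at hm
        linarith
      | succ m ih =>
        intro hm
        rw [molPrimes, mem_union]
        rcases lt_or_ge (L * Real.exp (-(m : ℝ))) (Real.log p) with h | h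
        · exact Or.inl (ih h)
        · refine Or.inr (mem_filter.2 ⟨hn ▸ hp, ?_, h⟩)
          push_cast at hm
          exact hm
    exact key J hlo
  have hsup : molPrimes L J ⊆ primesUpTo n := by
    have key : ∀ m, molPrimes L m ⊆ primesUpTo n := by
      intro m
      induction m with
      | zero => simp [molPrimes]
      | succ m ih =>
        rw [molPrimes]
        exact union_subset ih (hn ▸ filter_subset _ _)
    exact key J
  rw [Finset.Subset.antisymm hsup hsub]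
  refine (prod_le_prod (fun p hp => (Real.exp_pos _).le.trans (quadSum_prime_bounds
    (mem_primesUpTo.1 hp).1 h0 hθ).1) fun p hp =>
      (quadSum_prime_bounds (mem_primesUpTo.1 hp).1 h0 hθ).2).trans ?_
  rw [← Real.exp_sum, sum_add_distrib, sum_neg_distrib]
  have hn2 : 2 ≤ n := hn ▸ Nat.le_floor (by push_cast; linarith [Real.add_one_le_exp L])
  have hr := (abs_le.1 (hC n hn2)).1
  have hl : L / 3 ≤ Real.log n := by
    have h2 : Real.log 2 ≤ Real.log n := Real.log_le_log two_pos (by exact_mod_cast hn2)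
    have h3 : L ≤ Real.log ((3 / 2) * (n : ℝ)) := by
      rw [Real.le_log_iff_exp_le (by positivity)]
      have h4 := Nat.lt_floor_add_one (Real.exp L)
      rw [← hn] at h4
      have : (2 : ℝ) ≤ n := by exact_mod_cast hn2
      linarith
    rw [Real.log_mul (by norm_num) (by positivity)] at h3
    have h5 := Real.log_le_log (by norm_num : (0 : ℝ) < 3 / 2) (by norm_num : (3 / 2 : ℝ) ≤ 2)
    linarith
  have hll : Real.log L - 2 ≤ Real.log (Real.log n) := by
    refine le_trans ?_ (Real.log_le_log (by positivity) hl)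
    rw [Real.log_div (by linarith) (by norm_num)]
    linarith [Real.log_le_sub_one_of_pos (show (0 : ℝ) < 3 by norm_num)]
  have hsq : ∑ p ∈ primesUpTo n, ((p : ℝ) ^ 2)⁻¹ ≤ 2 := by
    refine le_trans (sum_le_sum_of_subset_of_nonneg (t := Ioo 0 (n + 1)) (fun p hp => ?_)
      fun p _ _ => by positivity) ((sum_Ioo_inv_sq_le 0 (n + 1)).trans_eq (by norm_num))
    exact mem_Ioo.2 ⟨(mem_primesUpTo.1 hp).1.pos, Nat.lt_succ_of_le (mem_primesUpTo.1 hp).2⟩
  rw [show Real.exp (C + 4) / L = Real.exp (C + 4 - Real.log L) by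
    rw [Real.exp_sub (C + 4), Real.exp_log (by linarith)], Real.exp_le_exp]
  change -recipSum n + _ ≤ _
  linarith

/-- **The quadruple sum of the mollifier.** -/
theorem exists_quadSum_le : ∃ C : ℝ, 0 < C ∧ ∀ A : ℝ, 0 ≤ A → ∃ K : ℕ, ∀ L θ : ℝ,
    1 ≤ L → 0 ≤ θ → θ ≤ 1 / 4 → θ * L ≤ A →
      |quadSum (quadTerm θ) (mollifierSets L K)| ≤ C / L := by
  obtain ⟨B, -, hblock⟩ := exists_block_le
  obtain ⟨C, hC0, hC⟩ := exists_primes_prod_le
  refine ⟨C * Real.exp 2, by positivity, fun A hA => ?_⟩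
  obtain ⟨K, hK⟩ := pow_unbounded_of_one_lt (Real.exp (31 * B * Real.exp A)) one_lt_two
  refine ⟨K, fun L θ hL h0 hθ hθL => ?_⟩
  have hPpos : ∀ J, 0 ≤ ∏ p ∈ molPrimes L J, quadSum (quadTerm θ) ({p} : Finset ℕ).powerset :=
    fun J => prod_nonneg fun p hp => (Real.exp_pos _).le.trans
      (quadSum_prime_bounds (molPrimes_prime hp) h0 hθ).1
  have main : ∀ J, |quadSum (quadTerm θ) (molSets L K J)| ≤
      (∏ p ∈ molPrimes L J, quadSum (quadTerm θ) ({p} : Finset ℕ).powerset) *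
        Real.exp (∑ j ∈ range J, (1 / 2 : ℝ) ^ j) := by
    intro J
    induction J with
    | zero => simp [molSets, molPrimes, quadSum, quadTerm, quadWeight, setCoef, setProd]
    | succ J ih =>
      have hd := disjoint_molPrimes (show 0 ≤ L by linarith) J
      rw [molSets, quadSum_union (splitMul_quadTerm θ) hd (fun p hp => (mem_union.1 hp).elim
        molPrimes_prime molBlock_prime) (fun s hs => subset_of_mem_molSets hs)
        (fun s hs => mem_powerset.1 (mem_filter.1 hs).1), abs_mul, molPrimes, prod_union hd,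
        sum_range_succ, Real.exp_add, mul_mul_mul_comm]
      exact mul_le_mul ih (hblock A θ L hA hL h0 hθ hθL K J hK.le) (abs_nonneg _)
        (mul_nonneg (hPpos J) (Real.exp_pos _).le)
  rw [mul_div_right_comm]
  refine (main _).trans (mul_le_mul (hC L θ hL h0 hθ) (Real.exp_le_exp.2 ?_) (Real.exp_pos _).le
    (by positivity))
  refine (sum_geom_le _).trans (sub_le_self _ ?_)
  positivity

end FA.SelbergZeros
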