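import Fermat.Agent.SelbergZeros.Count
import Fermat.Agent.SelbergZeros.Mollifier

/-!
# Selberg's theorem: `N₀ T ≫ T log T`

With windows `h = a / L`, `L = η log U` and `U = T / 5`, the short integrals are small in mean
square for a large fixed `a`, while `∫ |molF|` is `≫ U^(3/4)` by the first moment.
-/

set_option autoImplicit false

noncomputable section

namespace FA.SelbergZeros

open MeasureTheory Complex Finset Filter Topology
open FA.HardyZeros (hardyH hardyH_eq_zero_iff)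
open FA.HardyLittlewoodZeros (lineZeros finite_lineZeros)
open scoped Real

/-- The powers of `log U` are small. -/
theorem eventually_log_sq_le (D : ℝ) :
    ∀ᶠ U in atTop, D * (3 + 2 * Real.log U) ^ 2 * U ^ (1 / 10 : ℝ) ≤ √U := by
  have hp : (0 : ℝ) < 1 / 10 := by norm_num
  have h : (fun U : ℝ => 3 + 2 * Real.log U) =o[atTop] fun U => U ^ (1 / 10 : ℝ) :=
    (Asymptotics.isLittleO_const_left.2 (Or.inr (tendsto_norm_atTop_atTop.comp
      (tendsto_rpow_atTop hp)))).add ((isLittleO_log_rpow_atTop hp).const_mul_left 2)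
  obtain ⟨ε, hε⟩ : ∃ ε, ε = 1 / (|D| + 1) := ⟨_, rfl⟩
  filter_upwards [h.bound (show 0 < ε by rw [hε]; positivity), eventually_ge_atTop 1] with U hU hU1
  obtain ⟨r, hr⟩ : ∃ r, r = U ^ (1 / 10 : ℝ) := ⟨_, rfl⟩
  have hr1 : 1 ≤ r := hr ▸ Real.one_le_rpow hU1 (by norm_num)
  rw [← hr] at hU ⊢
  rw [Real.norm_of_nonneg (by linarith [Real.log_nonneg hU1]), Real.norm_of_nonneg (by linarith)]
    at hU
  have hsq : √U = r ^ 5 := by
    rw [hr, Real.sqrt_eq_rpow, ← Real.rpow_natCast, ← Real.rpow_mul (by linarith)]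
    norm_num
  rw [hsq]
  have hsqb := pow_le_pow_left₀ (by linarith [Real.log_nonneg hU1]) hU 2
  have he1 : ε ≤ 1 := hε ▸ (div_le_one (by positivity)).2 (by linarith [abs_nonneg D])
  have he0 : 0 ≤ ε := hε ▸ by positivity
  have hDe : |D| * ε ≤ 1 := by
    rw [hε, mul_one_div, div_le_one (by positivity)]
    linarith
  have hDe2 : |D| * ε ^ 2 ≤ 1 := by
    nlinarith [mul_le_mul_of_nonneg_left he1 (show 0 ≤ |D| * ε by positivity)]
  calc D * (3 + 2 * Real.log U) ^ 2 * r ≤ |D| * (ε * r) ^ 2 * r :=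
        mul_le_mul_of_nonneg_right (mul_le_mul (le_abs_self D) hsqb (sq_nonneg _) (abs_nonneg D))
          (by linarith)
    _ = |D| * ε ^ 2 * r ^ 3 := by ring
    _ ≤ 1 * r ^ 3 := mul_le_mul_of_nonneg_right hDe2 (by positivity)
    _ ≤ r ^ 5 := by rw [one_mul]; exact pow_le_pow_right₀ hr1 (by norm_num)

/-- `rhs` is below `lhs` unless there are many zeros. -/
theorem card_ge_of_count {κ a η C U h L w r s n l m X Y : ℝ} (hκ : 0 < κ) (ha : 0 < a)
    (hη : 0 < η) (hC : 0 < C) (hr : 0 < r) (hw : 0 < w) (hsr : s = r ^ 2)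
    (hU : U = r ^ 4) (hL : L = η * w) (hh : h = a / L) (ha' : 600000 * C / κ ^ 2 ≤ a)
    (hl : l = κ / 4 * h / r) (hm : m = 6000 * C / (κ * η) / r)
    (hX : X = 34000 * (h * s * (C / L))) (hY : Y = 1500 * (s * (C / L) * w))
    (hineq : h * (κ / r * (U / 2)) ≤
      X / (2 * l) + l * U / 2 + h * Y / (2 * m) + m * h ^ 2 * n / 2) :
    κ ^ 2 * η ^ 2 / (32000 * C * a) * (U * w) ≤ n := by
  have hL0 : 0 < L := hL ▸ mul_pos hη hw
  have hh0 : 0 < h := hh ▸ div_pos ha hL0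
  obtain ⟨P, hP⟩ : ∃ P, P = κ * h * r ^ 3 := ⟨_, rfl⟩
  have e0 : h * (κ / r * (U / 2)) = P / 2 := by rw [hP, hU]; field_simp
  have e1 : X / (2 * l) = P * (68000 * C / (κ ^ 2 * a)) := by
    rw [hX, hl, hP, hsr, hh]; field_simp; ring
  have e1' : 68000 * C / (κ ^ 2 * a) ≤ 1 / 8 := by
    rw [div_le_iff₀ (pow_pos hκ 2)] at ha'
    rw [div_le_iff₀ (by positivity)]
    linarith
  have e2 : l * U / 2 = P / 8 := by rw [hl, hP, hU]; field_simp; ring
  have e3 : h * Y / (2 * m) = P / 8 := by rw [hY, hm, hP, hsr, hL]; field_simp; ring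
  rw [e0, e1, e2, e3] at hineq
  have hP0 : 0 < P := hP ▸ by positivity
  have h4 : P / 8 ≤ m * h ^ 2 * n / 2 := by
    nlinarith [mul_le_mul_of_nonneg_left e1' hP0.le]
  have e5 : m * h ^ 2 * n / 2 = n * (3000 * C * h ^ 2 / (κ * η * r)) := by rw [hm]; field_simp; ring
  have e6 : P / 8 = κ ^ 2 * η ^ 2 / (24000 * C * a) * (U * w) *
      (3000 * C * h ^ 2 / (κ * η * r)) := by
    rw [hP, hU, hh, hL]; field_simp; ring
  rw [e5, e6] at h4
  refine le_trans ?_ (le_of_mul_le_mul_right h4 (by positivity))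
  refine mul_le_mul_of_nonneg_right ?_ (by rw [hU]; positivity)
  exact div_le_div_of_nonneg_left (by positivity) (by positivity)
    (by nlinarith [mul_pos hC ha])

/-- **Selberg's theorem.** -/
theorem exists_lineZeros_ge_log : ∃ c : ℝ, 0 < c ∧ ∃ T₀ : ℝ, ∀ T : ℝ, T₀ ≤ T →
    c * T * Real.log T ≤ (lineZeros T).ncard := by
  classical
  obtain ⟨C, hC, hsum⟩ := exists_quadSum_le
  obtain ⟨κ, hκ⟩ : ∃ κ, κ = Real.exp (-3) / 4 := ⟨_, rfl⟩
  have hκ0 : 0 < κ := hκ ▸ by positivity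
  obtain ⟨a, ha⟩ : ∃ a, a = max 1 (600000 * C / κ ^ 2) := ⟨_, rfl⟩
  have ha1 : 1 ≤ a := ha ▸ le_max_left _ _
  have ha0 : 0 < a := by linarith
  obtain ⟨K, hK⟩ := hsum (2 * a) (by linarith)
  obtain ⟨η, hη⟩ : ∃ η : ℝ, η = 1 / (100 * (2 * (K : ℝ) + 2)) := ⟨_, rfl⟩
  have hη0 : 0 < η := hη ▸ by positivity
  have hη1 : η ≤ 1 := by
    rw [hη, div_le_one (by positivity)]
    linarith [(Nat.cast_nonneg K : (0 : ℝ) ≤ K)]
  have hηK : η * (2 * (K : ℝ) + 2) = 1 / 100 := by rw [hη]; field_simp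
  obtain ⟨D, hD⟩ : ∃ D : ℝ, D = 40 * a / C + 9 / C + 52000 + 1 := ⟨_, rfl⟩
  obtain ⟨U₁, hU₁⟩ := eventually_atTop.1 ((eventually_log_sq_le D).and
    ((eventually_ge_atTop (40 : ℝ)).and (Real.tendsto_log_atTop.eventually_ge_atTop (8 * a / η))))
  refine ⟨κ ^ 2 * η ^ 2 / (32000 * C * a) / 10, by positivity, max (5 * U₁) 25, fun T hT => ?_⟩
  obtain ⟨U, hU⟩ : ∃ U, U = T / 5 := ⟨_, rfl⟩
  obtain ⟨hlogU, hU40, hUη⟩ := hU₁ U (by linarith [le_max_left (5 * U₁) 25])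
  obtain ⟨w, hw⟩ : ∃ w, w = Real.log U := ⟨_, rfl⟩
  rw [← hw] at hlogU hUη
  have hU0 : 0 < U := by linarith
  have hw0 : 0 < w := hw ▸ Real.log_pos (by linarith)
  obtain ⟨L, hL⟩ : ∃ L, L = η * w := ⟨_, rfl⟩
  have hL8 : 8 * a ≤ L := by
    rw [hL]
    rw [div_le_iff₀ hη0] at hUη
    linarith
  have hL0 : 0 < L := by linarith
  obtain ⟨h, hh⟩ : ∃ h, h = a / L := ⟨_, rfl⟩
  have hh0 : 0 < h := hh ▸ div_pos ha0 hL0
  have hh8 : h ≤ 1 / 8 := by
    rw [hh, div_le_iff₀ hL0]; linarith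
  obtain ⟨A, hA⟩ : ∃ A, A = mollifierSets L K := ⟨_, rfl⟩
  obtain ⟨Nb, hNb⟩ : ∃ Nb, Nb = ⌊Real.exp (L * (2 * (K : ℝ) + 2))⌋₊ := ⟨_, rfl⟩
  have hpr : ∀ s ∈ A, ∀ p ∈ s, Nat.Prime p := fun s hs p hp =>
    mem_mollifierSets_prime (hA ▸ hs) p hp
  have hmem : ∀ s ∈ A, 0 < setProd s ∧ setProd s ≤ Nb := fun s hs =>
    ⟨setProd_pos (hpr s hs), hNb ▸ Nat.le_floor (setProd_le_of_mem hL0.le (hA ▸ hs))⟩
  have h0A : ∅ ∈ A := hA ▸ empty_mem_molSets L K _
  have hcard : A.card ≤ Nb :=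
    (card_le_card_of_injOn setProd (t := Icc 1 Nb) (fun s hs => mem_Icc.2 (hmem s hs))
      (setProd_injOn hpr)).trans (by simp)
  have hNb1 : 1 ≤ Nb := hNb ▸ Nat.le_floor (by simpa using Real.one_le_exp (by positivity))
  have hNbU : (Nb : ℝ) ≤ U ^ (1 / 100 : ℝ) := by
    rw [hNb]
    refine (Nat.floor_le (Real.exp_pos _).le).trans (le_of_eq ?_)
    rw [Real.rpow_def_of_pos hU0, ← hw, hL, mul_right_comm, hηK]
    ring_nf
  have hNbr : (1 : ℝ) ≤ Nb := Nat.one_le_cast.2 hNb1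
  have hN8 : (Nb : ℝ) ^ 8 ≤ U ^ (1 / 10 : ℝ) := by
    refine (pow_le_pow_left₀ (by positivity) hNbU 8).trans ?_
    rw [← Real.rpow_natCast, ← Real.rpow_mul hU0.le]
    exact Real.rpow_le_rpow_of_exponent_le (by linarith) (by norm_num)
  obtain ⟨R, hR⟩ : ∃ R, R = (Nb : ℝ) ^ 8 * (3 + Real.log ((Nb : ℝ) ^ 4 * U)) ^ 2 := ⟨_, rfl⟩
  have hlog0 : 0 ≤ Real.log ((Nb : ℝ) ^ 4 * U) :=
    Real.log_nonneg (one_le_mul_of_one_le_of_one_le (one_le_pow₀ hNbr) (by linarith))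
  have hlog : Real.log ((Nb : ℝ) ^ 4 * U) ≤ 2 * w := by
    rw [Real.log_mul (by positivity) hU0.ne', Real.log_pow, ← hw]
    have := Real.log_le_log (by positivity) hNbU
    rw [Real.log_rpow hU0, ← hw] at this
    push_cast
    linarith
  have hN8' : 1 ≤ (Nb : ℝ) ^ 8 := one_le_pow₀ hNbr
  have hDR : D * R ≤ √U := by
    refine le_trans ?_ hlogU
    rw [hR, mul_assoc D, mul_comm ((3 + 2 * w) ^ 2)]
    exact mul_le_mul_of_nonneg_left (mul_le_mul hN8
      (pow_le_pow_left₀ (by linarith) (by linarith) 2) (sq_nonneg _) (by positivity))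
      (hD ▸ by positivity)
  have hR0 : 0 ≤ R := hR ▸ by positivity
  have hD1 : 40 * a / C * R + 9 / C * R + 52000 * R ≤ √U := by
    rw [hD] at hDR
    linarith
  have hsT : 0 < √U := Real.sqrt_pos.2 hU0
  have hR' : ∀ j : ℕ, j ≤ 8 → (Nb : ℝ) ^ j * (3 + Real.log ((Nb : ℝ) ^ 4 * U)) ^ 2 ≤ R :=
    fun j hj => hR ▸ mul_le_mul_of_nonneg_right (pow_le_pow_right₀ hNbr hj) (sq_nonneg _)
  -- the quadruple sums
  have hθ₀ : 2 * h ≤ 1 / 4 := by linarith
  have hS : ∀ θ, 0 ≤ θ → θ ≤ 2 * h → |quadSum (quadTerm θ) A| ≤ C / L := fun θ h0 hθ => by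
    rw [hA]
    refine hK L θ (by linarith) h0 (hθ.trans hθ₀) ((mul_le_mul_of_nonneg_right hθ hL0.le).trans
      (le_of_eq ?_))
    rw [hh]
    field_simp
  have hlθ : 1 / Real.log U ≤ 2 * h := by
    rw [← hw, hh, hL, mul_div, div_le_div_iff₀ hw0 (by positivity)]
    nlinarith [mul_le_mul hη1 ha1 (by norm_num) zero_le_one, mul_le_mul_of_nonneg_right hη1 hw0.le,
      mul_le_mul_of_nonneg_right ha1 hw0.le]
  obtain ⟨X, hX⟩ : ∃ X, X = 34000 * (h * √U * (C / L)) := ⟨_, rfl⟩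
  obtain ⟨Y, hY⟩ : ∃ Y, Y = 1500 * (√U * (C / L) * w) := ⟨_, rfl⟩
  obtain ⟨hIi, hIle⟩ := integral_molInt_le (T := U) (by linarith) hmem hcard hNb1 hθ₀ hS hh0 le_rfl
  obtain ⟨hFi, hFle⟩ := integral_molF_le (T := U) (by linarith) hmem hcard hNb1 hθ₀ hS hlθ
  have hI2 : ∫ u in U..(2 * U), ‖molInt U A h u‖ ^ 2 ≤ X := by
    rw [intervalIntegral.integral_of_le (by linarith)]
    refine ((setIntegral_le_integral hIi (Eventually.of_forall fun u => sq_nonneg _)).trans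
      hIle).trans ?_
    have e : 40000 * (h ^ 2 * R) = 40 * a / C * R * (1000 * h * (C / L)) := by
      rw [hh]; field_simp; ring
    have h6 := mul_le_mul_of_nonneg_left (hR' 6 (by norm_num)) (sq_nonneg h)
    have h9 := mul_le_mul_of_nonneg_right (show 40 * a / C * R ≤ √U by
      linarith [show 0 ≤ 9 / C * R by positivity, show 0 ≤ 52000 * R by positivity])
      (show 0 ≤ 1000 * h * (C / L) by positivity)
    rw [← e] at h9
    rw [hX]
    linarith
  have hF2 : ∀ p q, p ≤ q → ∫ y in p..q, ‖molF U A y‖ ^ 2 ≤ Y := fun p q hpq => by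
    rw [intervalIntegral.integral_of_le hpq]
    refine ((setIntegral_le_integral hFi (Eventually.of_forall fun u => sq_nonneg _)).trans
      hFle).trans ?_
    have e : 900 * R = 9 / C * R * (100 * C) := by field_simp; ring
    have h9 := mul_le_mul_of_nonneg_right (show 9 / C * R ≤ √U by
      linarith [show 0 ≤ 40 * a / C * R by positivity, show 0 ≤ 52000 * R by positivity])
      (show 0 ≤ 100 * C by positivity)
    rw [← e] at h9
    have hLw : C ≤ C / L * w := by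
      rw [div_mul_eq_mul_div, le_div_iff₀ hL0, hL]
      exact mul_le_mul_of_nonneg_left (mul_le_of_le_one_left hw0.le hη1) hC.le
    have h8 := mul_le_mul_of_nonneg_left hLw (show 0 ≤ 100 * √U by positivity)
    rw [hR] at h9
    rw [hY, ← hw]
    linarith
  obtain ⟨r, hr⟩ : ∃ r, r = √(√U) := ⟨_, rfl⟩
  have hr0 : 0 < r := hr ▸ Real.sqrt_pos.2 hsT
  have hG : κ / r * (U / 2) ≤ ∫ y in (U + h)..(2 * U), ‖molF U A y‖ := by
    refine le_trans ?_ (hκ ▸ hr ▸ integral_norm_molF_ge hpr h0A hcard (by linarith) hh0.le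
      (by linarith))
    refine mul_le_mul_of_nonneg_left ?_ (by positivity)
    have h2 : (Nb : ℝ) ^ 2 ≤ R := (pow_le_pow_right₀ hNbr (by norm_num)).trans
      (le_trans (le_mul_of_one_le_right (by positivity) (one_le_pow₀ (by linarith))) (hR' 8 le_rfl))
    have h3 := mul_le_mul_of_nonneg_right (show 52000 * R ≤ √U by
      linarith [show 0 ≤ 40 * a / C * R by positivity, show 0 ≤ 9 / C * R by positivity]) hsT.le
    rw [Real.mul_self_sqrt hU0.le] at h3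
    have h4 := mul_le_mul_of_nonneg_right h2 hsT.le
    linarith
  -- the zeros
  obtain ⟨Zs, hZs⟩ : ∃ Zs : Set ℝ, Zs = {y | U ≤ y ∧ y ≤ 2 * U + h ∧ hardyH y = 0} := ⟨_, rfl⟩
  have hmaps : ∀ y ∈ Zs, 2 * y ∈ lineZeros T := fun y hy => by
    rw [hZs] at hy
    exact ⟨by linarith [hy.1], by linarith [hy.2.1], (hardyH_eq_zero_iff y).1 hy.2.2⟩
  have hinj : Set.InjOn (fun y : ℝ => 2 * y) Zs := fun x _ y _ e => by simpa using e
  have hZfin : Zs.Finite :=
    ((finite_lineZeros T).subset (Set.image_subset_iff.2 hmaps)).of_finite_image hinj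
  obtain ⟨Z, hZ⟩ : ∃ Z : Finset ℝ, Z = hZfin.toFinset := ⟨_, rfl⟩
  have hcount : (Z.card : ℝ) ≤ (lineZeros T).ncard := by
    rw [hZ, ← Set.ncard_eq_toFinset_card Zs hZfin]
    exact Nat.cast_le.2 (Set.ncard_le_ncard_of_injOn _ hmaps hinj (finite_lineZeros T))
  have hineq := count_le (continuous_molF U A).norm (continuous_molInt U A h).norm Z hh0.le
    (show h ≤ U by linarith) (fun u hu hno => window_le_molInt U A hh0.le fun y hy h0 => by
      refine hno y ?_ hy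
      rw [hZ, Set.Finite.mem_toFinset, hZs]
      exact ⟨hu.1.trans hy.1, hy.2.trans (by linarith [hu.2]), h0⟩)
    (fun y => norm_nonneg _) hI2 hF2 hG (l := κ / 4 * h / r) (by positivity)
    (m := 6000 * C / (κ * η) / r) (by positivity)
  have hr2 : √U = r ^ 2 := by rw [hr, Real.sq_sqrt hsT.le]
  have hr4 : U = r ^ 4 := by
    rw [show r ^ 4 = (r ^ 2) ^ 2 by ring, ← hr2, Real.sq_sqrt hU0.le]
  have hfin := card_ge_of_count hκ0 ha0 hη0 hC hr0 hw0 hr2 hr4 hL hh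
    (ha ▸ le_max_right _ _) rfl rfl hX hY hineq
  refine le_trans ?_ (hfin.trans hcount)
  obtain ⟨c, hc⟩ : ∃ c, c = κ ^ 2 * η ^ 2 / (32000 * C * a) := ⟨_, rfl⟩
  have hc0 : 0 ≤ c := hc ▸ by positivity
  rw [← hc]
  have hlT : Real.log T ≤ 2 * w := by
    rw [hw, ← Real.log_rpow hU0]
    refine Real.log_le_log (by linarith) ?_
    rw [Real.rpow_two, hU]
    nlinarith [le_max_right (5 * U₁) 25]
  have := mul_le_mul_of_nonneg_left hlT (show 0 ≤ c * U by positivity)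
  rw [show c / 10 * T * Real.log T = c * U * Real.log T / 2 by rw [hU]; ring]
  linarith

end FA.SelbergZeros
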