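import Fermat.Agent.SelbergZeros.TwistTheta

/-!
# The mean square of the twisted theta series, evaluated

`∫_[0, V] e^((1 - θ) v / 2) ‖twistTheta T A v‖²` is at most `14 √T S / θ` up to a power of the
length times `(log T)²`, where `S` bounds Selberg's quadruple sums at `0` and at `θ`.
-/

set_option autoImplicit false

noncomputable section

namespace FA.SelbergZeros

open MeasureTheory Complex Filter Topology Finset
open FA.HardyLittlewoodZeros (rotPoint tilt cos_tilt_bounds)
open scoped Real ComplexConjugate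

variable {A : Finset (Finset ℕ)} {Nb : ℕ}

theorem abs_quadCoef_le (a b c d : Finset ℕ) :
    |quadCoef a b c d| ≤ 1 / ((setProd b : ℝ) * setProd d) := by
  rw [quadCoef, abs_mul, ← one_div_mul_one_div]
  exact mul_le_mul (abs_pairCoef_le (a, b)) (abs_pairCoef_le (c, d)) (abs_nonneg _)
    (by positivity)

theorem abs_quadSum_le {G : Finset ℕ → Finset ℕ → Finset ℕ → Finset ℕ → ℝ} {X : ℝ}
    (hcard : A.card ≤ Nb) (hX : 0 ≤ X)
    (hG : ∀ a ∈ A, ∀ b ∈ A, ∀ c ∈ A, ∀ d ∈ A, |G a b c d| ≤ X) :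
    |quadSum G A| ≤ (Nb : ℝ) ^ 4 * X := by
  have hc : (A.card : ℝ) ≤ Nb := Nat.cast_le.2 hcard
  refine (abs_sum_le_sum_abs _ _).trans ((sum_le_sum fun a ha => (abs_sum_le_sum_abs _ _).trans
    (sum_le_sum fun b hb => (abs_sum_le_sum_abs _ _).trans (sum_le_sum fun c hc =>
      (abs_sum_le_sum_abs _ _).trans (sum_le_sum fun d hd => hG a ha b hb c hc d hd)))).trans ?_)
  simp only [sum_const, nsmul_eq_mul]
  calc (A.card : ℝ) * (A.card * (A.card * (A.card * X))) = (A.card : ℝ) ^ 4 * X := by ring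
    _ ≤ _ := mul_le_mul_of_nonneg_right (pow_le_pow_left₀ (Nat.cast_nonneg _) hc 4) hX

/-- **The finite form.** -/
theorem integral_twistPartial_le (hA : ∀ e ∈ A, 0 < setProd e ∧ setProd e ≤ Nb)
    (hcard : A.card ≤ Nb) {s k θ V : ℝ} (hs : 0 < s) (hs1 : π * s ≤ 1) (hk : 1 / 2 ≤ k)
    (hθ : 0 ≤ θ) (hV : 0 ≤ V) (N : ℕ) :
    ∫ v in (0 : ℝ)..V, expWeight θ v * ‖twistPartial s k A N v‖ ^ 2 ≤
      quadSum (fun a b c d => quadCoef a b c d * ∫ v in (0 : ℝ)..V, expWeight θ v *
        gaussPartial (quadRange a b c d N) (quadScale s a b c d * Real.exp (v / 2))) A +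
      4 * (Nb : ℝ) ^ 6 * (3 + Real.log ((Nb : ℝ) ^ 4 / (π * s))) ^ 2 := by
  obtain ⟨Tm, hTm⟩ : ∃ Tm : Finset ℕ × Finset ℕ → Finset ℕ × Finset ℕ → ℕ → ℕ → ℝ → ℂ,
      Tm = fun e e' n m v => ((expWeight θ v * Real.exp (-(π * s * (ratioSq e n + ratioSq e' m) *
        Real.exp v)) : ℝ) : ℂ) *
          cexp (-(I * (π * k * (ratioSq e n - ratioSq e' m) : ℝ) * Real.exp v)) := ⟨_, rfl⟩
  have hTc : ∀ e e' n m, Continuous (Tm e e' n m) := fun e e' n m => by
    rw [hTm]
    exact (Complex.continuous_ofReal.comp ((continuous_expWeight θ).mul (by fun_prop))).mul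
      (by fun_prop)
  have e1 : ∀ v : ℝ, ((expWeight θ v * ‖twistPartial s k A N v‖ ^ 2 : ℝ) : ℂ) =
      ∑ e ∈ A ×ˢ A, ∑ e' ∈ A ×ˢ A, ((pairCoef e * pairCoef e' : ℝ) : ℂ) *
        ∑ n ∈ Icc 1 N, ∑ m ∈ Icc 1 N, Tm e e' n m v := fun v => by
    rw [Complex.ofReal_mul, Complex.ofReal_pow, ← Complex.mul_conj', twistPartial, map_sum,
      sum_mul_sum, mul_sum]
    refine sum_congr rfl fun e _ => ?_
    rw [mul_sum]
    refine sum_congr rfl fun e' _ => ?_
    rw [map_mul, Complex.conj_ofReal, map_sum, mul_mul_mul_comm, mul_left_comm,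
      ← Complex.ofReal_mul, sum_mul_sum]
    congr 1
    rw [mul_sum]
    refine sum_congr rfl fun n _ => ?_
    rw [mul_sum]
    refine sum_congr rfl fun m _ => ?_
    rw [hTm, ← Complex.exp_conj, ← Complex.exp_add]
    simp only
    rw [Complex.ofReal_mul (expWeight θ v) (Real.exp (-_)), Complex.ofReal_exp (-_)]
    conv_rhs => rw [mul_assoc, ← Complex.exp_add]
    congr 2
    simp only [map_neg, map_mul, map_add, Complex.conj_ofReal, Complex.conj_I]
    push_cast
    ring
  have hI : ((∫ v in (0 : ℝ)..V, expWeight θ v * ‖twistPartial s k A N v‖ ^ 2 : ℝ) : ℂ) =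
      ∑ e ∈ A ×ˢ A, ∑ e' ∈ A ×ˢ A, ((pairCoef e * pairCoef e' : ℝ) : ℂ) *
        ∑ n ∈ Icc 1 N, ∑ m ∈ Icc 1 N, ∫ v in (0 : ℝ)..V, Tm e e' n m v := by
    rw [← intervalIntegral.integral_ofReal]
    simp only [e1]
    have hP : ∀ e e', Continuous fun v => ((pairCoef e * pairCoef e' : ℝ) : ℂ) *
        ∑ n ∈ Icc 1 N, ∑ m ∈ Icc 1 N, Tm e e' n m v := fun e e' => continuous_const.mul
      (continuous_finsetSum _ fun n _ => continuous_finsetSum _ fun m _ => hTc e e' n m)
    rw [intervalIntegral.integral_finsetSum fun e _ => (continuous_finsetSum _ fun e' _ =>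
      hP e e').intervalIntegrable _ _]
    refine sum_congr rfl fun e _ => ?_
    rw [intervalIntegral.integral_finsetSum fun e' _ => (hP e e').intervalIntegrable _ _]
    refine sum_congr rfl fun e' _ => ?_
    rw [intervalIntegral.integral_const_mul, intervalIntegral.integral_finsetSum fun n _ =>
      (continuous_finsetSum _ fun m _ => hTc e e' n m).intervalIntegrable _ _]
    congr 1
    exact sum_congr rfl fun n _ => intervalIntegral.integral_finsetSum fun m _ =>
      (hTc e e' n m).intervalIntegrable _ _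
  obtain ⟨D, hD⟩ : ∃ D : ℝ, D = quadSum (fun a b c d => quadCoef a b c d *
      ∫ v in (0 : ℝ)..V, expWeight θ v *
        gaussPartial (quadRange a b c d N) (quadScale s a b c d * Real.exp (v / 2))) A := ⟨_, rfl⟩
  obtain ⟨X, hX⟩ : ∃ X : ℝ, X = 4 * (Nb : ℝ) ^ 2 *
      (3 + Real.log ((Nb : ℝ) ^ 4 / (π * s))) ^ 2 := ⟨_, rfl⟩
  rw [← hD, ← sub_le_iff_le_add']
  refine (le_abs_self _).trans ?_
  rw [← Real.norm_eq_abs, ← Complex.norm_real, Complex.ofReal_sub, hI, hD]
  simp only [quadSum, sum_product, Complex.ofReal_sum, ← sum_sub_distrib]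
  refine (norm_sum_le _ _).trans ((sum_le_sum fun a ha => (norm_sum_le _ _).trans
    (sum_le_sum fun b hb => (norm_sum_le _ _).trans (sum_le_sum fun c hc =>
      (norm_sum_le _ _).trans (sum_le_sum (g := fun _ => X) fun d hd => ?_)))).trans ?_)
  · rw [hTm, Complex.ofReal_mul (quadCoef a b c d)]
    simp only [quadCoef]
    rw [← mul_sub, norm_mul, Complex.norm_real, Real.norm_eq_abs]
    refine (mul_le_mul (abs_quadCoef_le a b c d) (norm_quad_sub_le (hA a ha) (hA b hb) (hA c hc)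
      (hA d hd) hs hs1 hk hθ hV N) (norm_nonneg _) (by positivity)).trans ?_
    have hbd : (setProd b : ℝ) * setProd d ≤ (Nb : ℝ) ^ 2 := by
      rw [sq]
      exact mul_le_mul (Nat.cast_le.2 (hA b hb).2) (Nat.cast_le.2 (hA d hd).2)
        (Nat.cast_nonneg _) (Nat.cast_nonneg _)
    obtain ⟨q, hq⟩ : ∃ q : ℝ, q = (setProd b : ℝ) * setProd d := ⟨_, rfl⟩
    have hq0 : 0 < q := hq ▸ mul_pos (Nat.cast_pos.2 (hA b hb).1) (Nat.cast_pos.2 (hA d hd).1)
    rw [← hq] at hbd ⊢
    rw [hX, show ∀ R : ℝ, 1 / q * (4 * q ^ 2 * R) = 4 * q * R from fun R => by field_simp]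
    exact mul_le_mul_of_nonneg_right (mul_le_mul_of_nonneg_left hbd (by norm_num)) (sq_nonneg _)
  · simp only [sum_const, nsmul_eq_mul]
    have hX0 : 0 ≤ X := hX ▸ by positivity
    calc (A.card : ℝ) * (A.card * (A.card * (A.card * X))) = (A.card : ℝ) ^ 4 * X := by ring
      _ ≤ (Nb : ℝ) ^ 4 * X := mul_le_mul_of_nonneg_right
          (pow_le_pow_left₀ (Nat.cast_nonneg _) (Nat.cast_le.2 hcard) 4) hX0
      _ = _ := by rw [hX]; ring

/-- The substitution `x = η e^(v/2)`. -/
theorem integral_gauss_subst {θ η : ℝ} (hη : 0 < η) (M : ℕ) (V : ℝ) :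
    ∫ v in (0 : ℝ)..V, expWeight θ v * gaussPartial M (η * Real.exp (v / 2)) =
      2 * η ^ (θ - 1) * ∫ x in η..η * Real.exp (V / 2), x ^ (-θ) * gaussPartial M x := by
  have hf : ∀ v ∈ Set.uIcc (0 : ℝ) V,
      HasDerivAt (fun v => η * Real.exp (v / 2)) (η * (Real.exp (v / 2) / 2)) v := fun v _ => by
    refine (((hasDerivAt_id' v).div_const 2).exp.const_mul η).congr_deriv ?_
    ring
  have h := intervalIntegral.integral_comp_mul_deriv' (g := fun x => x ^ (-θ) * gaussPartial M x)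
    hf (by fun_prop) (ContinuousOn.mul (ContinuousOn.rpow_const continuousOn_id fun x hx => by
      obtain ⟨v, -, rfl⟩ := hx
      exact Or.inl (ne_of_gt (mul_pos hη (Real.exp_pos _))))
      (by unfold gaussPartial; fun_prop))
  simp only [zero_div, Real.exp_zero, mul_one] at h
  rw [← h, ← intervalIntegral.integral_const_mul]
  refine intervalIntegral.integral_congr fun v _ => ?_
  simp only [Function.comp_apply, expWeight]
  rw [Real.mul_rpow hη.le (Real.exp_pos _).le, ← Real.exp_mul,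
    show (1 - θ) * v / 2 = v / 2 + v / 2 * (-θ) by ring, Real.exp_add]
  have e : η ^ (θ - 1) * η ^ (-θ) * η = 1 := by
    rw [← Real.rpow_add hη, show θ - 1 + -θ = (-1 : ℝ) by ring, Real.rpow_neg_one,
      inv_mul_cancel₀ hη.ne']
  linear_combination (-(Real.exp (v / 2) * Real.exp (v / 2 * -θ) *
    gaussPartial M (η * Real.exp (v / 2)))) * e

theorem tendsto_quadRange {a b c d : Finset ℕ} (ha : 0 < setProd a) (hb : 0 < setProd b)
    (hc : 0 < setProd c) (hd : 0 < setProd d) :
    Tendsto (fun N => quadRange a b c d N) atTop atTop := by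
  have hg : 0 < Nat.gcd (setProd a * setProd d) (setProd b * setProd c) :=
    Nat.gcd_pos_of_pos_left _ (Nat.mul_pos ha hd)
  refine tendsto_atTop_atTop.2 fun M => ⟨M * (setProd b * setProd c) + M * (setProd a * setProd d),
    fun N hN => le_min ((Nat.le_div_iff_mul_le ?_).2 ?_) ((Nat.le_div_iff_mul_le ?_).2 ?_)⟩
  · exact Nat.div_pos (Nat.le_of_dvd (Nat.mul_pos hb hc) (Nat.gcd_dvd_right _ _)) hg
  · exact (Nat.mul_le_mul_left M (Nat.div_le_self _ _)).trans (by omega)
  · exact Nat.div_pos (Nat.le_of_dvd (Nat.mul_pos ha hd) (Nat.gcd_dvd_left _ _)) hg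
  · exact (Nat.mul_le_mul_left M (Nat.div_le_self _ _)).trans (by omega)

theorem rotPoint_eq (T v : ℝ) : rotPoint T v =
    I * (((Real.cos (tilt T) : ℂ) + (Real.sin (tilt T) : ℂ) * I) * (Real.exp v : ℂ)) := by
  rw [rotPoint, Complex.exp_mul_I, ← Complex.ofReal_cos, ← Complex.ofReal_sin]

theorem rotPoint_im_pos {T : ℝ} (hT : 4 ≤ T) (v : ℝ) : 0 < (rotPoint T v).im := by
  have hs := (cos_tilt_bounds hT).1
  have hs0 : 0 < Real.cos (tilt T) := lt_of_lt_of_le (by positivity) hs
  rw [rotPoint_eq, Complex.I_mul_im, Complex.re_mul_ofReal]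
  simp only [Complex.add_re, Complex.mul_re, Complex.ofReal_re, Complex.I_re, mul_zero,
    Complex.ofReal_im, Complex.I_im, zero_mul, sub_zero, add_zero]
  positivity

theorem continuous_twistTheta {T : ℝ} (hT : 4 ≤ T) (A : Finset (Finset ℕ)) :
    Continuous (twistTheta T A) := by
  refine continuous_finsetSum _ fun e _ => continuous_const.mul (((continuous_iff_continuousAt.2
    fun v => ?_).sub continuous_const).div_const _)
  exact ContinuousAt.comp (g := jacobiTheta)
    (f := fun v => rotPoint T (v + 2 * (Real.log (setProd e.1) - Real.log (setProd e.2))))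
    (continuousAt_jacobiTheta (rotPoint_im_pos hT _)) (by unfold rotPoint; fun_prop)

/-- **The mean square of the twisted theta series.** -/
theorem integral_twistTheta_le {T θ S : ℝ} (hT : 4 ≤ T) (hθ : 0 < θ) (hθ1 : θ ≤ 1 / 2)
    (hA : ∀ e ∈ A, 0 < setProd e ∧ setProd e ≤ Nb) (hcard : A.card ≤ Nb) (hNb : 1 ≤ Nb)
    (hS0 : |quadSum (quadTerm 0) A| ≤ S) (hSθ : |quadSum (quadTerm θ) A| ≤ S) {V : ℝ}
    (hV : 0 ≤ V) :
    ∫ v in (0 : ℝ)..V, expWeight θ v * ‖twistTheta T A v‖ ^ 2 ≤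
      14 * √T * S / θ + 8 * (Nb : ℝ) ^ 6 * (3 + Real.log ((Nb : ℝ) ^ 4 * T)) ^ 2 := by
  obtain ⟨hs2, hs1, hk⟩ := cos_tilt_bounds hT
  obtain ⟨s, hs⟩ : ∃ s, s = Real.cos (tilt T) := ⟨_, rfl⟩
  obtain ⟨k, hkd⟩ : ∃ k, k = Real.sin (tilt T) := ⟨_, rfl⟩
  rw [← hs] at hs1 hs2
  rw [← hkd] at hk
  have hT0 : 0 < T := by linarith
  have hs0 : 0 < s := lt_of_lt_of_le (by positivity) hs2
  have hNbr : (1 : ℝ) ≤ Nb := Nat.one_le_cast.2 hNb
  obtain ⟨O, hO⟩ : ∃ O : ℝ, O = 4 * (Nb : ℝ) ^ 6 *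
      (3 + Real.log ((Nb : ℝ) ^ 4 / (π * s))) ^ 2 := ⟨_, rfl⟩
  have hη0 : ∀ a ∈ A, ∀ b ∈ A, ∀ c ∈ A, ∀ d ∈ A, 0 < quadScale s a b c d :=
    fun a ha b hb c hc d hd => mul_pos (Real.sqrt_pos.2 (by positivity)) (div_pos
      (mul_pos (Nat.cast_pos.2 (hA a ha).1) (Nat.cast_pos.2 (hA c hc).1))
      (Nat.cast_pos.2 (Nat.gcd_pos_of_pos_left _ (Nat.mul_pos (hA a ha).1 (hA d hd).1))))
  -- `N → ∞`
  have hbound : ∀ W, 0 ≤ W → ∫ v in (0 : ℝ)..W, expWeight θ v * ‖twistTheta T A v‖ ^ 2 ≤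
      quadSum (fun a b c d => quadCoef a b c d * (2 * quadScale s a b c d ^ (θ - 1) *
        (mellinTail θ (quadScale s a b c d) -
          mellinTail θ (quadScale s a b c d * Real.exp (W / 2))))) A + O := by
    intro W hW
    have hlim : ∀ v, Tendsto (fun N => twistPartial s k A N v) atTop
        (𝓝 (twistTheta T A v)) := fun v => by
      refine tendsto_finsetSum _ fun e he => Tendsto.const_mul _ ?_
      obtain ⟨he1, he2⟩ := mem_product.1 he
      have hX : Real.exp (v + 2 * (Real.log (setProd e.1) - Real.log (setProd e.2))) =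
          Real.exp v * ((setProd e.1 : ℝ) / setProd e.2) ^ 2 := by
        rw [Real.exp_add, two_mul, Real.exp_add, Real.exp_sub,
          Real.exp_log (Nat.cast_pos.2 (hA _ he1).1),
          Real.exp_log (Nat.cast_pos.2 (hA _ he2).1), sq]
      refine (hasSum_nat_jacobiTheta (rotPoint_im_pos hT _)).tendsto_sum_nat.congr fun N => ?_
      induction N with
      | zero => simp
      | succ m ih =>
        rw [sum_range_succ, ih, sum_Icc_succ_top (by omega)]
        congr 2
        rw [rotPoint_eq, ← hs, ← hkd, hX, ratioSq]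
        push_cast
        linear_combination ((π : ℂ) * ((m : ℂ) + 1) ^ 2 * (((s : ℂ) + k * I) *
          (Complex.exp (v : ℂ) * ((setProd e.1 : ℂ) / setProd e.2) ^ 2))) * I_sq
    obtain ⟨Bd, hBd⟩ : ∃ Bd, Bd = ∑ _e ∈ A ×ˢ A, √(π / (π * s / (Nb : ℝ) ^ 2)) / 2 := ⟨_, rfl⟩
    have hbd : ∀ N v, 0 ≤ v → ‖twistPartial s k A N v‖ ≤ Bd := fun N v hv => by
      rw [hBd]
      refine (norm_sum_le _ _).trans (sum_le_sum fun e he => ?_)
      obtain ⟨he1, he2⟩ := mem_product.1 he
      rw [norm_mul, Complex.norm_real, Real.norm_eq_abs]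
      refine (mul_le_of_le_one_left (norm_nonneg _) ((abs_pairCoef_le e).trans
        (div_le_one_of_le₀ (Nat.one_le_cast.2 (hA _ he2).1) (Nat.cast_nonneg _)))).trans ?_
      refine (norm_sum_le _ _).trans (le_trans (sum_le_sum fun n _ => ?_)
        (HardyLittlewoodZeros.sum_gauss_le (by positivity) N))
      rw [Complex.norm_exp]
      refine Real.exp_le_exp.2 ?_
      simp only [Complex.neg_re, Complex.add_re, Complex.ofReal_re,
        Complex.mul_re, Complex.I_re, mul_zero, Complex.ofReal_im, Complex.I_im, zero_mul, sub_zero,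
        add_zero, neg_le_neg_iff, ratioSq]
      have h1 : 1 / (Nb : ℝ) ≤ (setProd e.1 : ℝ) / setProd e.2 :=
        div_le_div₀ (Nat.cast_nonneg _) (Nat.one_le_cast.2 (hA _ he1).1)
          (Nat.cast_pos.2 (hA _ he2).1) (Nat.cast_le.2 (hA _ he2).2)
      have h2 := mul_le_mul_of_nonneg_left (pow_le_pow_left₀ (by positivity) h1 2)
        (show 0 ≤ π * (n : ℝ) ^ 2 * s by positivity)
      have h3 := le_mul_of_one_le_right (show 0 ≤ π * (n : ℝ) ^ 2 * s *
        ((setProd e.1 : ℝ) / setProd e.2) ^ 2 by positivity) (Real.one_le_exp hv)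
      calc π * s / (Nb : ℝ) ^ 2 * (n : ℝ) ^ 2 = π * (n : ℝ) ^ 2 * s * (1 / (Nb : ℝ)) ^ 2 := by ring
        _ ≤ _ := h2
        _ ≤ _ := h3
        _ = _ := by ring
    have hL : Tendsto (fun N => ∫ v in (0 : ℝ)..W, expWeight θ v * ‖twistPartial s k A N v‖ ^ 2)
        atTop (𝓝 (∫ v in (0 : ℝ)..W, expWeight θ v * ‖twistTheta T A v‖ ^ 2)) := by
      refine intervalIntegral.tendsto_integral_filter_of_dominated_convergence
        (fun v => expWeight θ v * Bd ^ 2) ?_ ?_
        (((continuous_expWeight θ).mul continuous_const).intervalIntegrable _ _)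
        (Eventually.of_forall fun v _ => ((hlim v).norm.pow 2).const_mul _)
      · refine Eventually.of_forall fun N => Continuous.aestronglyMeasurable ?_
        exact (continuous_expWeight θ).mul ((continuous_finsetSum _ fun e _ =>
          continuous_const.mul (continuous_finsetSum _ fun n _ => by fun_prop)).norm.pow 2)
      · refine Eventually.of_forall fun N => Eventually.of_forall fun v hv => ?_
        rw [Set.uIoc_of_le hW] at hv
        rw [expWeight, Real.norm_of_nonneg (by positivity)]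
        exact mul_le_mul_of_nonneg_left (pow_le_pow_left₀ (norm_nonneg _) (hbd N v hv.1.le) 2)
          (Real.exp_pos _).le
    refine le_of_tendsto_of_tendsto' hL (Tendsto.add_const O ?_) fun N =>
      hO ▸ integral_twistPartial_le hA hcard hs0 hs1 hk hθ.le hW N
    refine tendsto_finsetSum _ fun a ha => tendsto_finsetSum _ fun b hb =>
      tendsto_finsetSum _ fun c hc => tendsto_finsetSum _ fun d hd => Tendsto.const_mul _ ?_
    obtain ⟨η, hη⟩ : ∃ η, η = quadScale s a b c d := ⟨_, rfl⟩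
    have hη' : 0 < η := hη ▸ hη0 a ha b hb c hc d hd
    rw [← hη]
    simp only [integral_gauss_subst hη']
    have hle : η ≤ η * Real.exp (W / 2) :=
      le_mul_of_one_le_right hη'.le (Real.one_le_exp (by linarith))
    rw [← mellinTail_sub hθ hη' hle]
    refine Tendsto.const_mul _ (intervalIntegral.tendsto_integral_filter_of_dominated_convergence
      (fun x => √π / 2 * x ^ (-θ - 1)) ?_ ?_ ?_ ?_)
    · refine Eventually.of_forall fun N => Measurable.aestronglyMeasurable ?_
      exact (measurable_id.pow_const _).mul (by unfold gaussPartial; fun_prop)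
    · refine Eventually.of_forall fun N => Eventually.of_forall fun x hx => ?_
      rw [Set.uIoc_of_le hle] at hx
      have hx0 : 0 < x := hη'.trans hx.1
      rw [Real.norm_of_nonneg (mul_nonneg (Real.rpow_nonneg hx0.le _) (gaussPartial_nonneg _ _))]
      refine (mul_le_mul_of_nonneg_left (gaussPartial_le hx0 _) (Real.rpow_nonneg hx0.le _)).trans
        (le_of_eq ?_)
      rw [Real.rpow_sub hx0, Real.rpow_one]
      ring
    · exact (intervalIntegral.intervalIntegrable_rpow (Or.inr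
        (Set.notMem_uIcc_of_lt hη' (hη'.trans_le hle)))).const_mul _
    · refine Eventually.of_forall fun x hx => Tendsto.const_mul _ ?_
      rw [Set.uIoc_of_le hle] at hx
      exact (tendsto_gaussPartial (hη'.trans hx.1)).comp
        (tendsto_quadRange (hA a ha).1 (hA b hb).1 (hA c hc).1 (hA d hd).1)
  -- `V → ∞`
  have htail : ∀ η, 0 < η → Tendsto (fun W => mellinTail θ (η * Real.exp (W / 2))) atTop (𝓝 0) := by
    intro η hη
    have hgo : Tendsto (fun W => η * Real.exp (W / 2)) atTop atTop :=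
      (Real.tendsto_exp_atTop.comp (tendsto_id.atTop_div_const two_pos)).const_mul_atTop hη
    refine squeeze_zero' (Eventually.of_forall fun W => mellinTail_nonneg (by positivity))
      (Eventually.of_forall fun W => mellinTail_le hθ (by positivity)) ?_
    simpa using ((tendsto_rpow_neg_atTop hθ).comp hgo).const_mul (√π / (2 * θ))
  have hinf : ∫ v in (0 : ℝ)..V, expWeight θ v * ‖twistTheta T A v‖ ^ 2 ≤
      quadSum (fun a b c d => quadCoef a b c d * (2 * quadScale s a b c d ^ (θ - 1) *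
        mellinTail θ (quadScale s a b c d))) A + O := by
    refine ge_of_tendsto (x := atTop) (f := fun W => quadSum (fun a b c d => quadCoef a b c d *
      (2 * quadScale s a b c d ^ (θ - 1) * (mellinTail θ (quadScale s a b c d) -
        mellinTail θ (quadScale s a b c d * Real.exp (W / 2))))) A + O) (Tendsto.add_const O ?_)
      (eventually_atTop.2 ⟨V, fun W hW => le_trans ?_ (hbound W (hV.trans hW))⟩)
    · refine tendsto_finsetSum _ fun a ha => tendsto_finsetSum _ fun b hb =>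
        tendsto_finsetSum _ fun c hc => tendsto_finsetSum _ fun d hd => ?_
      have := ((htail _ (hη0 a ha b hb c hc d hd)).const_sub
        (mellinTail θ (quadScale s a b c d)))
      rw [sub_zero] at this
      exact (this.const_mul _).const_mul _
    · exact intervalIntegral.integral_mono_interval le_rfl hV hW
        (Eventually.of_forall fun v => mul_nonneg (Real.exp_pos _).le (sq_nonneg _))
        (((continuous_expWeight θ).mul
          ((continuous_twistTheta hT A).norm.pow 2)).intervalIntegrable _ _)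
  -- the expansion
  obtain ⟨c₀, hc₀, hexp⟩ := mellinTail_expansion hθ hθ1
  obtain ⟨r, hr⟩ : ∃ r, r = √(2 * π * s) := ⟨_, rfl⟩
  have hr0 : 0 < r := hr ▸ Real.sqrt_pos.2 (by positivity)
  obtain ⟨G, hG⟩ : ∃ G : Finset ℕ → Finset ℕ → Finset ℕ → Finset ℕ → ℝ, G = fun a b c d =>
      quadCoef a b c d * (2 * quadScale s a b c d ^ (θ - 1) *
        (mellinTail θ (quadScale s a b c d) - √π / (2 * θ) * quadScale s a b c d ^ (-θ) - c₀)) :=
    ⟨_, rfl⟩
  have hGb : |quadSum G A| ≤ (Nb : ℝ) ^ 4 * 4 := by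
    refine abs_quadSum_le hcard (by norm_num) fun a ha b hb c hc d hd => ?_
    obtain ⟨η, hη⟩ : ∃ η, η = quadScale s a b c d := ⟨_, rfl⟩
    have hη' : 0 < η := hη ▸ hη0 a ha b hb c hc d hd
    rw [hG]
    simp only
    rw [← hη, abs_mul, abs_mul, abs_mul, abs_two, abs_of_pos (Real.rpow_pos_of_pos hη' _)]
    refine (mul_le_of_le_one_left (by positivity) ((abs_quadCoef_le a b c d).trans
      (div_le_one_of_le₀ (one_le_mul_of_one_le_of_one_le (Nat.one_le_cast.2 (hA b hb).1)
        (Nat.one_le_cast.2 (hA d hd).1)) (by positivity)))).trans ?_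
    refine (mul_le_mul_of_nonneg_left (hexp η hη') (by positivity)).trans (le_of_eq ?_)
    rw [mul_mul_mul_comm, ← Real.rpow_add hη', show θ - 1 + (1 - θ) = 0 by ring, Real.rpow_zero]
    norm_num
  have hsplit : quadSum (fun a b c d => quadCoef a b c d * (2 * quadScale s a b c d ^ (θ - 1) *
        mellinTail θ (quadScale s a b c d))) A =
      √π / θ / r * quadSum (quadTerm 0) A + 2 * c₀ * r ^ (θ - 1) * quadSum (quadTerm θ) A +
        quadSum G A := by
    simp only [quadSum, mul_sum, ← sum_add_distrib]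
    refine sum_congr rfl fun a ha => sum_congr rfl fun b hb => sum_congr rfl fun c hc =>
      sum_congr rfl fun d hd => ?_
    obtain ⟨η, hη⟩ : ∃ η, η = quadScale s a b c d := ⟨_, rfl⟩
    have hη' : 0 < η := hη ▸ hη0 a ha b hb c hc d hd
    obtain ⟨x, hx⟩ : ∃ x : ℝ, x = (Nat.gcd (setProd a * setProd d) (setProd b * setProd c) : ℝ) /
        ((setProd a : ℝ) * setProd c) := ⟨_, rfl⟩
    have hηx : η = r * x⁻¹ := by rw [hη, quadScale, hr, hx, inv_div]
    have hx0 : 0 < x := inv_pos.1 (pos_of_mul_pos_right (hηx ▸ hη') hr0.le)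
    have e1 : η ^ (θ - 1) * η ^ (-θ) = x / r := by
      rw [← Real.rpow_add hη', show θ - 1 + -θ = (-1 : ℝ) by ring, Real.rpow_neg_one, hηx,
        mul_inv, inv_inv]
      ring
    have e2 : η ^ (θ - 1) = r ^ (θ - 1) * x ^ (1 - θ) := by
      rw [hηx, Real.mul_rpow hr0.le (inv_nonneg.2 hx0.le), ← Real.rpow_neg_one x,
        ← Real.rpow_mul hx0.le]
      ring_nf
    have hq : ∀ t : ℝ, quadTerm t a b c d = quadCoef a b c d * x ^ (1 - t) := fun t => by
      rw [quadTerm, quadWeight, quadCoef, pairCoef, pairCoef, hx]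
      field_simp
    rw [hG, hq, hq, sub_zero, Real.rpow_one]
    simp only [← hη]
    linear_combination (quadCoef a b c d * (√π / θ)) * e1 +
      (2 * c₀ * quadCoef a b c d) * e2
  refine hinf.trans ?_
  rw [hsplit]
  have hS : 0 ≤ S := (abs_nonneg _).trans hS0
  have hrT : 1 / r ≤ √T := by
    rw [div_le_iff₀ hr0, hr, ← Real.sqrt_mul hT0.le]
    refine Real.one_le_sqrt.2 ?_
    rw [div_le_iff₀ (by positivity)] at hs2
    have := mul_le_mul_of_nonneg_left hs2 Real.pi_pos.le
    linarith [Real.pi_gt_three]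
  have hrθ : r ^ (θ - 1) ≤ 2 * √T := by
    rw [Real.rpow_sub hr0, Real.rpow_one]
    refine le_trans ?_ (mul_le_mul_of_nonneg_left hrT two_pos.le)
    rw [mul_one_div]
    refine div_le_div_of_nonneg_right ?_ hr0.le
    refine (Real.rpow_le_rpow hr0.le (show r ≤ 2 from ?_) hθ.le).trans
      ((Real.rpow_le_rpow_of_exponent_le one_le_two (show θ ≤ 1 by linarith)).trans_eq
        (Real.rpow_one _))
    rw [hr, Real.sqrt_le_iff]
    exact ⟨two_pos.le, by linarith⟩
  have t1 : √π / θ / r * quadSum (quadTerm 0) A ≤ 2 * √T * S / θ := by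
    refine (mul_le_mul_of_nonneg_left ((le_abs_self _).trans hS0) (by positivity)).trans ?_
    rw [show √π / θ / r * S = √π * (1 / r) * S / θ by ring]
    refine div_le_div_of_nonneg_right (mul_le_mul_of_nonneg_right (mul_le_mul ?_ hrT (by positivity)
      two_pos.le) hS) hθ.le
    exact (Real.sqrt_le_iff).2 ⟨two_pos.le, by linarith [Real.pi_lt_four]⟩
  have t2 : 2 * c₀ * r ^ (θ - 1) * quadSum (quadTerm θ) A ≤ 12 * √T * S / θ := by
    refine (le_abs_self _).trans ?_
    rw [abs_mul, abs_mul, abs_mul, abs_two, abs_of_pos (Real.rpow_pos_of_pos hr0 _)]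
    refine (mul_le_mul (mul_le_mul (mul_le_mul_of_nonneg_left hc₀ two_pos.le) hrθ
      (Real.rpow_nonneg hr0.le _) (by positivity)) hSθ (abs_nonneg _) (by positivity)).trans
        (le_of_eq ?_)
    ring
  obtain ⟨L, hL⟩ : ∃ L, L = 3 + Real.log ((Nb : ℝ) ^ 4 * T) := ⟨_, rfl⟩
  have hN4 : 1 ≤ (Nb : ℝ) ^ 4 := one_le_pow₀ hNbr
  have hlog : Real.log ((Nb : ℝ) ^ 4 / (π * s)) ≤ Real.log ((Nb : ℝ) ^ 4 * T) := by
    refine Real.log_le_log (by positivity) ?_
    rw [div_le_iff₀ (by positivity)]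
    refine le_mul_of_one_le_right (by positivity) ?_ |>.trans (le_of_eq (mul_assoc _ _ _).symm)
    rw [div_le_iff₀ (by positivity)] at hs2
    have := mul_le_mul_of_nonneg_left hs2 Real.pi_pos.le
    linarith [Real.pi_gt_three]
  have hlog0 : 0 ≤ Real.log ((Nb : ℝ) ^ 4 / (π * s)) :=
    Real.log_nonneg ((one_le_div (by positivity)).2 (hs1.trans hN4))
  have hO' : O ≤ 4 * (Nb : ℝ) ^ 6 * L ^ 2 := by
    rw [hO, hL]
    gcongr
  have hL1 : 1 ≤ L ^ 2 := one_le_pow₀ (by linarith)
  have hN6 : (Nb : ℝ) ^ 4 * 4 ≤ 4 * (Nb : ℝ) ^ 6 * L ^ 2 := by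
    have h46 : (Nb : ℝ) ^ 4 ≤ (Nb : ℝ) ^ 6 := pow_le_pow_right₀ hNbr (by norm_num)
    have := le_mul_of_one_le_right (show 0 ≤ 4 * (Nb : ℝ) ^ 6 by positivity) hL1
    linarith
  rw [← hL, show 14 * √T * S / θ = 2 * √T * S / θ + 12 * √T * S / θ by ring]
  linarith [le_abs_self (quadSum G A)]

end FA.SelbergZeros
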