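import Fermat.Agent.SelbergZeros.Fourier
import Fermat.Agent.BohrLandau.Approx

/-!
# The first moment of `ζ` times the squared mollifier

`∫_a^b ζ (1/2 + 2iy) ψ(y)² dy = b - a + O (√T · length²)`: Cauchy's theorem moves the segment to
`re s = 2`, where the Dirichlet series starts with `1`.
-/

set_option autoImplicit false

noncomputable section

namespace FA.SelbergZeros

open MeasureTheory Complex Finset
open FA.HardyZeros (linePt)
open scoped Real

/-- `∑ β_μ μ^(-s)`. -/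
def molSeries (A : Finset (Finset ℕ)) (s : ℂ) : ℂ :=
  ∑ m ∈ A, (setCoef m : ℂ) * (setProd m : ℂ) ^ (-s)

/-- The product whose boundary integral vanishes. -/
def molZeta (A : Finset (Finset ℕ)) (s : ℂ) : ℂ := riemannZeta s * molSeries A s ^ 2

variable {A : Finset (Finset ℕ)} {Nb : ℕ}

theorem molVal_eq (hpr : ∀ s ∈ A, ∀ p ∈ s, Nat.Prime p) (y : ℝ) :
    molVal A y = molSeries A (linePt y) := by
  refine sum_congr rfl fun m hm => ?_
  have hn : (0 : ℝ) < setProd m := Nat.cast_pos.2 (setProd_pos (hpr m hm))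
  have e : (setProd m : ℂ) ^ (-linePt y) = ((√(setProd m : ℝ))⁻¹ : ℝ) *
      cexp (((-(2 * Real.log (setProd m) * y) : ℝ) : ℂ) * I) := by
    rw [cpow_def_of_ne_zero (Nat.cast_ne_zero.2 (setProd_pos (hpr m hm)).ne'),
      ← Complex.natCast_log, show (√(setProd m : ℝ))⁻¹ = Real.exp (-(Real.log (setProd m) / 2)) by
        rw [Real.exp_neg, Real.exp_half, Real.exp_log hn], Complex.ofReal_exp, ← Complex.exp_add,
      linePt]
    push_cast
    ring_nf
  rw [e]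
  push_cast
  ring

theorem norm_molSeries_le (hpr : ∀ s ∈ A, ∀ p ∈ s, Nat.Prime p) (hcard : A.card ≤ Nb) {s : ℂ}
    (hs : 0 ≤ s.re) : ‖molSeries A s‖ ≤ Nb := by
  refine (norm_sum_le _ _).trans ((sum_le_sum (g := fun _ => (1 : ℝ)) fun m hm => ?_).trans ?_)
  · rw [norm_mul, Complex.norm_real, Real.norm_eq_abs,
      Complex.norm_natCast_cpow_of_pos (setProd_pos (hpr m hm)), Complex.neg_re]
    refine mul_le_one₀ (abs_setCoef_le m) (Real.rpow_nonneg (Nat.cast_nonneg _) _) ?_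
    exact Real.rpow_le_one_of_one_le_of_nonpos (Nat.one_le_cast.2 (setProd_pos (hpr m hm)))
      (by linarith)
  · simpa using (Nat.cast_le.2 hcard : (A.card : ℝ) ≤ Nb)

theorem differentiableAt_molZeta (hpr : ∀ s ∈ A, ∀ p ∈ s, Nat.Prime p) {s : ℂ} (hs : s ≠ 1) :
    DifferentiableAt ℂ (molZeta A) s := by
  refine (differentiableAt_riemannZeta hs).mul (DifferentiableAt.pow ?_ 2)
  refine DifferentiableAt.fun_sum fun m hm => (DifferentiableAt.const_cpow (by fun_prop)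
    (Or.inl ?_)).const_mul _
  exact Nat.cast_ne_zero.2 (setProd_pos (hpr m hm)).ne'

theorem sum_inv_sqrt_le (M : ℕ) : ∑ n ∈ Icc 1 M, 1 / √(n : ℝ) ≤ 2 * √(M : ℝ) := by
  induction M with
  | zero => simp
  | succ m ih =>
    rw [sum_Icc_succ_top (by omega)]
    refine (add_le_add ih le_rfl).trans ?_
    push_cast
    have h1 := Real.sq_sqrt (show 0 ≤ (m : ℝ) by positivity)
    have h2 := Real.sq_sqrt (show 0 ≤ (m : ℝ) + 1 by positivity)
    have h3 : 0 < √((m : ℝ) + 1) := Real.sqrt_pos.2 (by positivity)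
    rw [← le_sub_iff_add_le', div_le_iff₀ h3]
    nlinarith [sq_nonneg (√((m : ℝ) + 1) - √(m : ℝ))]

/-- `ζ (σ + it) = O (√t)` for `1/2 ≤ σ ≤ 2`. -/
theorem norm_zeta_strip_sqrt_le {σ t : ℝ} (hσ : 1 / 2 ≤ σ) (hσ2 : σ ≤ 2) (ht : 2 ≤ t) :
    ‖riemannZeta (σ + t * I)‖ ≤ 4002 * √t := by
  obtain ⟨M, hM⟩ : ∃ M, M = ⌊t⌋₊ := ⟨_, rfl⟩
  have hM1 : t ≤ (M : ℝ) + 1 := hM ▸ (Nat.lt_floor_add_one t).le
  have hM2 : (M : ℝ) ≤ t := hM ▸ Nat.floor_le (by linarith)
  have h := BohrLandau.norm_vertErr_le hσ (by linarith) ht hM1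
  have hP : ((M : ℝ) + 1) ^ (1 / 2 - σ) ≤ 1 :=
    Real.rpow_le_one_of_one_le_of_nonpos (by linarith [(Nat.cast_nonneg M : (0 : ℝ) ≤ M)])
      (by linarith)
  have hQ : √((M : ℝ) + 1) / t ≤ 1 := by
    rw [div_le_one (by linarith), Real.sqrt_le_iff]
    exact ⟨by linarith, by nlinarith⟩
  have hS : ‖BohrLandau.vertSum σ M t‖ ≤ 2 * √t := by
    refine (norm_sum_le _ _).trans (((sum_le_sum fun n hn => ?_).trans (sum_inv_sqrt_le M)).trans
      (mul_le_mul_of_nonneg_left (Real.sqrt_le_sqrt hM2) zero_le_two))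
    have hn1 : (1 : ℝ) ≤ n := Nat.one_le_cast.2 (mem_Icc.1 hn).1
    rw [norm_div, norm_one, Complex.norm_natCast_cpow_of_pos (mem_Icc.1 hn).1, Real.sqrt_eq_rpow]
    refine one_div_le_one_div_of_le (Real.rpow_pos_of_pos (by linarith) _) ?_
    exact Real.rpow_le_rpow_of_exponent_le hn1 (by simpa using hσ)
  have hE : ‖BohrLandau.vertErr σ M t‖ ≤ 4000 := by
    refine h.trans ?_
    have := mul_le_mul hP (add_le_add_left hQ 1) (by positivity) zero_le_one
    linarith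
  have hst : 1 ≤ √t := Real.one_le_sqrt.2 (by linarith)
  have e : riemannZeta (σ + t * I) =
      BohrLandau.vertErr σ M t + BohrLandau.vertSum σ M t := by
    rw [BohrLandau.vertErr, sub_add_cancel]
  rw [e]
  refine (norm_add_le _ _).trans ?_
  linarith

/-- The truncation on `re s = 2`. -/
theorem norm_zeta_two_sub_le {T t : ℝ} (hT : 4 ≤ T) (ht0 : 0 ≤ t) (ht : t ≤ 4 * T) {N : ℕ}
    (hN : 4 * T ≤ N) :
    ‖riemannZeta (2 + t * I) - ∑ n ∈ Icc 1 N, 1 / (n : ℂ) ^ (2 + t * I)‖ ≤ 1 / T := by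
  obtain ⟨s, hs⟩ : ∃ s : ℂ, s = 2 + t * I := ⟨_, rfl⟩
  have hre : s.re = 2 := by simp [hs]
  have hs1 : s ≠ 1 := fun h => by rw [h] at hre; norm_num at hre
  have hN0 : (0 : ℝ) < N := by linarith
  have hN1 : 1 ≤ N := Nat.cast_pos.1 hN0
  rw [← hs, FA.ZeroFree.riemannZeta_truncated (by rw [hre]; norm_num) hs1 hN1, add_sub_assoc,
    add_sub_cancel_left]
  have hi : ‖∫ v in Set.Ioi (N : ℝ), ((v - (⌊v⌋₊ : ℝ) : ℝ) : ℂ) * (v : ℂ) ^ (-(s + 1))‖ ≤
      (N : ℝ) ^ (-s.re) / s.re := by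
    refine (MeasureTheory.norm_integral_le_of_norm_le
      (integrableOn_Ioi_rpow_of_lt (a := -(s.re + 1)) (by rw [hre]; norm_num) hN0) ?_).trans
      (le_of_eq ?_)
    · filter_upwards [MeasureTheory.ae_restrict_mem measurableSet_Ioi] with v hv
      exact CycloGrowth.norm_fracIntegrand_le (lt_of_le_of_lt (Nat.one_le_cast.2 hN1) hv)
    · rw [integral_Ioi_rpow_of_lt (by rw [hre]; norm_num) hN0,
        show -(s.re + 1) + 1 = -s.re by ring, neg_div_neg_eq]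
  refine (norm_sub_le _ _).trans ?_
  rw [norm_div, Complex.norm_natCast_cpow_of_pos hN1, norm_mul]
  have hd : 1 ≤ ‖s - 1‖ := le_trans (by rw [Complex.sub_re, hre]; norm_num)
    (Complex.re_le_norm (s - 1))
  have hn : ‖s‖ ≤ 5 * T := by
    refine (Complex.norm_le_abs_re_add_abs_im s).trans ?_
    rw [hre, show s.im = t by simp [hs], abs_of_nonneg ht0, abs_two]
    linarith
  rw [Complex.sub_re, Complex.one_re, hre, show (1 : ℝ) - 2 = -1 by norm_num, Real.rpow_neg_one]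
  have hpow : (N : ℝ) ^ (-(2 : ℝ)) = ((N : ℝ) ^ 2)⁻¹ := by
    rw [Real.rpow_neg hN0.le, Real.rpow_two]
  rw [hre, hpow] at hi
  refine (add_le_add (div_le_self (by positivity) hd)
    (mul_le_mul hn hi (norm_nonneg _) (by linarith))).trans ?_
  rw [← sub_nonneg]
  have : 1 / T - ((N : ℝ)⁻¹ + 5 * T * (((N : ℝ) ^ 2)⁻¹ / 2)) =
      (2 * (N : ℝ) ^ 2 - 2 * T * N - 5 * T ^ 2) / (2 * T * (N : ℝ) ^ 2) := by field_simp; ring
  rw [this]
  refine div_nonneg ?_ (by positivity)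
  nlinarith

/-- `∫ m^(-(2 + it))` over an interval. -/
theorem norm_integral_cpow_two_le {m : ℕ} (hm : 2 ≤ m) (u v : ℝ) :
    ‖∫ t in u..v, (m : ℂ) ^ (-(2 + t * I))‖ ≤ 3 / (m : ℝ) ^ 2 := by
  obtain ⟨l, hl⟩ : ∃ l, l = Real.log m := ⟨_, rfl⟩
  have hm0 : (0 : ℝ) < m := Nat.cast_pos.2 (by omega)
  have hl1 : 2 / 3 ≤ l := by
    have := Real.log_le_log two_pos (show (2 : ℝ) ≤ m by exact_mod_cast hm)
    linarith [Real.log_two_gt_d9]
  obtain ⟨c, hc⟩ : ∃ c : ℂ, c = -((l : ℂ) * I) := ⟨_, rfl⟩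
  have hc0 : c ≠ 0 := hc ▸ neg_ne_zero.2 (mul_ne_zero (ofReal_ne_zero.2 (by linarith)) I_ne_zero)
  have e : ∀ t : ℝ, (m : ℂ) ^ (-(2 + t * I)) = ((1 / (m : ℝ) ^ 2 : ℝ) : ℂ) * cexp (c * t) :=
    fun t => by
      rw [cpow_def_of_ne_zero (Nat.cast_ne_zero.2 (by omega)), ← Complex.natCast_log, hc, ← hl,
        show 1 / (m : ℝ) ^ 2 = Real.exp (-(2 * l)) by
          rw [Real.exp_neg, one_div, show (2 : ℝ) * l = ((2 : ℕ) : ℝ) * l by norm_num,
            Real.exp_nat_mul, hl, Real.exp_log hm0], Complex.ofReal_exp, ← Complex.exp_add]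
      push_cast
      ring_nf
  simp only [e]
  rw [intervalIntegral.integral_const_mul, norm_mul, Complex.norm_real,
    Real.norm_of_nonneg (by positivity), integral_exp_mul_complex hc0, norm_div, one_div_mul_eq_div]
  refine div_le_div_of_nonneg_right ?_ (by positivity)
  rw [div_le_iff₀ (norm_pos_iff.2 hc0)]
  have hn : ∀ t : ℝ, ‖cexp (c * t)‖ = 1 := fun t => by rw [Complex.norm_exp, hc]; simp
  refine (norm_sub_le _ _).trans ?_
  rw [hn, hn, hc, norm_neg, norm_mul, Complex.norm_I, mul_one, Complex.norm_real,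
    Real.norm_eq_abs, abs_of_nonneg (by linarith)]
  linarith

/-- The vertical segment on `re s = 2`. -/
theorem norm_integral_two_sub_le (hpr : ∀ s ∈ A, ∀ p ∈ s, Nat.Prime p) (h0 : ∅ ∈ A)
    (hcard : A.card ≤ Nb) {T u v : ℝ} (hT : 4 ≤ T) (hu : 0 ≤ u) (huv : u ≤ v) (hv : v ≤ 4 * T) :
    ‖(∫ t in u..v, molZeta A (2 + t * I)) - ((v - u : ℝ) : ℂ)‖ ≤ 10 * (Nb : ℝ) ^ 2 := by
  classical
  obtain ⟨N, hN⟩ : ∃ N, N = ⌈4 * T⌉₊ := ⟨_, rfl⟩
  have hN1 : 4 * T ≤ N := hN ▸ Nat.le_ceil _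
  have hN0 : 1 ≤ N := by
    have : (1 : ℝ) ≤ N := by linarith
    exact_mod_cast this
  obtain ⟨K, hK⟩ : ∃ K, K = Icc 1 N ×ˢ (A ×ˢ A) := ⟨_, rfl⟩
  obtain ⟨m, hm⟩ : ∃ m : ℕ × Finset ℕ × Finset ℕ → ℕ,
      m = fun k => k.1 * (setProd k.2.1 * setProd k.2.2) := ⟨_, rfl⟩
  obtain ⟨c, hc⟩ : ∃ c : ℕ × Finset ℕ × Finset ℕ → ℂ,
      c = fun k => ((setCoef k.2.1 * setCoef k.2.2 : ℝ) : ℂ) := ⟨_, rfl⟩
  obtain ⟨k₀, hk₀⟩ : ∃ k₀ : ℕ × Finset ℕ × Finset ℕ, k₀ = (1, ∅, ∅) := ⟨_, rfl⟩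
  have hk₀K : k₀ ∈ K := by
    rw [hK, hk₀, mem_product, mem_product]
    exact ⟨mem_Icc.2 ⟨le_rfl, hN0⟩, h0, h0⟩
  have hmne : ∀ k ∈ K, k ≠ k₀ → 2 ≤ m k := fun k hk hne => by
    obtain ⟨n, a, b⟩ := k
    rw [hK, mem_product, mem_product, mem_Icc] at hk
    rw [hk₀] at hne
    rw [hm]
    simp only
    have hsp : ∀ s ∈ A, 1 ≤ setProd s ∧ (s ≠ ∅ → 2 ≤ setProd s) := fun s hs =>
      ⟨setProd_pos (hpr s hs), fun h => by
        obtain ⟨p, hp⟩ := nonempty_iff_ne_empty.2 h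
        exact ((hpr s hs p hp).two_le).trans (Nat.le_of_dvd (setProd_pos (hpr s hs))
          (dvd_prod_of_mem _ hp))⟩
    obtain ⟨ha1, ha2⟩ := hsp a hk.2.1
    obtain ⟨hb1, hb2⟩ := hsp b hk.2.2
    rcases eq_or_ne n 1 with h1 | h1
    · rcases eq_or_ne a ∅ with h2 | h2
      · have h4 := hb2 fun h3 => hne (by rw [h1, h2, h3])
        linarith [Nat.mul_le_mul hk.1.1 (Nat.mul_le_mul ha1 h4)]
      · linarith [Nat.mul_le_mul hk.1.1 (Nat.mul_le_mul (ha2 h2) hb1)]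
    · linarith [Nat.mul_le_mul (show 2 ≤ n by omega) (Nat.mul_le_mul ha1 hb1)]
  have hmpos : ∀ k ∈ K, 0 < m k := fun k hk => by
    rcases eq_or_ne k k₀ with h | h
    · rw [h, hm, hk₀]; simp [setProd]
    · exact lt_of_lt_of_le two_pos (hmne k hk h)
  obtain ⟨F, hF⟩ : ∃ F : ℝ → ℂ, F = fun t : ℝ => (∑ n ∈ Icc 1 N, 1 / (n : ℂ) ^ (2 + t * I)) *
      molSeries A (2 + t * I) ^ 2 := ⟨_, rfl⟩
  have hFK : ∀ t : ℝ, F t = ∑ k ∈ K, c k * (m k : ℂ) ^ (-(2 + t * I)) := fun t => by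
    rw [hF, hK, sum_product]
    simp only
    rw [sum_mul]
    refine sum_congr rfl fun n _ => ?_
    rw [sum_product, pow_two, molSeries, sum_mul_sum, mul_sum]
    refine sum_congr rfl fun a _ => ?_
    rw [mul_sum]
    refine sum_congr rfl fun b _ => ?_
    rw [hc, hm]
    simp only [Nat.cast_mul, Complex.natCast_mul_natCast_cpow, Complex.ofReal_mul]
    rw [show ((setProd a : ℂ) * setProd b) = ((setProd a * setProd b : ℕ) : ℂ) by push_cast; rfl,
      Complex.natCast_mul_natCast_cpow, Nat.cast_mul, Complex.natCast_mul_natCast_cpow, one_div,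
      ← Complex.cpow_neg]
    ring
  have hcont : ∀ k ∈ K, Continuous fun t : ℝ => c k * (m k : ℂ) ^ (-(2 + t * I)) := fun k hk =>
    continuous_const.mul ((by fun_prop : Continuous fun t : ℝ => -((2 : ℂ) + t * I)).const_cpow
      (Or.inl (Nat.cast_ne_zero.2 (hmpos k hk).ne')))
  have hFc : Continuous F := by
    rw [funext hFK]
    exact continuous_finsetSum _ hcont
  have hgc : Continuous fun t : ℝ => molZeta A (2 + t * I) :=
    continuous_iff_continuousAt.2 fun t => ContinuousAt.comp (g := molZeta A)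
      (f := fun t : ℝ => (2 : ℂ) + t * I) (differentiableAt_molZeta hpr (fun h => by
        have := congrArg Complex.re h
        norm_num at this)).continuousAt (by fun_prop)
  have hcard2 : ((A ×ˢ A).card : ℝ) ≤ (Nb : ℝ) ^ 2 := by
    rw [card_product, Nat.cast_mul, sq]
    exact mul_le_mul (Nat.cast_le.2 hcard) (Nat.cast_le.2 hcard) (Nat.cast_nonneg _)
      (Nat.cast_nonneg _)
  have h1 : ‖(∫ t in u..v, molZeta A (2 + t * I)) - ∫ t in u..v, F t‖ ≤ 4 * (Nb : ℝ) ^ 2 := by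
    rw [← intervalIntegral.integral_sub (hgc.intervalIntegrable _ _) (hFc.intervalIntegrable _ _)]
    refine (intervalIntegral.norm_integral_le_of_norm_le_const (C := (Nb : ℝ) ^ 2 / T)
      fun t ht => ?_).trans ?_
    · rw [Set.uIoc_of_le huv] at ht
      rw [hF, molZeta, ← sub_mul, norm_mul, norm_pow]
      refine (mul_le_mul (norm_zeta_two_sub_le hT (hu.trans ht.1.le) (ht.2.trans hv) hN1)
        (pow_le_pow_left₀ (norm_nonneg _) (norm_molSeries_le hpr hcard (by simp)) 2)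
        (by positivity) (by positivity)).trans (le_of_eq ?_)
      ring
    · rw [abs_of_nonneg (by linarith), div_mul_eq_mul_div, div_le_iff₀ (by linarith)]
      nlinarith [sq_nonneg (Nb : ℝ)]
  have h2 : ‖(∫ t in u..v, F t) - ((v - u : ℝ) : ℂ)‖ ≤ 6 * (Nb : ℝ) ^ 2 := by
    simp only [hFK]
    rw [intervalIntegral.integral_finsetSum fun k hk => (hcont k hk).intervalIntegrable _ _,
      ← add_sum_erase _ _ hk₀K, show (∫ t in u..v, c k₀ * (m k₀ : ℂ) ^ (-(2 + t * I))) =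
        ((v - u : ℝ) : ℂ) by simp [hc, hm, hk₀, setCoef, setProd], add_sub_cancel_left]
    refine (norm_sum_le _ _).trans ((sum_le_sum (g := fun k => 3 / (k.1 : ℝ) ^ 2) fun k hk => ?_
      ).trans ?_)
    · obtain ⟨hne, hk⟩ := mem_erase.1 hk
      rw [intervalIntegral.integral_const_mul, norm_mul]
      refine (mul_le_of_le_one_left (norm_nonneg _) ?_).trans
        ((norm_integral_cpow_two_le (hmne k hk hne) u v).trans ?_)
      · rw [hc, Complex.norm_real, Real.norm_eq_abs, abs_mul]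
        exact mul_le_one₀ (abs_setCoef_le _) (abs_nonneg _) (abs_setCoef_le _)
      · obtain ⟨n, a, b⟩ := k
        rw [hK, mem_product, mem_product, mem_Icc] at hk
        refine div_le_div_of_nonneg_left (by norm_num) (pow_pos (Nat.cast_pos.2 hk.1.1) 2) ?_
        refine pow_le_pow_left₀ (Nat.cast_nonneg _) (Nat.cast_le.2 ?_) 2
        rw [hm]
        exact Nat.le_mul_of_pos_right _ (Nat.mul_pos (setProd_pos (hpr a hk.2.1))
          (setProd_pos (hpr b hk.2.2)))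
    · refine (sum_le_sum_of_subset_of_nonneg (erase_subset _ _) fun k _ _ => by positivity).trans ?_
      rw [hK, sum_product]
      simp only [sum_const, nsmul_eq_mul, ← mul_sum]
      refine (mul_le_mul hcard2 (show ∑ n ∈ Icc 1 N, 3 / (n : ℝ) ^ 2 ≤ 6 from ?_)
        (sum_nonneg fun n _ => by positivity) (sq_nonneg _)).trans (le_of_eq (by ring))
      have hz := sum_le_hasSum (Icc 1 N) (fun n _ => by positivity) hasSum_zeta_two
      rw [sum_congr rfl fun (n : ℕ) _ => show (3 : ℝ) / (n : ℝ) ^ 2 = 3 * (1 / (n : ℝ) ^ 2) by ring,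
        ← mul_sum]
      nlinarith [Real.pi_lt_d2, Real.pi_pos]
  refine (norm_sub_le_norm_sub_add_norm_sub _ (∫ t in u..v, F t) _).trans ?_
  linarith

/-- **The first moment.** -/
theorem norm_first_moment_le (hpr : ∀ s ∈ A, ∀ p ∈ s, Nat.Prime p) (h0 : ∅ ∈ A)
    (hcard : A.card ≤ Nb) {T a b : ℝ} (hT : 4 ≤ T) (ha : T ≤ a) (hab : a ≤ b) (hb : b ≤ 2 * T) :
    ‖(∫ y in a..b, riemannZeta (linePt y) * molVal A y ^ 2) - ((b - a : ℝ) : ℂ)‖ ≤
      13000 * (Nb : ℝ) ^ 2 * √T := by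
  have e : ∀ y : ℝ, riemannZeta (linePt y) * molVal A y ^ 2 =
      molZeta A (((1 / 2 : ℝ) : ℂ) + ((2 * y : ℝ) : ℂ) * I) := fun y => by
    rw [molVal_eq hpr, molZeta, linePt]
    norm_num
  simp only [e]
  obtain ⟨u, hu⟩ : ∃ u, u = 2 * a := ⟨_, rfl⟩
  obtain ⟨v, hv⟩ : ∃ v, v = 2 * b := ⟨_, rfl⟩
  rw [intervalIntegral.integral_comp_mul_left
    (fun t : ℝ => molZeta A (((1 / 2 : ℝ) : ℂ) + (t : ℂ) * I)) two_ne_zero, ← hu, ← hv,
    Complex.real_smul]
  have h := Complex.integral_boundary_rect_eq_zero_of_differentiableOn (molZeta A)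
    (((1 / 2 : ℝ) : ℂ) + (u : ℂ) * I) (((2 : ℝ) : ℂ) + (v : ℂ) * I) (fun s hs => by
      rw [Complex.mem_reProdIm] at hs
      refine (differentiableAt_molZeta hpr ?_).differentiableWithinAt
      rintro rfl
      simp only [add_im, ofReal_im, mul_im, ofReal_re, I_im, mul_one, I_re, mul_zero, add_zero,
        zero_add, Complex.one_im, Set.uIcc_of_le (show u ≤ v by linarith)] at hs
      linarith [hs.2.1])
  simp only [add_re, ofReal_re, mul_re, I_re, mul_zero, ofReal_im, I_im, mul_one, sub_self,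
    add_zero, add_im, mul_im, zero_add, smul_eq_mul] at h
  obtain ⟨P, hP⟩ : ∃ P, P = ∫ t in u..v, molZeta A (((1 / 2 : ℝ) : ℂ) + t * I) := ⟨_, rfl⟩
  obtain ⟨Q, hQ⟩ : ∃ Q, Q = ∫ t in u..v, molZeta A (((2 : ℝ) : ℂ) + t * I) := ⟨_, rfl⟩
  obtain ⟨R, hR⟩ : ∃ R : ℝ → ℂ, R = fun t : ℝ =>
      ∫ x in (1 / 2 : ℝ)..2, molZeta A ((x : ℂ) + t * I) := ⟨_, rfl⟩
  have h' : R u - R v + I * Q - I * P = 0 := by
    rw [hP, hQ, hR]
    exact h
  have hRb : ∀ t, 2 * T ≤ t → t ≤ 4 * T → ‖R t‖ ≤ 12006 * (Nb : ℝ) ^ 2 * √T := fun t h1 h2 => by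
    rw [hR]
    refine (intervalIntegral.norm_integral_le_of_norm_le_const
      (C := 4002 * (2 * √T) * (Nb : ℝ) ^ 2) fun x hx => ?_).trans (le_of_eq ?_)
    · rw [Set.uIoc_of_le (by norm_num)] at hx
      rw [molZeta, norm_mul, norm_pow]
      refine mul_le_mul ((norm_zeta_strip_sqrt_le hx.1.le hx.2 (by linarith)).trans
        (mul_le_mul_of_nonneg_left ?_ (by norm_num))) (pow_le_pow_left₀ (norm_nonneg _)
          (norm_molSeries_le hpr hcard (by simp; linarith [hx.1])) 2) (by positivity)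
          (by positivity)
      rw [Real.sqrt_le_iff, mul_pow, Real.sq_sqrt (by linarith)]
      exact ⟨by positivity, by linarith⟩
    · norm_num
      ring
  have hQb := norm_integral_two_sub_le hpr h0 hcard hT (show 0 ≤ u by linarith)
    (show u ≤ v by linarith) (show v ≤ 4 * T by linarith)
  have hPQ : P = Q + -I * (R u - R v) := by
    linear_combination (I : ℂ) * h' + (P - Q) * I_sq
  rw [← hP, hPQ, show ((2⁻¹ : ℝ) : ℂ) * (Q + -I * (R u - R v)) - ((b - a : ℝ) : ℂ) =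
    ((2⁻¹ : ℝ) : ℂ) * ((Q - ((v - u : ℝ) : ℂ)) + -I * (R u - R v)) by
      rw [hu, hv]; push_cast; ring, norm_mul, Complex.norm_real,
    Real.norm_of_nonneg (by norm_num : (0 : ℝ) ≤ 2⁻¹)]
  have hQ' : ‖Q - ((v - u : ℝ) : ℂ)‖ ≤ 10 * (Nb : ℝ) ^ 2 := by
    rw [hQ]
    norm_num at hQb ⊢
    exact hQb
  have hst : 1 ≤ √T := Real.one_le_sqrt.2 (by linarith)
  have := le_mul_of_one_le_right (show 0 ≤ (Nb : ℝ) ^ 2 by positivity) hst
  have hRR : ‖-I * (R u - R v)‖ ≤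
      12006 * (Nb : ℝ) ^ 2 * √T + 12006 * (Nb : ℝ) ^ 2 * √T := by
    rw [norm_mul, norm_neg, Complex.norm_I, one_mul]
    exact (norm_sub_le _ _).trans (add_le_add (hRb u (by linarith) (by linarith))
      (hRb v (by linarith) (by linarith)))
  refine (mul_le_mul_of_nonneg_left ((norm_add_le _ _).trans (add_le_add hQ' hRR))
    (by norm_num)).trans ?_
  linarith [sq_nonneg (Nb : ℝ)]

end FA.SelbergZeros
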