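import Fermat.Agent.SelbergZeros.MeanSquare
import Fermat.Agent.SelbergZeros.FirstMoment
import Fermat.Agent.HardyLittlewoodZeros.Main

/-!
# The zeros from the mean squares

A window `[u, u + h]` without zero makes `∫ |molF|` over it at most `|molInt|`, so the set of the
other `u`, of measure at most `h` times the number of zeros, carries a large part of `∫ |molF|`.
-/

set_option autoImplicit false

noncomputable section

namespace FA.SelbergZeros

open MeasureTheory Complex Finset Filter
open FA.HardyZeros (linePt hardyH continuous_hardyH)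
open FA.HardyLittlewoodZeros (tilt tiltH norm_tiltH_ge)
open scoped Real

theorem integral_window_swap {f : ℝ → ℝ} (hf : Continuous f) {p q h : ℝ} (hpq : p ≤ q)
    (hh : 0 ≤ h) :
    ∫ u in p..q, ∫ v in (0 : ℝ)..h, f (u + v) =
      ∫ v in (0 : ℝ)..h, ∫ u in (p + v)..(q + v), f u := by
  have hint : Integrable (Function.uncurry fun u v : ℝ => f (u + v))
      ((volume.restrict (Set.uIoc p q)).prod (volume.restrict (Set.Ioc 0 h))) := by
    rw [Set.uIoc_of_le hpq, Measure.prod_restrict, ← Measure.volume_eq_prod]
    exact (((hf.comp (continuous_fst.add continuous_snd)).continuousOn).integrableOn_compact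
      (isCompact_Icc.prod isCompact_Icc)).mono_set
        (Set.prod_mono Set.Ioc_subset_Icc_self Set.Ioc_subset_Icc_self)
  simp only [intervalIntegral.integral_of_le hh]
  rw [intervalIntegral_integral_swap hint]
  refine integral_congr_ae (Eventually.of_forall fun v => ?_)
  exact intervalIntegral.integral_comp_add_right f v

/-- **The counting inequality.** -/
theorem count_le {f I : ℝ → ℝ} (hf : Continuous f) (hI : Continuous I) (Z : Finset ℝ)
    {U h X Y G l m : ℝ} (hh : 0 ≤ h) (hhU : h ≤ U)
    (hfree : ∀ u ∈ Set.Icc U (2 * U), (∀ z ∈ Z, z ∉ Set.Icc u (u + h)) →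
      ∫ v in (0 : ℝ)..h, f (u + v) ≤ I u) (hf0 : ∀ y, 0 ≤ f y)
    (hI2 : ∫ u in U..(2 * U), I u ^ 2 ≤ X) (hf2 : ∀ p q, p ≤ q → ∫ y in p..q, f y ^ 2 ≤ Y)
    (hG : G ≤ ∫ y in (U + h)..(2 * U), f y) (hl : 0 < l) (hm : 0 < m) :
    h * G ≤ X / (2 * l) + l * U / 2 + h * Y / (2 * m) + m * h ^ 2 * Z.card / 2 := by
  have hU : U ≤ 2 * U := by linarith
  obtain ⟨B, hB⟩ : ∃ B : Set ℝ, B = ⋃ z ∈ Z, Set.Icc (z - h) z := ⟨_, rfl⟩
  have hBm : MeasurableSet B := hB ▸ Z.measurableSet_biUnion fun z _ => measurableSet_Icc
  have hBv : volume B ≤ ENNReal.ofReal (Z.card * h) := by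
    refine hB ▸ (measure_biUnion_finset_le Z _).trans (le_of_eq ?_)
    simp [Real.volume_Icc, ENNReal.ofReal_mul]
  obtain ⟨J, hJ⟩ : ∃ J : ℝ → ℝ, J = fun u => ∫ v in (0 : ℝ)..h, f (u + v) := ⟨_, rfl⟩
  obtain ⟨Q, hQ⟩ : ∃ Q : ℝ → ℝ, Q = fun u => ∫ v in (0 : ℝ)..h, f (u + v) ^ 2 := ⟨_, rfl⟩
  have hJc : Continuous J := hJ ▸
    intervalIntegral.continuous_parametric_intervalIntegral_of_continuous'
      (f := fun u v => f (u + v)) (hf.comp (continuous_fst.add continuous_snd)) 0 h
  have hQc : Continuous Q := hQ ▸
    intervalIntegral.continuous_parametric_intervalIntegral_of_continuous'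
      (f := fun u v => f (u + v) ^ 2)
      (by fun_prop : Continuous fun p : ℝ × ℝ => f (p.1 + p.2) ^ 2) 0 h
  have hQ0 : ∀ u, 0 ≤ Q u := fun u => by
    rw [hQ]; exact intervalIntegral.integral_nonneg hh fun v _ => sq_nonneg _
  have hpt : ∀ u ∈ Set.Icc U (2 * U),
      J u ≤ I u ^ 2 / (2 * l) + l / 2 + Q u / (2 * m) + m * h / 2 * B.indicator (fun _ => 1) u := by
    intro u hu
    by_cases hb : u ∈ B
    · rw [Set.indicator_of_mem hb, mul_one]
      have : J u ≤ Q u / (2 * m) + m * h / 2 := by
        have hc : Continuous fun v => f (u + v) ^ 2 / (2 * m) + m / 2 := by fun_prop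
        rw [hJ, hQ]
        simp only
        refine (intervalIntegral.integral_mono_on hh
          ((by fun_prop : Continuous fun v => f (u + v)).intervalIntegrable _ _)
          (hc.intervalIntegrable _ _) fun v _ => ?_).trans (le_of_eq ?_)
        · rw [← sub_nonneg, show f (u + v) ^ 2 / (2 * m) + m / 2 - f (u + v) =
            (f (u + v) - m) ^ 2 / (2 * m) by field_simp; ring]
          positivity
        · rw [intervalIntegral.integral_add
            ((by fun_prop : Continuous fun v => f (u + v) ^ 2 / (2 * m)).intervalIntegrable _ _)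
            intervalIntegrable_const, intervalIntegral.integral_div,
            intervalIntegral.integral_const, smul_eq_mul]
          ring
      have : 0 ≤ I u ^ 2 / (2 * l) + l / 2 := by positivity
      linarith
    · rw [Set.indicator_of_notMem hb, mul_zero, add_zero]
      have h1 : J u ≤ I u := by
        rw [hJ]
        refine hfree u hu fun z hz hzu => hb ?_
        rw [hB]
        exact Set.mem_iUnion₂.2 ⟨z, hz, ⟨by linarith [hzu.2], hzu.1⟩⟩
      have h2 : I u ≤ I u ^ 2 / (2 * l) + l / 2 := by
        rw [← sub_nonneg, show I u ^ 2 / (2 * l) + l / 2 - I u = (I u - l) ^ 2 / (2 * l) by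
          field_simp; ring]
        positivity
      have := div_nonneg (hQ0 u) (show 0 ≤ 2 * m by linarith)
      linarith
  have i1 : IntervalIntegrable (fun u => I u ^ 2 / (2 * l) + l / 2) volume U (2 * U) :=
    (((hI.pow 2).div_const _).add continuous_const).intervalIntegrable _ _
  have i2 : IntervalIntegrable (fun u => Q u / (2 * m)) volume U (2 * U) :=
    (hQc.div_const _).intervalIntegrable _ _
  have i3 : IntervalIntegrable (fun u => m * h / 2 * B.indicator (fun _ => (1 : ℝ)) u) volume U
      (2 * U) := by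
    refine IntervalIntegrable.const_mul ?_ _
    exact ⟨intervalIntegrable_const.1.indicator hBm, intervalIntegrable_const.2.indicator hBm⟩
  have hle := intervalIntegral.integral_mono_on hU (hJc.intervalIntegrable _ _)
    ((i1.add i2).add i3) hpt
  rw [intervalIntegral.integral_add (i1.add i2) i3, intervalIntegral.integral_add i1 i2,
    intervalIntegral.integral_add
      ((by fun_prop : Continuous fun u => I u ^ 2 / (2 * l)).intervalIntegrable _ _)
      intervalIntegrable_const, intervalIntegral.integral_div, intervalIntegral.integral_div,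
    intervalIntegral.integral_const_mul, intervalIntegral.integral_const, smul_eq_mul] at hle
  have hJG : h * G ≤ ∫ u in U..(2 * U), J u := by
    rw [hJ, integral_window_swap hf hU hh]
    have hc : Continuous fun v => ∫ u in (U + v)..(2 * U + v), f u := by
      have e : (fun v => ∫ u in (U + v)..(2 * U + v), f u) =
          fun v => ∫ u in U..(2 * U), f (u + v) := by
        funext v; rw [intervalIntegral.integral_comp_add_right]
      rw [e]
      exact intervalIntegral.continuous_parametric_intervalIntegral_of_continuous'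
        (f := fun v u => f (u + v)) (hf.comp (continuous_snd.add continuous_fst)) U (2 * U)
    refine le_trans (le_of_eq ?_) (intervalIntegral.integral_mono_on hh
      (intervalIntegrable_const (c := G)) (hc.intervalIntegrable _ _) fun v hv => hG.trans ?_)
    · rw [intervalIntegral.integral_const, sub_zero, smul_eq_mul]
    · exact intervalIntegral.integral_mono_interval (by linarith [hv.2]) (by linarith)
        (by linarith [hv.1]) (Eventually.of_forall hf0) (hf.intervalIntegrable _ _)
  have hQY : ∫ u in U..(2 * U), Q u ≤ h * Y := by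
    rw [hQ, integral_window_swap (f := fun y => f y ^ 2) (hf.pow 2) hU hh]
    have hc : Continuous fun v => ∫ u in (U + v)..(2 * U + v), f u ^ 2 := by
      have e : (fun v => ∫ u in (U + v)..(2 * U + v), f u ^ 2) =
          fun v => ∫ u in U..(2 * U), f (u + v) ^ 2 := by
        funext v; rw [intervalIntegral.integral_comp_add_right (fun y => f y ^ 2)]
      rw [e]
      exact intervalIntegral.continuous_parametric_intervalIntegral_of_continuous'
        (f := fun v u => f (u + v) ^ 2)
        (by fun_prop : Continuous fun p : ℝ × ℝ => f (p.2 + p.1) ^ 2) U (2 * U)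
    refine le_of_le_of_eq (intervalIntegral.integral_mono_on hh (hc.intervalIntegrable _ _)
      (intervalIntegrable_const (c := Y)) fun v _ => hf2 _ _ (by linarith)) ?_
    rw [intervalIntegral.integral_const, sub_zero, smul_eq_mul]
  have hind : ∫ u in U..(2 * U), B.indicator (fun _ => (1 : ℝ)) u ≤ Z.card * h := by
    rw [intervalIntegral.integral_of_le hU]
    refine (setIntegral_le_integral ?_ (Eventually.of_forall fun u =>
      Set.indicator_nonneg (fun _ _ => zero_le_one) u)).trans ?_
    · exact (integrable_indicator_iff hBm).2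
        (integrableOn_const (ne_top_of_le_ne_top ENNReal.ofReal_ne_top hBv))
    · rw [integral_indicator hBm, setIntegral_const, smul_eq_mul, mul_one]
      exact ENNReal.toReal_le_of_le_ofReal (by positivity) hBv
  have e1 : (∫ u in U..(2 * U), I u ^ 2) / (2 * l) ≤ X / (2 * l) :=
    div_le_div_of_nonneg_right hI2 (by linarith)
  have e2 : (∫ u in U..(2 * U), Q u) / (2 * m) ≤ h * Y / (2 * m) :=
    div_le_div_of_nonneg_right hQY (by linarith)
  have e3 := mul_le_mul_of_nonneg_left hind (show 0 ≤ m * h / 2 by positivity)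
  simp only [intervalIntegral.integral_div] at hle
  linarith

variable {A : Finset (Finset ℕ)} {Nb : ℕ}

theorem continuous_molInt (T : ℝ) (A : Finset (Finset ℕ)) (h : ℝ) : Continuous (molInt T A h) :=
  intervalIntegral.continuous_parametric_intervalIntegral_of_continuous' (f := fun u v =>
    molF T A (u + v)) ((continuous_molF T A).comp (continuous_fst.add continuous_snd)) 0 h

/-- A window without zero. -/
theorem window_le_molInt (T : ℝ) (A : Finset (Finset ℕ)) {u h : ℝ} (hh : 0 ≤ h)
    (hfree : ∀ y ∈ Set.Icc u (u + h), hardyH y ≠ 0) :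
    ∫ v in (0 : ℝ)..h, ‖molF T A (u + v)‖ ≤ ‖molInt T A h u‖ := by
  obtain ⟨g, hg⟩ : ∃ g : ℝ → ℝ, g = fun v =>
      hardyH (u + v) * Real.exp (tilt T * (u + v)) * ‖molVal A (u + v)‖ ^ 2 := ⟨_, rfl⟩
  have hFg : ∀ v, molF T A (u + v) = (g v : ℂ) := fun v => by
    rw [molF, tiltH, hg, ← Complex.ofReal_mul]
  rw [molInt]
  simp only [hFg, Complex.norm_real, Real.norm_eq_abs, intervalIntegral.integral_ofReal]
  have hsign : (∀ y ∈ Set.Icc u (u + h), 0 ≤ hardyH y) ∨
      ∀ y ∈ Set.Icc u (u + h), hardyH y ≤ 0 := by
    by_contra hc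
    push Not at hc
    obtain ⟨⟨a, ha, ha'⟩, b, hb, hb'⟩ := hc
    obtain ⟨c, hc, hc0⟩ := intermediate_value_uIcc (a := a) (b := b) continuous_hardyH.continuousOn
      (Set.mem_uIcc.2 (Or.inl ⟨ha'.le, hb'.le⟩))
    exact hfree c (Set.OrdConnected.uIcc_subset inferInstance ha hb hc) hc0
  have hmem : ∀ v ∈ Set.uIcc 0 h, u + v ∈ Set.Icc u (u + h) := fun v hv => by
    rw [Set.uIcc_of_le hh] at hv
    exact ⟨by linarith [hv.1], by linarith [hv.2]⟩
  rcases hsign with hs | hs
  · rw [intervalIntegral.integral_congr (f := fun v => |g v|) (g := g) fun v hv => by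
      have := hs _ (hmem v hv)
      rw [hg]
      exact abs_of_nonneg (by positivity)]
    exact le_abs_self _
  · rw [intervalIntegral.integral_congr (f := fun v => |g v|) (g := fun v => -g v) fun v hv => by
      rw [hg]
      exact abs_of_nonpos (mul_nonpos_of_nonpos_of_nonneg (mul_nonpos_of_nonpos_of_nonneg
        (hs _ (hmem v hv)) (Real.exp_pos _).le) (sq_nonneg _)), intervalIntegral.integral_neg]
    exact neg_le_abs _

/-- The first moment below `∫ |molF|`. -/
theorem integral_norm_molF_ge (hpr : ∀ s ∈ A, ∀ p ∈ s, Nat.Prime p) (h0 : ∅ ∈ A)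
    (hcard : A.card ≤ Nb) {U h : ℝ} (hU : 4 ≤ U) (hh : 0 ≤ h) (hhU : h ≤ U) :
    Real.exp (-3) / 4 / √(√U) * (U - h - 13000 * (Nb : ℝ) ^ 2 * √U) ≤
      ∫ y in (U + h)..(2 * U), ‖molF U A y‖ := by
  have hzc : Continuous fun y : ℝ => riemannZeta (linePt y) * molVal A y ^ 2 :=
    (continuous_iff_continuousAt.2 fun y => ContinuousAt.comp (g := riemannZeta)
      (differentiableAt_riemannZeta (FA.HardyZeros.linePt_ne_one y)).continuousAt
      (by unfold linePt; fun_prop)).mul ((continuous_molVal A).pow 2)
  have hle : U + h ≤ 2 * U := by linarith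
  refine le_trans (mul_le_mul_of_nonneg_left ?_ (by positivity)) (le_of_eq_of_le
    (intervalIntegral.integral_const_mul _ _).symm (intervalIntegral.integral_mono_on hle
      ((hzc.norm.intervalIntegrable _ _).const_mul _)
      ((continuous_molF U A).norm.intervalIntegrable _ _) fun y hy => ?_))
  · refine le_trans ?_ (intervalIntegral.norm_integral_le_integral_norm hle)
    have h1 := norm_first_moment_le hpr h0 hcard hU (show U ≤ U + h by linarith) hle le_rfl
    have h2 := norm_sub_norm_le ((2 * U - (U + h) : ℝ) : ℂ)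
      (∫ y in (U + h)..(2 * U), riemannZeta (linePt y) * molVal A y ^ 2)
    rw [norm_sub_rev, Complex.norm_real, Real.norm_of_nonneg (by linarith)] at h2
    linarith
  · rw [norm_mul, norm_pow, norm_molF_eq, ← mul_assoc]
    exact mul_le_mul_of_nonneg_right
      (norm_tiltH_ge (by linarith) (by linarith [hy.1]) (by linarith [hy.2])) (sq_nonneg _)

end FA.SelbergZeros
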