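import Fermat.Agent.SelbergZeros.TwistMean

/-!
# The mollified tilted zeta function and its transform

`molF T A y = tiltH T y · |ψ y|²` with `ψ y = ∑ β_μ μ^(-1/2 - 2iy)`. Its transform at `ξ` is
`π (e^((v + iα)/4) · 2 twistTheta T A v - e^(-(v + iα)/4) molPhi A)` with `v = 2πξ`, so Plancherel
gives the mean square of `molF` and of its short integrals.
-/

set_option autoImplicit false

noncomputable section

namespace FA.SelbergZeros

open MeasureTheory Complex Filter Topology FourierTransform Finset FA.HardyZeros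
open FA.HardyLittlewoodZeros (tilt tiltH rotPoint windowKernel tilt_mem continuous_tiltH
  integrable_tiltH fourier_tiltH momentFn_eq_tiltH shortWeight shortWeight_nonneg shortWeight_le
  continuous_shortWeight norm_windowKernel_sq_le cos_tilt_bounds)
open scoped Real ComplexConjugate

/-- `∑ β_μ μ^(-1/2 - 2iy)`. -/
def molVal (A : Finset (Finset ℕ)) (y : ℝ) : ℂ :=
  ∑ s ∈ A, ((setCoef s / √(setProd s : ℝ) : ℝ) : ℂ) *
    cexp (((-(2 * Real.log (setProd s) * y) : ℝ) : ℂ) * I)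

/-- The mollified function. -/
def molF (T : ℝ) (A : Finset (Finset ℕ)) (y : ℝ) : ℂ := tiltH T y * ((‖molVal A y‖ ^ 2 : ℝ) : ℂ)

/-- The integrals over `[u, u + h]`. -/
def molInt (T : ℝ) (A : Finset (Finset ℕ)) (h u : ℝ) : ℂ := ∫ v in (0 : ℝ)..h, molF T A (u + v)

/-- `∑ β_μ β_ν / μ`. -/
def molPhi (A : Finset (Finset ℕ)) : ℂ :=
  ∑ e ∈ A ×ˢ A, ((setCoef e.1 * setCoef e.2 / setProd e.1 : ℝ) : ℂ)

variable {A : Finset (Finset ℕ)} {Nb : ℕ}

section window

variable {G : ℝ → ℂ}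

theorem integrable_window_prod (hc : Continuous G) (hi : Integrable G) (h : ℝ) :
    Integrable (fun p : ℝ × ℝ => G (p.1 + p.2))
      (volume.prod (volume.restrict (Set.Ioc 0 h))) := by
  refine (integrable_prod_iff'
    (hc.comp (continuous_fst.add continuous_snd)).aestronglyMeasurable).2
      ⟨Eventually.of_forall fun v => hi.comp_add_right v, ?_⟩
  refine (integrable_const (∫ u, ‖G u‖)).congr (Eventually.of_forall fun v => ?_)
  exact (integral_add_right_eq_self (fun u => ‖G u‖) v).symm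

theorem memLp_window (hc : Continuous G) (hi : Integrable G) {h : ℝ} (hh : 0 ≤ h) :
    Integrable (fun u => ∫ v in (0 : ℝ)..h, G (u + v)) ∧
      MemLp (fun u => ∫ v in (0 : ℝ)..h, G (u + v)) 2 := by
  have hw : Continuous fun u => ∫ v in (0 : ℝ)..h, G (u + v) :=
    intervalIntegral.continuous_parametric_intervalIntegral_of_continuous' (f := fun u v =>
      G (u + v)) (hc.comp (continuous_fst.add continuous_snd)) 0 h
  have h1 : Integrable fun u => ∫ v in (0 : ℝ)..h, G (u + v) := by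
    simpa only [intervalIntegral.integral_of_le hh] using
      (integrable_window_prod hc hi h).integral_prod_left
  refine ⟨h1, (memLp_two_iff_integrable_sq_norm hw.aestronglyMeasurable).2 ?_⟩
  refine (h1.norm.const_mul (∫ y, ‖G y‖)).mono' (hw.norm.pow 2).aestronglyMeasurable
    (Eventually.of_forall fun u => ?_)
  rw [Real.norm_of_nonneg (sq_nonneg _), sq]
  refine mul_le_mul_of_nonneg_right ?_ (norm_nonneg _)
  refine (intervalIntegral.norm_integral_le_integral_norm hh).trans ?_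
  rw [intervalIntegral.integral_comp_add_left (fun y => ‖G y‖),
    intervalIntegral.integral_of_le (by linarith)]
  exact setIntegral_le_integral hi.norm (Eventually.of_forall fun y => norm_nonneg _)

theorem fourier_window (hc : Continuous G) (hi : Integrable G) {h : ℝ} (hh : 0 ≤ h) (ξ : ℝ) :
    𝓕 (fun u => ∫ v in (0 : ℝ)..h, G (u + v)) ξ = windowKernel h ξ * 𝓕 G ξ := by
  rw [Real.fourier_real_eq_integral_exp_smul, Real.fourier_real_eq_integral_exp_smul]
  simp only [smul_eq_mul]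
  unfold windowKernel
  simp only [intervalIntegral.integral_of_le hh]
  have hint : Integrable
      (fun p : ℝ × ℝ => cexp (((-2 * π * p.1 * ξ : ℝ) : ℂ) * I) * G (p.1 + p.2))
      (volume.prod (volume.restrict (Set.Ioc 0 h))) := by
    refine (integrable_window_prod hc hi h).norm.mono' ((Continuous.mul (by fun_prop)
      (hc.comp (continuous_fst.add continuous_snd))).aestronglyMeasurable)
      (Eventually.of_forall fun p => le_of_eq ?_)
    rw [norm_mul, Complex.norm_exp_ofReal_mul_I, one_mul]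
  conv_lhs => simp only [← integral_const_mul]
  rw [integral_integral_swap hint, ← integral_mul_const]
  refine integral_congr_ae (Eventually.of_forall fun v => ?_)
  simp only
  rw [← integral_const_mul]
  conv_rhs => rw [← integral_add_right_eq_self _ v]
  refine integral_congr_ae (Eventually.of_forall fun u => ?_)
  simp only
  rw [← mul_assoc (cexp (((2 * π * ξ * v : ℝ) : ℂ) * I)), ← Complex.exp_add]
  congr 2
  push_cast
  ring

end window

/-- Plancherel, from a bound for the transform on the two half lines. -/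
theorem integral_sq_le_of_fourier {g : ℝ → ℂ} (h1 : Integrable g) (h2 : MemLp g 2)
    {Φ : ℝ → ℝ} (hΦ : Continuous Φ)
    (hb : ∀ ξ, 0 ≤ ξ → ‖𝓕 g ξ‖ ^ 2 ≤ Φ (2 * π * ξ) ∧ ‖𝓕 g (-ξ)‖ ^ 2 ≤ Φ (2 * π * ξ)) {B : ℝ}
    (hB : ∀ V, 0 ≤ V → ∫ v in (0 : ℝ)..V, Φ v ≤ B) :
    Integrable (fun u => ‖g u‖ ^ 2) ∧ ∫ u, ‖g u‖ ^ 2 ≤ B / π := by
  have hFc : Continuous (𝓕 g) :=
    VectorFourier.fourierIntegral_continuous Real.continuous_fourierChar
      (L := innerₗ ℝ) continuous_inner h1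
  obtain ⟨f, hf⟩ : ∃ f : ℝ → ℝ, f = fun ξ => ‖𝓕 g ξ‖ ^ 2 := ⟨_, rfl⟩
  have hfc : Continuous f := hf ▸ hFc.norm.pow 2
  have hwin : ∀ V : ℝ, 0 ≤ V → ∫ ξ in (-V)..V, f ξ ≤ B / π := by
    intro V hV
    have hcomp : IntervalIntegrable (fun ξ => Φ (2 * π * ξ)) volume 0 V :=
      (hΦ.comp (continuous_const.mul continuous_id)).intervalIntegrable _ _
    have hval : ∫ ξ in (0 : ℝ)..V, Φ (2 * π * ξ) ≤ B / (2 * π) := by
      rw [intervalIntegral.integral_comp_mul_left Φ (by positivity), mul_zero, smul_eq_mul,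
        inv_mul_eq_div]
      exact div_le_div_of_nonneg_right (hB _ (by positivity)) (by positivity)
    rw [← intervalIntegral.integral_add_adjacent_intervals (b := 0)
      (hfc.intervalIntegrable _ _) (hfc.intervalIntegrable _ _)]
    have e1 : ∫ ξ in (-V)..0, f ξ ≤ B / (2 * π) := by
      rw [show (0 : ℝ) = -0 by simp, ← intervalIntegral.integral_comp_neg]
      refine le_trans (intervalIntegral.integral_mono_on hV
        ((hfc.comp continuous_neg).intervalIntegrable _ _) hcomp fun ξ hξ => ?_) hval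
      rw [hf]
      exact (hb ξ hξ.1).2
    have e2 : ∫ ξ in (0 : ℝ)..V, f ξ ≤ B / (2 * π) :=
      le_trans (intervalIntegral.integral_mono_on hV (hfc.intervalIntegrable _ _) hcomp
        fun ξ hξ => by rw [hf]; exact (hb ξ hξ.1).1) hval
    have : B / π = B / (2 * π) + B / (2 * π) := by field_simp; ring
    linarith
  have hnat : Tendsto (fun n : ℕ => (n : ℝ)) atTop atTop := tendsto_natCast_atTop_atTop
  have hnat' : Tendsto (fun n : ℕ => -(n : ℝ)) atTop atBot :=
    tendsto_neg_atTop_atBot.comp hnat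
  have hfint : Integrable f := by
    refine integrable_of_intervalIntegral_norm_bounded (B / π) (fun n => hfc.integrableOn_Ioc)
      hnat' hnat (Eventually.of_forall fun n => ?_)
    refine le_of_eq_of_le (intervalIntegral.integral_congr fun ξ _ => ?_)
      (hwin n (Nat.cast_nonneg n))
    rw [hf]
    exact Real.norm_of_nonneg (sq_nonneg _)
  have hfB : ∫ ξ, f ξ ≤ B / π :=
    le_of_tendsto' (intervalIntegral_tendsto_integral hfint hnat' hnat)
      fun n => hwin n (Nat.cast_nonneg n)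
  have hgint : Integrable fun u => ‖g u‖ ^ 2 :=
    (memLp_two_iff_integrable_sq_norm h1.aestronglyMeasurable).1 h2
  refine ⟨hgint, le_of_eq_of_le ?_ hfB⟩
  rw [integral_eq_lintegral_of_nonneg_ae (Eventually.of_forall fun u => sq_nonneg _)
      hgint.aestronglyMeasurable,
    integral_eq_lintegral_of_nonneg_ae
      (Eventually.of_forall fun ξ => by rw [hf]; exact sq_nonneg _)
      hfint.aestronglyMeasurable]
  congr 1
  simp only [hf, ENNReal.ofReal_pow (norm_nonneg _), ofReal_norm]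
  exact (FA.Halasz.lintegral_enorm_fourier_sq h1 h2).symm

theorem abs_setCoef_le (s : Finset ℕ) : |setCoef s| ≤ 1 := by
  rw [setCoef, abs_pow]
  exact pow_le_one₀ (abs_nonneg _) (by norm_num)

theorem continuous_molVal (A : Finset (Finset ℕ)) : Continuous (molVal A) := by
  unfold molVal
  fun_prop

theorem norm_molVal_le (hA : ∀ s ∈ A, 0 < setProd s ∧ setProd s ≤ Nb) (hcard : A.card ≤ Nb)
    (y : ℝ) : ‖molVal A y‖ ≤ Nb := by
  refine (norm_sum_le _ _).trans ((sum_le_sum (g := fun _ => (1 : ℝ)) fun s hs => ?_).trans ?_)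
  · rw [norm_mul, Complex.norm_exp_ofReal_mul_I, mul_one, Complex.norm_real, Real.norm_eq_abs,
      abs_div, abs_of_nonneg (Real.sqrt_nonneg _)]
    exact div_le_one_of_le₀ ((abs_setCoef_le s).trans
      (Real.one_le_sqrt.2 (Nat.one_le_cast.2 (hA s hs).1))) (Real.sqrt_nonneg _)
  · simpa using (Nat.cast_le.2 hcard : (A.card : ℝ) ≤ Nb)

theorem continuous_molF (T : ℝ) (A : Finset (Finset ℕ)) : Continuous (molF T A) :=
  (continuous_tiltH T).mul (Complex.continuous_ofReal.comp ((continuous_molVal A).norm.pow 2))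

theorem norm_molF_eq (T : ℝ) (A : Finset (Finset ℕ)) (y : ℝ) :
    ‖molF T A y‖ = ‖tiltH T y‖ * ‖molVal A y‖ ^ 2 := by
  rw [molF, norm_mul, Complex.norm_real, Real.norm_of_nonneg (sq_nonneg _)]

theorem integrable_molF {T : ℝ} (hT : 2 ≤ T) (hA : ∀ s ∈ A, 0 < setProd s ∧ setProd s ≤ Nb)
    (hcard : A.card ≤ Nb) : Integrable (molF T A) := by
  refine ((integrable_tiltH hT).norm.const_mul ((Nb : ℝ) ^ 2)).mono'
    (continuous_molF T A).aestronglyMeasurable (Eventually.of_forall fun y => ?_)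
  rw [norm_molF_eq, mul_comm]
  exact mul_le_mul_of_nonneg_right (pow_le_pow_left₀ (norm_nonneg _) (norm_molVal_le hA hcard y) 2)
    (norm_nonneg _)

theorem memLp_molF {T : ℝ} (hT : 2 ≤ T) (hA : ∀ s ∈ A, 0 < setProd s ∧ setProd s ≤ Nb)
    (hcard : A.card ≤ Nb) : MemLp (molF T A) 2 := by
  obtain ⟨C, hC0, hC⟩ := exists_norm_momentFn_le
  have hi := integrable_molF hT hA hcard
  refine (memLp_two_iff_integrable_sq_norm hi.aestronglyMeasurable).2 ?_
  refine (hi.norm.const_mul (C * (1 + T) * (Nb : ℝ) ^ 2)).mono'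
    ((continuous_molF T A).norm.pow 2).aestronglyMeasurable (Eventually.of_forall fun y => ?_)
  rw [Real.norm_of_nonneg (sq_nonneg _), sq]
  refine mul_le_mul_of_nonneg_right ?_ (norm_nonneg _)
  rw [norm_molF_eq]
  refine mul_le_mul ?_ (pow_le_pow_left₀ (norm_nonneg _) (norm_molVal_le hA hcard y) 2)
    (sq_nonneg _) (by positivity)
  have htilt : |((tilt T : ℝ) : ℂ).re| ≤ tilt T := by
    rw [Complex.ofReal_re, abs_of_nonneg]
    have : 1 / T ≤ 1 / 2 := one_div_le_one_div_of_le two_pos hT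
    rw [tilt]
    linarith [Real.pi_gt_three]
  rw [← momentFn_eq_tiltH]
  refine (hC 0 _ _ y htilt).trans ?_
  rw [pow_zero, one_mul, show π / 2 - tilt T = 1 / T by rw [tilt]; ring]
  refine mul_le_mul_of_nonneg_left ?_ hC0
  rw [add_mul, one_mul]
  refine add_le_add (Real.exp_le_one_iff.2 (neg_nonpos.2 (by positivity))) ?_
  have h := Real.add_one_le_exp (1 / T * |y|)
  rw [Real.exp_neg, ← div_eq_mul_inv, div_le_iff₀ (Real.exp_pos _)]
  calc |y| = T * (1 / T * |y|) := by field_simp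
    _ ≤ _ := mul_le_mul_of_nonneg_left (by linarith) (by linarith)

theorem conj_fourier_molF (T : ℝ) (A : Finset (Finset ℕ)) (ξ : ℝ) :
    conj (𝓕 (molF T A) ξ) = 𝓕 (molF T A) (-ξ) := by
  rw [Real.fourier_real_eq_integral_exp_smul, Real.fourier_real_eq_integral_exp_smul,
    ← integral_conj]
  refine integral_congr_ae (Eventually.of_forall fun y => ?_)
  simp only [smul_eq_mul, molF, tiltH, map_mul, ← Complex.exp_conj, Complex.conj_ofReal,
    Complex.conj_I]
  push_cast
  ring_nf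

theorem hardyJ_tilt_eq {T : ℝ} (hT : 2 ≤ T) (v : ℝ) :
    hardyJ 0 ((tilt T : ℂ) - (v : ℂ) * I) =
      π * (cexp (((v : ℂ) + (tilt T : ℂ) * I) / 4) * (jacobiTheta (rotPoint T v) - 1) -
        cexp (-((v : ℂ) + (tilt T : ℂ) * I) / 4)) := by
  obtain ⟨z, hz⟩ : ∃ z : ℂ, z = (tilt T : ℂ) - (v : ℂ) * I := ⟨_, rfl⟩
  have hzs : z ∈ strip := by
    have h := tilt_mem hT
    rw [hz]
    simpa [strip] using h
  have he : I * z = (v : ℂ) + (tilt T : ℂ) * I := by
    rw [hz]
    linear_combination (-(v : ℂ)) * I_sq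
  rw [← hz]
  have h := thetaRot_eq hzs
  rw [thetaRot, thetaSum, he, pow_zero, pow_zero, one_mul, one_mul, neg_mul, he] at h
  have hπ : (π : ℂ) ≠ 0 := ofReal_ne_zero.2 Real.pi_ne_zero
  have e1 : I * cexp ((v : ℂ) + (tilt T : ℂ) * I) = rotPoint T v := by
    rw [rotPoint, Complex.exp_add, Complex.ofReal_exp]
    ring
  rw [e1] at h
  have h' : hardyJ 0 z / π = cexp (((v : ℂ) + (tilt T : ℂ) * I) / 4) *
      (jacobiTheta (rotPoint T v) - 1) - cexp (-((v : ℂ) + (tilt T : ℂ) * I) / 4) := by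
    linear_combination -h
  rw [← h', mul_div_cancel₀ _ hπ]

/-- **The transform.** -/
theorem fourier_molF {T : ℝ} (hT : 2 ≤ T) (hA : ∀ s ∈ A, 0 < setProd s) (ξ : ℝ) :
    𝓕 (molF T A) ξ = π *
      (cexp ((((2 * π * ξ : ℝ) : ℂ) + (tilt T : ℂ) * I) / 4) *
          (2 * twistTheta T A (2 * π * ξ)) -
        cexp (-(((2 * π * ξ : ℝ) : ℂ) + (tilt T : ℂ) * I) / 4) * molPhi A) := by
  obtain ⟨c, hc⟩ : ∃ c : Finset ℕ × Finset ℕ → ℝ, c = fun e =>
      setCoef e.1 / √(setProd e.1 : ℝ) * (setCoef e.2 / √(setProd e.2 : ℝ)) := ⟨_, rfl⟩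
  obtain ⟨d, hd⟩ : ∃ d : Finset ℕ × Finset ℕ → ℝ, d = fun e =>
      Real.log (setProd e.1) - Real.log (setProd e.2) := ⟨_, rfl⟩
  have hexp : ∀ y, cexp (((-2 * π * y * ξ : ℝ) : ℂ) * I) * molF T A y =
      ∑ e ∈ A ×ˢ A, (c e : ℂ) *
        (cexp (((-2 * π * y * (ξ + d e / π) : ℝ) : ℂ) * I) * tiltH T y) := fun y => by
    rw [molF, Complex.ofReal_pow, ← Complex.mul_conj', molVal, map_sum, sum_mul_sum,
      ← mul_assoc, mul_sum, sum_product]
    refine sum_congr rfl fun a _ => ?_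
    rw [mul_sum]
    refine sum_congr rfl fun b _ => ?_
    rw [map_mul, Complex.conj_ofReal, ← Complex.exp_conj, map_mul, Complex.conj_ofReal,
      Complex.conj_I, hc, hd]
    simp only
    rw [show ((-2 * π * y * (ξ + (Real.log (setProd a) - Real.log (setProd b)) / π) : ℝ) : ℂ) * I =
      ((-2 * π * y * ξ : ℝ) : ℂ) * I + (((-(2 * Real.log (setProd a) * y) : ℝ) : ℂ) * I +
        ((-(2 * Real.log (setProd b) * y) : ℝ) : ℂ) * -I) by
      have hπ : (π : ℂ) ≠ 0 := ofReal_ne_zero.2 Real.pi_ne_zero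
      push_cast
      field_simp
      ring, Complex.exp_add, Complex.exp_add]
    push_cast
    ring
  have hint : ∀ η : ℝ, Integrable fun y =>
      cexp (((-2 * π * y * η : ℝ) : ℂ) * I) * tiltH T y := fun η => by
    refine (integrable_tiltH hT).norm.mono' (Continuous.aestronglyMeasurable
      (Continuous.mul (by fun_prop) (continuous_tiltH T))) (Eventually.of_forall fun y => ?_)
    rw [norm_mul, Complex.norm_exp_ofReal_mul_I, one_mul]
  rw [Real.fourier_real_eq_integral_exp_smul]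
  simp only [smul_eq_mul, hexp]
  rw [integral_finsetSum _ fun e _ => (hint _).const_mul _, twistTheta, molPhi, mul_sum, mul_sum,
    mul_sum, ← sum_sub_distrib, mul_sum]
  refine sum_congr rfl fun e he => ?_
  obtain ⟨he1, he2⟩ := mem_product.1 he
  rw [integral_const_mul]
  have hF := fourier_tiltH T (ξ + d e / π)
  rw [Real.fourier_real_eq_integral_exp_smul] at hF
  simp only [smul_eq_mul] at hF
  rw [hF, show 2 * π * (ξ + d e / π) = 2 * π * ξ + 2 * d e by field_simp,
    hardyJ_tilt_eq hT]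
  obtain ⟨r, hr⟩ : ∃ r, r = Real.exp (d e / 2) := ⟨_, rfl⟩
  have hr' : r = √(setProd e.1 : ℝ) / √(setProd e.2 : ℝ) := by
    rw [hr, hd]
    simp only
    rw [sub_div, Real.exp_sub, Real.exp_half, Real.exp_half,
      Real.exp_log (Nat.cast_pos.2 (hA _ he1)),
      Real.exp_log (Nat.cast_pos.2 (hA _ he2))]
  have x1 : cexp ((((2 * π * ξ + 2 * d e : ℝ) : ℂ) + (tilt T : ℂ) * I) / 4) =
      (r : ℂ) * cexp ((((2 * π * ξ : ℝ) : ℂ) + (tilt T : ℂ) * I) / 4) := by
    rw [hr, Complex.ofReal_exp, ← Complex.exp_add]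
    push_cast
    ring_nf
  have x2 : cexp (-(((2 * π * ξ + 2 * d e : ℝ) : ℂ) + (tilt T : ℂ) * I) / 4) =
      (r : ℂ)⁻¹ * cexp (-(((2 * π * ξ : ℝ) : ℂ) + (tilt T : ℂ) * I) / 4) := by
    rw [hr, Complex.ofReal_exp, ← Complex.exp_neg, ← Complex.exp_add]
    push_cast
    ring_nf
  have c1 : (c e : ℂ) * (r : ℂ) = (pairCoef e : ℂ) := by
    rw [← Complex.ofReal_mul, hr', hc, pairCoef]
    congr 1
    have h1 : (0 : ℝ) < setProd e.1 := Nat.cast_pos.2 (hA _ he1)
    have h2 : (0 : ℝ) < setProd e.2 := Nat.cast_pos.2 (hA _ he2)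
    have := Real.sqrt_pos.2 h1
    have := Real.sqrt_pos.2 h2
    field_simp
    rw [Real.sq_sqrt h2.le]
  have c2 : (c e : ℂ) * (r : ℂ)⁻¹ = ((setCoef e.1 * setCoef e.2 / setProd e.1 : ℝ) : ℂ) := by
    rw [← Complex.ofReal_inv, ← Complex.ofReal_mul, hr', hc]
    congr 1
    have h1 : (0 : ℝ) < setProd e.1 := Nat.cast_pos.2 (hA _ he1)
    have h2 : (0 : ℝ) < setProd e.2 := Nat.cast_pos.2 (hA _ he2)
    have := Real.sqrt_pos.2 h1
    have := Real.sqrt_pos.2 h2
    field_simp
    rw [Real.sq_sqrt h1.le]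
    ring
  rw [x1, x2, ← c1, ← c2, hd]
  ring

theorem norm_fourier_molF_sq_le {T : ℝ} (hT : 2 ≤ T)
    (hA : ∀ s ∈ A, 0 < setProd s ∧ setProd s ≤ Nb) (hcard : A.card ≤ Nb) (ξ : ℝ) :
    ‖𝓕 (molF T A) ξ‖ ^ 2 ≤ 8 * π ^ 2 * (Real.exp (2 * π * ξ / 2) *
      ‖twistTheta T A (2 * π * ξ)‖ ^ 2) +
        2 * π ^ 2 * (Nb : ℝ) ^ 4 * Real.exp (-(2 * π * ξ / 2)) := by
  obtain ⟨v, hv⟩ : ∃ v, v = 2 * π * ξ := ⟨_, rfl⟩
  rw [fourier_molF hT (fun s hs => (hA s hs).1), ← hv, norm_mul, Complex.norm_real,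
    Real.norm_of_nonneg Real.pi_pos.le, mul_pow]
  have hP : ‖molPhi A‖ ≤ (Nb : ℝ) ^ 2 := by
    refine (norm_sum_le _ _).trans ((sum_le_sum (g := fun _ => (1 : ℝ)) fun e he => ?_).trans ?_)
    · rw [Complex.norm_real, Real.norm_eq_abs, abs_div, abs_mul, Nat.abs_cast]
      exact div_le_one_of_le₀ ((mul_le_one₀ (abs_setCoef_le _) (abs_nonneg _)
        (abs_setCoef_le _)).trans (Nat.one_le_cast.2 (hA _ (mem_product.1 he).1).1))
        (Nat.cast_nonneg _)
    · rw [sum_const, card_product, nsmul_one, Nat.cast_mul, ← sq]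
      exact pow_le_pow_left₀ (Nat.cast_nonneg _) (Nat.cast_le.2 hcard) 2
  obtain ⟨p, hp⟩ : ∃ p, p = Real.exp (v / 4) * (2 * ‖twistTheta T A v‖) := ⟨_, rfl⟩
  obtain ⟨q, hq⟩ : ∃ q, q = Real.exp (-v / 4) * ‖molPhi A‖ := ⟨_, rfl⟩
  have r1 : (((v : ℂ) + (tilt T : ℂ) * I) / 4).re = v / 4 := by simp
  have r2 : (-((v : ℂ) + (tilt T : ℂ) * I) / 4).re = -v / 4 := by simp
  have hle : ‖cexp (((v : ℂ) + (tilt T : ℂ) * I) / 4) * (2 * twistTheta T A v) -
      cexp (-((v : ℂ) + (tilt T : ℂ) * I) / 4) * molPhi A‖ ≤ p + q := by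
    refine (norm_sub_le _ _).trans (le_of_eq ?_)
    rw [norm_mul, norm_mul, norm_mul, Complex.norm_two, Complex.norm_exp, Complex.norm_exp, r1, r2,
      hp, hq]
  refine (mul_le_mul_of_nonneg_left ((pow_le_pow_left₀ (norm_nonneg _) hle 2).trans (add_sq_le))
    (sq_nonneg π)).trans ?_
  have hp2 : p ^ 2 = 4 * (Real.exp (v / 2) * ‖twistTheta T A v‖ ^ 2) := by
    rw [hp, show v / 2 = v / 4 + v / 4 by ring, Real.exp_add]
    ring
  have hq2 : q ^ 2 ≤ Real.exp (-(v / 2)) * (Nb : ℝ) ^ 4 := by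
    rw [hq, mul_pow, show -(v / 2) = -v / 4 + -v / 4 by ring, Real.exp_add, ← sq,
      show (Nb : ℝ) ^ 4 = ((Nb : ℝ) ^ 2) ^ 2 by ring]
    exact mul_le_mul_of_nonneg_left (pow_le_pow_left₀ (norm_nonneg _) hP 2) (sq_nonneg _)
  rw [hp2]
  nlinarith [mul_le_mul_of_nonneg_left hq2 (sq_nonneg π)]

/-- `g` times the window is split over the scales `2 h 2^(-j)`. -/
theorem integral_window_split {g : ℝ → ℝ} (hg : Continuous g) (hg0 : ∀ v, 0 ≤ g v) {X R θ₀ : ℝ}
    (hX : 0 ≤ X) (hR : 0 ≤ R)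
    (hQ : ∀ θ V, 0 < θ → θ ≤ θ₀ → 0 ≤ V → ∫ v in (0 : ℝ)..V, expWeight θ v * g v ≤ X / θ + R)
    {h V : ℝ} (hh : 0 < h) (hh0 : 2 * h ≤ θ₀) (hV : 0 ≤ V) :
    ∫ v in (0 : ℝ)..V, Real.exp (v / 2) * shortWeight h v * g v ≤
      72 * h * X + 144 * h ^ 2 * R := by
  obtain ⟨J, hJ⟩ : ∃ J : ℕ, h * V + 1 ≤ 2 ^ J := by
    obtain ⟨J, hJ⟩ := pow_unbounded_of_one_lt (h * V + 1) one_lt_two
    exact ⟨J, hJ.le⟩
  obtain ⟨th, hth⟩ : ∃ th : ℕ → ℝ, th = fun j => 2 * h * (1 / 2) ^ j := ⟨_, rfl⟩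
  have hW : ∀ v ∈ Set.Icc 0 V, Real.exp (v / 2) * shortWeight h v * g v ≤
      ∑ j ∈ range (J + 1), 72 * h ^ 2 * (1 / 4) ^ j * (expWeight (th j) v * g v) := by
    intro v hv
    obtain ⟨x, hx⟩ : ∃ x, x = h * v := ⟨_, rfl⟩
    have hx0 : 0 ≤ x := hx ▸ mul_nonneg hh.le hv.1
    have hterm : ∀ j : ℕ, expWeight (th j) v =
        Real.exp (v / 2) * Real.exp (-((1 / 2) ^ j * x)) := fun j => by
      rw [expWeight, ← Real.exp_add, hth, hx]
      congr 1
      ring
    suffices hs : shortWeight h v ≤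
        ∑ j ∈ range (J + 1), 72 * h ^ 2 * (1 / 4) ^ j * Real.exp (-((1 / 2) ^ j * x)) by
      refine (mul_le_mul_of_nonneg_right (mul_le_mul_of_nonneg_left hs (Real.exp_pos _).le)
        (hg0 v)).trans (le_of_eq ?_)
      rw [mul_sum, sum_mul]
      refine sum_congr rfl fun j _ => ?_
      rw [hterm]
      ring
    have hpick : ∀ j ∈ range (J + 1), ∀ y : ℝ,
        y ≤ 72 * h ^ 2 * (1 / 4) ^ j * Real.exp (-((1 / 2) ^ j * x)) →
          y ≤ ∑ i ∈ range (J + 1), 72 * h ^ 2 * (1 / 4) ^ i * Real.exp (-((1 / 2) ^ i * x)) :=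
      fun j hj y hy => hy.trans (single_le_sum
        (f := fun i => 72 * h ^ 2 * (1 / 4 : ℝ) ^ i * Real.exp (-((1 / 2) ^ i * x)))
        (fun i _ => by positivity) hj)
    have he2 : Real.exp 2 ≤ 9 := by
      rw [show (2 : ℝ) = ((2 : ℕ) : ℝ) * 1 by norm_num, Real.exp_nat_mul]
      exact (pow_le_pow_left₀ (Real.exp_pos 1).le Real.exp_one_lt_three.le 2).trans (by norm_num)
    rcases le_or_gt x 1 with hx1 | hx1
    · refine hpick 0 (by simp) _ ((shortWeight_le h v).trans ?_)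
      rw [pow_zero, pow_zero, mul_one, one_mul, Real.exp_neg, ← div_eq_mul_inv,
        le_div_iff₀ (Real.exp_pos _)]
      have : Real.exp x ≤ 9 := (Real.exp_le_exp.2 (show x ≤ 2 by linarith)).trans he2
      nlinarith [sq_nonneg h]
    · obtain ⟨m, hm⟩ : ∃ m, m = Nat.log 2 ⌊x⌋₊ := ⟨_, rfl⟩
      have hfl : ⌊x⌋₊ ≠ 0 := (Nat.floor_pos.2 hx1.le).ne'
      have h1 : (2 : ℝ) ^ m ≤ x := by
        have := Nat.pow_log_le_self 2 hfl
        rw [← hm] at this
        exact (by exact_mod_cast this : (2 : ℝ) ^ m ≤ (⌊x⌋₊ : ℝ)).trans (Nat.floor_le hx0)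
      have h2 : x ≤ 2 * 2 ^ m := by
        have := Nat.lt_pow_succ_log_self one_lt_two ⌊x⌋₊
        rw [← hm, pow_succ, mul_comm] at this
        have h3 : (⌊x⌋₊ : ℝ) + 1 ≤ 2 * 2 ^ m := by exact_mod_cast this
        linarith [Nat.lt_floor_add_one x]
      have hmJ : m ∈ range (J + 1) := by
        rw [mem_range]
        by_contra hc
        have := pow_le_pow_right₀ (one_le_two (α := ℝ)) (show J ≤ m by omega)
        have := mul_le_mul_of_nonneg_left hv.2 hh.le
        linarith [hx ▸ h1]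
      refine hpick m hmJ _ ?_
      have hm4 : (1 / 4 : ℝ) ^ m = 1 / ((2 : ℝ) ^ m) ^ 2 := by
        rw [one_div_pow, ← pow_mul, mul_comm m, pow_mul]
        norm_num
      have hex : Real.exp (-2) ≤ Real.exp (-((1 / 2) ^ m * x)) := by
        refine Real.exp_le_exp.2 (neg_le_neg ?_)
        rw [one_div_pow, one_div_mul_eq_div, div_le_iff₀ (by positivity)]
        exact h2
      refine le_trans ?_ (mul_le_mul_of_nonneg_left hex (by positivity))
      have hWx : shortWeight h v ≤ 8 * h ^ 2 / x ^ 2 := by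
        rw [shortWeight]
        refine div_le_div_of_nonneg_left (by positivity) (by positivity) ?_
        rw [hx, mul_pow]
        linarith
      refine hWx.trans ?_
      rw [hm4, Real.exp_neg, ← div_eq_mul_inv, mul_one_div, div_div,
        div_le_div_iff₀ (by positivity) (by positivity)]
      have := mul_le_mul he2 (pow_le_pow_left₀ (by positivity) h1 2) (by positivity) (by norm_num)
      nlinarith [mul_le_mul_of_nonneg_left this (show 0 ≤ 8 * h ^ 2 by positivity)]
  have hc : ∀ j, Continuous fun v => 72 * h ^ 2 * (1 / 4) ^ j * (expWeight (th j) v * g v) :=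
    fun j => continuous_const.mul ((continuous_expWeight _).mul hg)
  refine (intervalIntegral.integral_mono_on hV
    (((Continuous.mul (by fun_prop) (continuous_shortWeight h)).mul hg).intervalIntegrable _ _)
    ((continuous_finsetSum _ fun j _ => hc j).intervalIntegrable _ _) hW).trans ?_
  rw [intervalIntegral.integral_finsetSum fun j _ => (hc j).intervalIntegrable _ _]
  have hle : ∀ j ∈ range (J + 1),
      ∫ v in (0 : ℝ)..V, 72 * h ^ 2 * (1 / 4) ^ j * (expWeight (th j) v * g v) ≤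
        36 * h * X * (1 / 2) ^ j + 72 * h ^ 2 * R * (1 / 2) ^ j := fun j _ => by
    rw [intervalIntegral.integral_const_mul]
    have hj : 0 < th j := by rw [hth]; positivity
    have hj0 : th j ≤ θ₀ := by
      rw [hth]
      exact (mul_le_of_le_one_right (by positivity) (pow_le_one₀ (by norm_num) (by norm_num))).trans
        hh0
    refine (mul_le_mul_of_nonneg_left (hQ _ V hj hj0 hV) (by positivity)).trans ?_
    rw [mul_add]
    refine add_le_add (le_of_eq ?_) ?_
    · rw [hth, show (1 / 4 : ℝ) ^ j = (1 / 2) ^ j * (1 / 2) ^ j by rw [← mul_pow]; norm_num]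
      field_simp
      ring
    · rw [mul_right_comm]
      exact mul_le_mul_of_nonneg_left (pow_le_pow_left₀ (by norm_num) (by norm_num) j)
        (by positivity)
  refine (sum_le_sum hle).trans ?_
  rw [sum_add_distrib, ← mul_sum, ← mul_sum]
  have h2 := sum_geometric_two_le (J + 1)
  have := mul_le_mul_of_nonneg_left h2 (show 0 ≤ 36 * h * X by positivity)
  have := mul_le_mul_of_nonneg_left h2 (show 0 ≤ 72 * h ^ 2 * R by positivity)
  linarith

/-- `g` without a weight, up to `2 / θ` and beyond. -/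
theorem integral_half_le {g : ℝ → ℝ} (hg : Continuous g) (hg0 : ∀ v, 0 ≤ g v) {X R θ D : ℝ}
    (hθ : 0 < θ) (hD0 : 0 ≤ D)
    (hQ : ∀ V, 0 ≤ V → ∫ v in (0 : ℝ)..V, expWeight θ v * g v ≤ X / θ + R)
    (hD : ∀ v, 0 ≤ v → g v ≤ D * Real.exp (-(2 * v))) {V : ℝ} (hV : 0 ≤ V) :
    ∫ v in (0 : ℝ)..V, Real.exp (v / 2) * g v ≤
      3 * (X / θ + R) + D * Real.exp (-(3 / θ)) := by
  obtain ⟨V₀, hV₀⟩ : ∃ V₀, V₀ = 2 / θ := ⟨_, rfl⟩
  have hV00 : 0 ≤ V₀ := hV₀ ▸ by positivity
  have hc : Continuous fun v => Real.exp (v / 2) * g v := Continuous.mul (by fun_prop) hg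
  have hpos : ∀ v, 0 ≤ Real.exp (v / 2) * g v := fun v => mul_nonneg (Real.exp_pos _).le (hg0 v)
  refine (intervalIntegral.integral_mono_interval le_rfl hV (le_max_right V₀ V)
    (Eventually.of_forall hpos) (hc.intervalIntegrable _ _)).trans ?_
  rw [← intervalIntegral.integral_add_adjacent_intervals (b := V₀) (hc.intervalIntegrable _ _)
    (hc.intervalIntegrable _ _)]
  refine add_le_add ?_ ?_
  · refine le_trans ?_ (mul_le_mul_of_nonneg_left (hQ V₀ hV00) (by norm_num : (0 : ℝ) ≤ 3))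
    rw [← intervalIntegral.integral_const_mul]
    refine intervalIntegral.integral_mono_on hV00 (hc.intervalIntegrable _ _)
      ((continuous_const.mul ((continuous_expWeight θ).mul hg)).intervalIntegrable _ _)
      fun v hv => ?_
    rw [← mul_assoc]
    refine mul_le_mul_of_nonneg_right ?_ (hg0 v)
    rw [expWeight, show v / 2 = (1 - θ) * v / 2 + θ * v / 2 by ring, Real.exp_add, mul_comm]
    refine mul_le_mul_of_nonneg_right ((Real.exp_le_exp.2 (show θ * v / 2 ≤ 1 from ?_)).trans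
      Real.exp_one_lt_three.le) (Real.exp_pos _).le
    have := mul_le_mul_of_nonneg_left hv.2 hθ.le
    rw [hV₀, mul_div_cancel₀ _ hθ.ne'] at this
    linarith
  · have hd : ∀ v : ℝ, HasDerivAt (fun v => -(2 / 3) * (D * Real.exp (-(3 / 2 * v))))
        (D * Real.exp (-(3 / 2 * v))) v := fun v => by
      refine ((((hasDerivAt_id' v).const_mul (3 / 2 : ℝ)).fun_neg.exp.const_mul D).const_mul
        (-(2 / 3) : ℝ)).congr_deriv ?_
      ring
    refine (intervalIntegral.integral_mono_on (le_max_left _ _) (hc.intervalIntegrable _ _)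
      ((by fun_prop : Continuous fun v : ℝ => D * Real.exp (-(3 / 2 * v))).intervalIntegrable _ _)
      fun v hv => ?_).trans ?_
    · refine (mul_le_mul_of_nonneg_left (hD v (hV00.trans hv.1)) (Real.exp_pos _).le).trans
        (le_of_eq ?_)
      rw [mul_left_comm, ← Real.exp_add]
      ring_nf
    · rw [intervalIntegral.integral_eq_sub_of_hasDerivAt (fun v _ => hd v)
        ((by fun_prop : Continuous fun v : ℝ => D * Real.exp (-(3 / 2 * v))).intervalIntegrable
          _ _), show 3 / 2 * V₀ = 3 / θ by rw [hV₀]; field_simp]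
      nlinarith [mul_nonneg hD0 (Real.exp_pos (-(3 / 2 * max V₀ V))).le,
        mul_nonneg hD0 (Real.exp_pos (-(3 / θ))).le]

/-- The series far out. -/
theorem norm_twistTheta_le {T : ℝ} (hT : 4 ≤ T) (hA : ∀ s ∈ A, 0 < setProd s ∧ setProd s ≤ Nb)
    (hcard : A.card ≤ Nb) (v : ℝ) :
    ‖twistTheta T A v‖ ≤ (Nb : ℝ) ^ 4 * T * Real.exp (-v) := by
  refine (norm_sum_le _ _).trans ((sum_le_sum (g := fun _ => (Nb : ℝ) ^ 2 * T * Real.exp (-v))
    fun e he => ?_).trans ?_)
  · obtain ⟨he1, he2⟩ := mem_product.1 he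
    obtain ⟨w, hw⟩ : ∃ w,
        w = v + 2 * (Real.log (setProd e.1) - Real.log (setProd e.2)) := ⟨_, rfl⟩
    rw [← hw, norm_mul, Complex.norm_real, Real.norm_eq_abs]
    refine (mul_le_of_le_one_left (norm_nonneg _) ((abs_pairCoef_le e).trans
      (div_le_one_of_le₀ (Nat.one_le_cast.2 (hA _ he2).1) (Nat.cast_nonneg _)))).trans ?_
    have him := rotPoint_im_pos hT w
    have hb := norm_jacobiTheta_sub_one_le him
    obtain ⟨x, hx⟩ : ∃ x, x = π * (rotPoint T w).im := ⟨_, rfl⟩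
    have hx0 : 0 < x := hx ▸ mul_pos Real.pi_pos him
    have h1 : 1 / x ≤ (Nb : ℝ) ^ 2 * T * Real.exp (-v) := by
      rw [hx, div_le_iff₀ (mul_pos Real.pi_pos him)]
      obtain ⟨hc1, -, -⟩ := cos_tilt_bounds hT
      have himeq : (rotPoint T w).im = Real.cos (tilt T) * Real.exp w := by
        rw [rotPoint_eq, Complex.I_mul_im, Complex.re_mul_ofReal]
        simp only [Complex.add_re, Complex.mul_re, Complex.ofReal_re, Complex.I_re, mul_zero,
          Complex.ofReal_im, Complex.I_im, zero_mul, sub_zero, add_zero]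
      have hrat : Real.exp v / (Nb : ℝ) ^ 2 ≤ Real.exp w := by
        rw [hw, Real.exp_add, two_mul, Real.exp_add, Real.exp_sub,
          Real.exp_log (Nat.cast_pos.2 (hA _ he1).1), Real.exp_log (Nat.cast_pos.2 (hA _ he2).1),
          div_eq_mul_inv]
        refine mul_le_mul_of_nonneg_left ?_ (Real.exp_pos v).le
        rw [← inv_pow, ← sq]
        refine pow_le_pow_left₀ (by positivity) ?_ 2
        rw [inv_eq_one_div]
        exact div_le_div₀ (Nat.cast_nonneg _) (Nat.one_le_cast.2 (hA _ he1).1)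
          (Nat.cast_pos.2 (hA _ he2).1) (Nat.cast_le.2 (hA _ he2).2)
      rw [himeq]
      have hN : (0 : ℝ) < Nb := lt_of_lt_of_le (Nat.cast_pos.2 (hA _ he1).1)
        (Nat.cast_le.2 (hA _ he1).2)
      have hc0 : 0 < Real.cos (tilt T) := lt_of_lt_of_le (by positivity) hc1
      rw [div_le_iff₀ (by positivity)] at hrat hc1
      rw [Real.exp_neg]
      field_simp
      have h3 : 2 ≤ π := by linarith [Real.pi_gt_three]
      nlinarith [mul_le_mul hrat hc1 zero_le_one (by positivity),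
        mul_le_mul_of_nonneg_left h3 (show 0 ≤ Real.cos (tilt T) * T * (Real.exp w * (Nb : ℝ) ^ 2)
          by positivity)]
    refine le_trans ?_ h1
    rw [norm_div, Complex.norm_two, div_le_iff₀ two_pos]
    refine hb.trans ?_
    rw [show -π * (rotPoint T w).im = -x by rw [hx]; ring]
    have h2 : 0 < 1 - Real.exp (-x) := sub_pos.2 (Real.exp_lt_one_iff.2 (neg_lt_zero.2 hx0))
    have h3 := Real.add_one_le_exp x
    have h4 : Real.exp (-x) * Real.exp x = 1 := by rw [← Real.exp_add]; simp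
    rw [div_mul_eq_mul_div, div_le_iff₀ h2, one_div, inv_mul_eq_div, div_mul_eq_mul_div,
      le_div_iff₀ hx0]
    nlinarith [mul_le_mul_of_nonneg_left h3 (Real.exp_pos (-x)).le]
  · rw [sum_const, card_product, nsmul_eq_mul, Nat.cast_mul]
    have hc : (A.card : ℝ) * A.card ≤ (Nb : ℝ) ^ 2 := by
      rw [sq]
      exact mul_le_mul (Nat.cast_le.2 hcard) (Nat.cast_le.2 hcard) (Nat.cast_nonneg _)
        (Nat.cast_nonneg _)
    calc _ ≤ (Nb : ℝ) ^ 2 * ((Nb : ℝ) ^ 2 * T * Real.exp (-v)) :=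
          mul_le_mul_of_nonneg_right hc (by positivity)
      _ = _ := by ring

end FA.SelbergZeros
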