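import Fermat.Agent.HardyLittlewoodZeros.Theta

/-!
# The truncated Mellin transform of `∑ exp (-r² x²)`

`∫_(η, ∞) x ^ (-θ) Θ x dx = √π / (2 θ) η ^ (-θ) + c θ + O (η ^ (1 - θ))` with `c θ = O (1 / θ)`,
where `Θ x = ∑_{r ≥ 1} exp (-r² x²)`, as `Θ x` is `√π / (2 x)` up to `1`.
-/

set_option autoImplicit false

noncomputable section

namespace FA.SelbergZeros

open MeasureTheory Filter Topology
open scoped Real

/-- The partial sums. -/
def gaussPartial (M : ℕ) (x : ℝ) : ℝ := ∑ r ∈ Finset.Icc 1 M, Real.exp (-(x ^ 2 * (r : ℝ) ^ 2))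

/-- `∑_{r ≥ 1} exp (-r² x²)`. -/
def gaussTheta (x : ℝ) : ℝ := ⨆ M : ℕ, gaussPartial M x

theorem gaussPartial_nonneg (M : ℕ) (x : ℝ) : 0 ≤ gaussPartial M x :=
  Finset.sum_nonneg fun r _ => (Real.exp_pos _).le

theorem gaussPartial_le {x : ℝ} (hx : 0 < x) (M : ℕ) : gaussPartial M x ≤ √π / (2 * x) := by
  refine (HardyLittlewoodZeros.sum_gauss_le (pow_pos hx 2) M).trans (le_of_eq ?_)
  rw [Real.sqrt_div Real.pi_pos.le, Real.sqrt_sq hx.le, div_div, mul_comm x]

theorem tendsto_gaussPartial {x : ℝ} (hx : 0 < x) :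
    Tendsto (fun M => gaussPartial M x) atTop (𝓝 (gaussTheta x)) :=
  tendsto_atTop_ciSup (fun m n h => Finset.sum_le_sum_of_subset_of_nonneg
    (Finset.Icc_subset_Icc le_rfl h) fun r _ _ => (Real.exp_pos _).le)
    ⟨√π / (2 * x), Set.forall_mem_range.2 (gaussPartial_le hx)⟩

theorem gaussTheta_nonneg {x : ℝ} (hx : 0 < x) : 0 ≤ gaussTheta x :=
  ge_of_tendsto' (tendsto_gaussPartial hx) fun M => gaussPartial_nonneg M x

theorem gaussTheta_le {x : ℝ} (hx : 0 < x) : gaussTheta x ≤ √π / (2 * x) :=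
  le_of_tendsto' (tendsto_gaussPartial hx) (gaussPartial_le hx)

theorem le_gaussTheta {x : ℝ} (hx : 0 < x) : √π / (2 * x) - 1 ≤ gaussTheta x := by
  obtain ⟨f, hf⟩ : ∃ f : ℝ → ℝ, f = fun t => Real.exp (-(x ^ 2 * t ^ 2)) := ⟨_, rfl⟩
  have hi : Integrable f := by
    simpa [hf, neg_mul] using integrable_exp_neg_mul_sq (pow_pos hx 2)
  have hlim : Tendsto (fun M : ℕ => ∫ t in (0 : ℝ)..(M : ℝ), f t) atTop (𝓝 (√π / (2 * x))) := by
    have h := intervalIntegral_tendsto_integral_Ioi 0 hi.integrableOn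
      (tendsto_natCast_atTop_atTop (R := ℝ))
    have e : ∫ t in Set.Ioi (0 : ℝ), f t = √π / (2 * x) := by
      simp only [hf, ← neg_mul, integral_gaussian_Ioi]
      rw [Real.sqrt_div Real.pi_pos.le, Real.sqrt_sq hx.le, div_div, mul_comm x]
    rwa [e] at h
  refine le_of_tendsto' (hlim.sub_const 1) fun M => ?_
  have hanti : AntitoneOn f (Set.Icc (0 : ℝ) (0 + M)) := fun a ha b _ hab => by
    rw [hf]
    exact Real.exp_le_exp.2 (neg_le_neg (mul_le_mul_of_nonneg_left
      (pow_le_pow_left₀ ha.1 hab 2) (sq_nonneg x)))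
  have h := hanti.integral_le_sum
  simp only [zero_add] at h
  refine (sub_le_sub_right h 1).trans ?_
  rw [sub_le_iff_le_add]
  refine le_trans ?_ (add_le_add ((ge_of_tendsto (tendsto_gaussPartial hx)
    (eventually_atTop.2 ⟨M, fun m hm => Finset.sum_le_sum_of_subset_of_nonneg
      (Finset.Icc_subset_Icc le_rfl hm) fun r _ _ => (Real.exp_pos _).le⟩))) le_rfl)
  simp only [hf]
  cases M with
  | zero => simp
  | succ m =>
    rw [Finset.sum_range_succ', Nat.cast_zero]
    refine add_le_add ?_ (Real.exp_le_one_iff.2 (by simp))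
    refine le_trans (le_of_eq ?_) (Finset.sum_le_sum_of_subset_of_nonneg
      (Finset.Icc_subset_Icc le_rfl m.le_succ) fun r _ _ => (Real.exp_pos _).le)
    rw [← Finset.Ico_add_one_right_eq_Icc, Finset.sum_Ico_eq_sum_range]
    refine Finset.sum_congr (by simp) fun i _ => ?_
    rw [add_comm 1 i]

theorem measurable_gaussTheta : Measurable gaussTheta := by
  refine Measurable.iSup fun M => (Continuous.measurable ?_)
  unfold gaussPartial
  fun_prop

/-- The integrand. -/
def mellinPart (θ x : ℝ) : ℝ := x ^ (-θ) * gaussTheta x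

theorem measurable_mellinPart (θ : ℝ) : Measurable (mellinPart θ) :=
  (measurable_id.pow_const _).mul measurable_gaussTheta

theorem mellinPart_le {θ x : ℝ} (hx : 0 < x) :
    mellinPart θ x ≤ √π / 2 * x ^ (-θ - 1) := by
  refine (mul_le_mul_of_nonneg_left (gaussTheta_le hx) (Real.rpow_nonneg hx.le _)).trans
    (le_of_eq ?_)
  rw [Real.rpow_sub hx, Real.rpow_one]
  ring

theorem integrableOn_mellinPart {θ η : ℝ} (hθ : 0 < θ) (hη : 0 < η) :
    IntegrableOn (mellinPart θ) (Set.Ioi η) := by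
  refine Integrable.mono' ((integrableOn_Ioi_rpow_of_lt (a := -θ - 1) (by linarith) hη).const_mul
    (√π / 2)) (measurable_mellinPart θ).aestronglyMeasurable ?_
  filter_upwards [ae_restrict_mem measurableSet_Ioi] with x hx
  have hx0 : 0 < x := hη.trans hx
  exact (le_of_eq (Real.norm_of_nonneg (show 0 ≤ mellinPart θ x from
    mul_nonneg (Real.rpow_nonneg hx0.le _) (gaussTheta_nonneg hx0)))).trans (mellinPart_le hx0)

/-- `∫_(η, ∞) x ^ (-θ) Θ x dx`. -/
def mellinTail (θ η : ℝ) : ℝ := ∫ x in Set.Ioi η, mellinPart θ x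

theorem mellinTail_nonneg {θ η : ℝ} (hη : 0 < η) : 0 ≤ mellinTail θ η :=
  setIntegral_nonneg measurableSet_Ioi fun _ hx =>
    mul_nonneg (Real.rpow_nonneg (hη.trans hx).le _) (gaussTheta_nonneg (hη.trans hx))

theorem mellinTail_le {θ η : ℝ} (hθ : 0 < θ) (hη : 0 < η) :
    mellinTail θ η ≤ √π / (2 * θ) * η ^ (-θ) := by
  refine (setIntegral_mono_on (integrableOn_mellinPart hθ hη)
    ((integrableOn_Ioi_rpow_of_lt (a := -θ - 1) (by linarith) hη).const_mul (√π / 2))
    measurableSet_Ioi fun x hx => mellinPart_le (hη.trans hx)).trans (le_of_eq ?_)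
  rw [integral_const_mul, integral_Ioi_rpow_of_lt (by linarith) hη, sub_add_cancel]
  field_simp

theorem mellinTail_sub {θ a b : ℝ} (hθ : 0 < θ) (ha : 0 < a) (hab : a ≤ b) :
    ∫ x in a..b, mellinPart θ x = mellinTail θ a - mellinTail θ b := by
  rw [intervalIntegral.integral_of_le hab, mellinTail, mellinTail, eq_sub_iff_add_eq,
    ← setIntegral_union Set.Ioc_disjoint_Ioi_same measurableSet_Ioi
      ((integrableOn_mellinPart hθ ha).mono_set Set.Ioc_subset_Ioi_self)
      (integrableOn_mellinPart hθ (ha.trans_le hab)), Set.Ioc_union_Ioi_eq_Ioi hab]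

/-- **The expansion at `0`.** -/
theorem mellinTail_expansion {θ : ℝ} (hθ : 0 < θ) (hθ1 : θ ≤ 1 / 2) :
    ∃ c : ℝ, |c| ≤ 3 / θ ∧ ∀ η : ℝ, 0 < η →
      |mellinTail θ η - √π / (2 * θ) * η ^ (-θ) - c| ≤ 2 * η ^ (1 - θ) := by
  obtain ⟨R, hR⟩ : ∃ R : ℝ → ℝ, R = fun x => x ^ (-θ) * (gaussTheta x - √π / (2 * x)) := ⟨_, rfl⟩
  have hRb : ∀ x, 0 < x → |R x| ≤ x ^ (-θ) := fun x hx => by
    rw [hR, abs_mul, abs_of_nonneg (Real.rpow_nonneg hx.le _)]
    refine mul_le_of_le_one_right (Real.rpow_nonneg hx.le _) (abs_le.2 ⟨?_, ?_⟩)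
    · linarith [le_gaussTheta hx]
    · linarith [gaussTheta_le hx]
  have hRint : ∀ a b, 0 ≤ a → 0 ≤ b → IntervalIntegrable R volume a b := fun a b ha hb => by
    refine IntervalIntegrable.mono_fun' (g := fun x => x ^ (-θ))
      (intervalIntegral.intervalIntegrable_rpow' (by linarith))
      (hR ▸ ((measurable_id.pow_const _).mul (measurable_gaussTheta.sub
        (measurable_const.div (measurable_const.mul measurable_id)))).aestronglyMeasurable) ?_
    filter_upwards [ae_restrict_mem measurableSet_uIoc] with x hx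
    exact hRb x (lt_of_le_of_lt (le_min ha hb) hx.1)
  have hR0 : ∀ b, 0 ≤ b → |∫ x in (0 : ℝ)..b, R x| ≤ 2 * b ^ (1 - θ) := fun b hb => by
    refine (intervalIntegral.norm_integral_le_of_norm_le (μ := volume) (f := R) hb
      (g := fun x => x ^ (-θ)) ?_
      (intervalIntegral.intervalIntegrable_rpow' (by linarith))).trans ?_
    · exact Eventually.of_forall fun x hx => hRb x hx.1
    · rw [integral_rpow (Or.inl (by linarith)), Real.zero_rpow (by linarith), sub_zero,
        show -θ + 1 = 1 - θ by ring, div_le_iff₀ (by linarith)]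
      have := Real.rpow_nonneg hb (1 - θ)
      nlinarith
  refine ⟨mellinTail θ 1 + (∫ x in (0 : ℝ)..1, R x) - √π / (2 * θ), ?_, fun η hη => ?_⟩
  · have h1 := mellinTail_le (η := 1) hθ one_pos
    rw [Real.one_rpow, mul_one] at h1
    have h2 := abs_le.1 (hR0 1 zero_le_one)
    rw [Real.one_rpow, mul_one] at h2
    have h3 : √π / (2 * θ) ≤ 1 / θ := by
      rw [div_le_div_iff₀ (by positivity) hθ]
      have : √π ≤ 2 := (Real.sqrt_le_iff).2 ⟨two_pos.le, by linarith [Real.pi_lt_four]⟩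
      nlinarith
    have h4 : 2 ≤ 1 / θ := by
      rw [le_div_iff₀ hθ]
      linarith
    have h5 : 0 ≤ √π / (2 * θ) := by positivity
    have h6 : 3 / θ = 3 * (1 / θ) := by ring
    rw [abs_le]
    constructor <;> linarith [mellinTail_nonneg (θ := θ) one_pos]
  · have key : mellinTail θ η - mellinTail θ 1 =
        √π / (2 * θ) * (η ^ (-θ) - 1) + ∫ x in η..1, R x := by
      have hP : ∀ a b : ℝ, 0 < a → a ≤ b → ∫ x in a..b, mellinPart θ x =
          √π / (2 * θ) * (a ^ (-θ) - b ^ (-θ)) + ∫ x in a..b, R x := fun a b ha hab => by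
        have h0 : (0 : ℝ) ∉ Set.uIcc a b := Set.notMem_uIcc_of_lt ha (ha.trans_le hab)
        have hi : IntervalIntegrable (fun x => √π / 2 * x ^ (-θ - 1)) volume a b :=
          (intervalIntegral.intervalIntegrable_rpow (Or.inr h0)).const_mul _
        have e : Set.EqOn (mellinPart θ) (fun x => √π / 2 * x ^ (-θ - 1) + R x)
            (Set.uIcc a b) := fun x hx => by
          rw [Set.uIcc_of_le hab] at hx
          have hx0 : 0 < x := ha.trans_le hx.1
          simp only [hR, mellinPart, Real.rpow_sub hx0, Real.rpow_one]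
          ring
        rw [intervalIntegral.integral_congr e,
          intervalIntegral.integral_add hi (hRint a b ha.le (ha.le.trans hab)),
          intervalIntegral.integral_const_mul,
          integral_rpow (Or.inr ⟨by linarith, h0⟩), sub_add_cancel]
        congr 1
        field_simp
        ring
      rcases le_total η 1 with h | h
      · rw [← mellinTail_sub hθ hη h, hP η 1 hη h, Real.one_rpow]
      · rw [← neg_sub, ← mellinTail_sub hθ one_pos h, hP 1 η one_pos h, Real.one_rpow,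
          intervalIntegral.integral_symm η 1]
        ring
    have hsplit : ∫ x in η..1, R x = (∫ x in (0 : ℝ)..1, R x) - ∫ x in (0 : ℝ)..η, R x := by
      rw [eq_sub_iff_add_eq, add_comm, intervalIntegral.integral_add_adjacent_intervals
        (hRint 0 η le_rfl hη.le) (hRint η 1 hη.le zero_le_one)]
    rw [hsplit] at key
    rw [show mellinTail θ η - √π / (2 * θ) * η ^ (-θ) -
      (mellinTail θ 1 + (∫ x in (0 : ℝ)..1, R x) - √π / (2 * θ)) =
        -∫ x in (0 : ℝ)..η, R x by linarith, abs_neg]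
    exact hR0 η hη.le

end FA.SelbergZeros
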