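import Fermat.Agent.SelbergZeros.Fourier

/-!
# The mean squares of the mollified function and of its short integrals

With `S` a bound for Selberg's quadruple sums at `0 ≤ θ ≤ θ₀`, they are `O (√T S log T)` and
`O (h √T S)`, up to powers of the length times `(log T)²`.
-/

set_option autoImplicit false

noncomputable section

namespace FA.SelbergZeros

open MeasureTheory Complex Filter Topology FourierTransform Finset
open FA.HardyLittlewoodZeros (shortWeight shortWeight_nonneg shortWeight_le continuous_shortWeight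
  windowKernel norm_windowKernel_sq_le)
open scoped Real

variable {A : Finset (Finset ℕ)} {Nb : ℕ} {T θ₀ S : ℝ}

theorem integral_exp_neg_half_le (V : ℝ) :
    ∫ v in (0 : ℝ)..V, Real.exp (-(v / 2)) ≤ 2 := by
  have hd : ∀ v : ℝ, HasDerivAt (fun v => -2 * Real.exp (-(v / 2))) (Real.exp (-(v / 2))) v :=
    fun v => by
      refine ((((hasDerivAt_id' v).div_const 2).fun_neg).exp.const_mul (-2 : ℝ)).congr_deriv ?_
      ring
  rw [intervalIntegral.integral_eq_sub_of_hasDerivAt (fun v _ => hd v)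
    ((by fun_prop : Continuous fun v : ℝ => Real.exp (-(v / 2))).intervalIntegrable _ _)]
  norm_num
  linarith [Real.exp_pos (-(V / 2))]

/-- **The mean square of the short integrals.** -/
theorem integral_molInt_le (hT : 4 ≤ T) (hA : ∀ s ∈ A, 0 < setProd s ∧ setProd s ≤ Nb)
    (hcard : A.card ≤ Nb) (hNb : 1 ≤ Nb) (hθ₀ : θ₀ ≤ 1 / 4)
    (hS : ∀ θ, 0 ≤ θ → θ ≤ θ₀ → |quadSum (quadTerm θ) A| ≤ S) {h : ℝ} (hh : 0 < h)
    (hh0 : 2 * h ≤ θ₀) :
    Integrable (fun u => ‖molInt T A h u‖ ^ 2) ∧ ∫ u, ‖molInt T A h u‖ ^ 2 ≤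
      33000 * (h * √T * S) +
        40000 * (h ^ 2 * ((Nb : ℝ) ^ 6 * (3 + Real.log ((Nb : ℝ) ^ 4 * T)) ^ 2)) := by
  have hT2 : 2 ≤ T := by linarith
  have hi := integrable_molF hT2 hA hcard
  have hc := continuous_molF T A
  obtain ⟨h1, h2⟩ := memLp_window hc hi hh.le
  obtain ⟨L, hL⟩ : ∃ L, L = 3 + Real.log ((Nb : ℝ) ^ 4 * T) := ⟨_, rfl⟩
  rw [← hL]
  obtain ⟨g, hg⟩ : ∃ g : ℝ → ℝ, g = fun v => ‖twistTheta T A v‖ ^ 2 := ⟨_, rfl⟩
  have hgc : Continuous g := hg ▸ (continuous_twistTheta hT A).norm.pow 2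
  have hg0 : ∀ v, 0 ≤ g v := fun v => by rw [hg]; exact sq_nonneg _
  have hS0 : 0 ≤ S := (abs_nonneg _).trans (hS 0 le_rfl (by linarith))
  obtain ⟨Φ, hΦ⟩ : ∃ Φ : ℝ → ℝ, Φ = fun v => shortWeight h v *
      (8 * π ^ 2 * (Real.exp (v / 2) * g v) + 2 * π ^ 2 * (Nb : ℝ) ^ 4 * Real.exp (-(v / 2))) :=
    ⟨_, rfl⟩
  have hΦc : Continuous Φ := by
    rw [hΦ]
    exact (continuous_shortWeight h).mul ((continuous_const.mul (Continuous.mul (by fun_prop)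
      hgc)).add (by fun_prop))
  have hbnd : ∀ ξ, 0 ≤ ξ → ‖𝓕 (molInt T A h) ξ‖ ^ 2 ≤ Φ (2 * π * ξ) ∧
      ‖𝓕 (molInt T A h) (-ξ)‖ ^ 2 ≤ Φ (2 * π * ξ) := fun ξ hξ => by
    have hw : ∀ η, 0 ≤ η → (‖windowKernel h η‖ ^ 2 ≤ shortWeight h (2 * π * η)) ∧
        ‖windowKernel h (-η)‖ ^ 2 ≤ shortWeight h (2 * π * η) := fun η _ => by
      refine ⟨norm_windowKernel_sq_le hh.le η, (norm_windowKernel_sq_le hh.le (-η)).trans
        (le_of_eq ?_)⟩
      unfold shortWeight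
      ring_nf
    obtain ⟨w1, w2⟩ := hw ξ hξ
    have hb := norm_fourier_molF_sq_le hT2 hA hcard ξ
    rw [hΦ, hg]
    unfold molInt
    rw [fourier_window hc hi hh.le, fourier_window hc hi hh.le, norm_mul, norm_mul, mul_pow,
      mul_pow, ← conj_fourier_molF, Complex.norm_conj]
    exact ⟨mul_le_mul w1 hb (sq_nonneg _) (shortWeight_nonneg _ _),
      mul_le_mul w2 hb (sq_nonneg _) (shortWeight_nonneg _ _)⟩
  have hBnd : ∀ V, 0 ≤ V → ∫ v in (0 : ℝ)..V, Φ v ≤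
      8 * π ^ 2 * (72 * h * (14 * √T * S) + 144 * h ^ 2 * (8 * (Nb : ℝ) ^ 6 * L ^ 2)) +
      2 * π ^ 2 * (Nb : ℝ) ^ 4 * (2 * h ^ 2 * 2) := fun V hV => by
    have hs := integral_window_split hgc hg0 (X := 14 * √T * S) (R := 8 * (Nb : ℝ) ^ 6 * L ^ 2)
      (θ₀ := θ₀) (by positivity) (by positivity) (fun θ W hθ hθ' hW => by
        rw [hL, hg]
        exact integral_twistTheta_le hT hθ (by linarith) hA hcard hNb (hS 0 le_rfl (by linarith))
          (hS θ hθ.le hθ') hW) hh hh0 hV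
    have c1 : Continuous fun v => Real.exp (v / 2) * shortWeight h v * g v :=
      (Continuous.mul (by fun_prop) (continuous_shortWeight h)).mul hgc
    have c2 : Continuous fun v => shortWeight h v * Real.exp (-(v / 2)) :=
      (continuous_shortWeight h).mul (by fun_prop)
    have e : ∀ v, Φ v = 8 * π ^ 2 * (Real.exp (v / 2) * shortWeight h v * g v) +
        2 * π ^ 2 * (Nb : ℝ) ^ 4 * (shortWeight h v * Real.exp (-(v / 2))) := fun v => by
      rw [hΦ]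
      simp only
      ring
    simp only [e]
    rw [intervalIntegral.integral_add ((c1.intervalIntegrable _ _).const_mul _)
      ((c2.intervalIntegrable _ _).const_mul _), intervalIntegral.integral_const_mul,
      intervalIntegral.integral_const_mul]
    refine add_le_add (mul_le_mul_of_nonneg_left hs (by positivity))
      (mul_le_mul_of_nonneg_left ?_ (by positivity))
    refine (intervalIntegral.integral_mono_on hV (c2.intervalIntegrable _ _)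
      (((by fun_prop :
        Continuous fun v : ℝ => Real.exp (-(v / 2))).intervalIntegrable _ _).const_mul
        (2 * h ^ 2)) fun v _ => mul_le_mul_of_nonneg_right (shortWeight_le h v)
          (Real.exp_pos _).le).trans ?_
    rw [intervalIntegral.integral_const_mul]
    exact mul_le_mul_of_nonneg_left (integral_exp_neg_half_le V) (by positivity)
  obtain ⟨hI, hle⟩ := integral_sq_le_of_fourier (g := molInt T A h) h1 h2 hΦc hbnd hBnd
  refine ⟨hI, hle.trans ?_⟩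
  rw [div_le_iff₀ Real.pi_pos]
  have hL1 : 1 ≤ L ^ 2 := one_le_pow₀ (by
    have := Real.log_nonneg (one_le_mul_of_one_le_of_one_le (one_le_pow₀ (Nat.one_le_cast.2 hNb)
      (n := 4)) (show (1 : ℝ) ≤ T by linarith))
    linarith)
  have hN46 : (Nb : ℝ) ^ 4 ≤ (Nb : ℝ) ^ 6 * L ^ 2 :=
    (pow_le_pow_right₀ (Nat.one_le_cast.2 hNb) (by norm_num)).trans
      (le_mul_of_one_le_right (by positivity) hL1)
  obtain ⟨P, hP⟩ : ∃ P, P = h * √T * S := ⟨_, rfl⟩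
  obtain ⟨Q, hQ⟩ : ∃ Q, Q = h ^ 2 * ((Nb : ℝ) ^ 6 * L ^ 2) := ⟨_, rfl⟩
  have hP0 : 0 ≤ P := hP ▸ mul_nonneg (by positivity) hS0
  have hQ0 : 0 ≤ Q := hQ ▸ by positivity
  have hX : h ^ 2 * (Nb : ℝ) ^ 4 ≤ Q := hQ ▸ mul_le_mul_of_nonneg_left hN46 (sq_nonneg h)
  rw [← hP, ← hQ, show 8 * π ^ 2 * (72 * h * (14 * √T * S) +
    144 * h ^ 2 * (8 * (Nb : ℝ) ^ 6 * L ^ 2)) + 2 * π ^ 2 * (Nb : ℝ) ^ 4 * (2 * h ^ 2 * 2) =
    (8 * π * (1008 * P + 1152 * Q) + 8 * π * (h ^ 2 * (Nb : ℝ) ^ 4)) * π by rw [hP, hQ]; ring]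
  refine mul_le_mul_of_nonneg_right ?_ Real.pi_pos.le
  have := mul_le_mul_of_nonneg_left hX (show 0 ≤ 8 * π by positivity)
  nlinarith [Real.pi_lt_four, Real.pi_pos]

/-- **The mean square of the function.** -/
theorem integral_molF_le (hT : 4 ≤ T) (hA : ∀ s ∈ A, 0 < setProd s ∧ setProd s ≤ Nb)
    (hcard : A.card ≤ Nb) (hNb : 1 ≤ Nb) (hθ₀ : θ₀ ≤ 1 / 4)
    (hS : ∀ θ, 0 ≤ θ → θ ≤ θ₀ → |quadSum (quadTerm θ) A| ≤ S) (hlog : 1 / Real.log T ≤ θ₀) :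
    Integrable (fun u => ‖molF T A u‖ ^ 2) ∧ ∫ u, ‖molF T A u‖ ^ 2 ≤
      1400 * (√T * S * Real.log T) +
        900 * ((Nb : ℝ) ^ 8 * (3 + Real.log ((Nb : ℝ) ^ 4 * T)) ^ 2) := by
  have hT2 : 2 ≤ T := by linarith
  have hT0 : 0 < T := by linarith
  have hl : 0 < Real.log T := Real.log_pos (by linarith)
  obtain ⟨L, hL⟩ : ∃ L, L = 3 + Real.log ((Nb : ℝ) ^ 4 * T) := ⟨_, rfl⟩
  rw [← hL]
  obtain ⟨g, hg⟩ : ∃ g : ℝ → ℝ, g = fun v => ‖twistTheta T A v‖ ^ 2 := ⟨_, rfl⟩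
  have hgc : Continuous g := hg ▸ (continuous_twistTheta hT A).norm.pow 2
  have hg0 : ∀ v, 0 ≤ g v := fun v => by rw [hg]; exact sq_nonneg _
  obtain ⟨Φ, hΦ⟩ : ∃ Φ : ℝ → ℝ, Φ = fun v => 8 * π ^ 2 * (Real.exp (v / 2) * g v) +
      2 * π ^ 2 * (Nb : ℝ) ^ 4 * Real.exp (-(v / 2)) := ⟨_, rfl⟩
  have hΦc : Continuous Φ := by
    rw [hΦ]
    exact (continuous_const.mul (Continuous.mul (by fun_prop) hgc)).add (by fun_prop)
  have hbnd : ∀ ξ, 0 ≤ ξ → ‖𝓕 (molF T A) ξ‖ ^ 2 ≤ Φ (2 * π * ξ) ∧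
      ‖𝓕 (molF T A) (-ξ)‖ ^ 2 ≤ Φ (2 * π * ξ) := fun ξ hξ => by
    have hb := norm_fourier_molF_sq_le hT2 hA hcard ξ
    rw [hΦ, hg, ← conj_fourier_molF, Complex.norm_conj]
    exact ⟨hb, hb⟩
  have hBnd : ∀ V, 0 ≤ V → ∫ v in (0 : ℝ)..V, Φ v ≤
      8 * π ^ 2 * (3 * (14 * √T * S / (1 / Real.log T) + 8 * (Nb : ℝ) ^ 6 * L ^ 2) +
      ((Nb : ℝ) ^ 4 * T) ^ 2 * Real.exp (-(3 / (1 / Real.log T)))) +
        2 * π ^ 2 * (Nb : ℝ) ^ 4 * 2 := fun V hV => by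
    have hs := integral_half_le hgc hg0 (X := 14 * √T * S) (R := 8 * (Nb : ℝ) ^ 6 * L ^ 2)
      (D := ((Nb : ℝ) ^ 4 * T) ^ 2) (one_div_pos.2 hl) (sq_nonneg _) (fun W hW => by
        rw [hL, hg]
        exact integral_twistTheta_le hT (one_div_pos.2 hl) (by linarith) hA hcard hNb
          (hS 0 le_rfl (le_trans (by positivity) hlog))
          (hS _ (by positivity) hlog) hW) (fun v _ => by
        rw [hg, show -(2 * v) = -v + -v by ring, Real.exp_add, ← sq, ← mul_pow]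
        exact pow_le_pow_left₀ (norm_nonneg _) (norm_twistTheta_le hT hA hcard v) 2) hV
    have c1 : Continuous fun v => Real.exp (v / 2) * g v := Continuous.mul (by fun_prop) hgc
    rw [hΦ]
    rw [intervalIntegral.integral_add ((c1.intervalIntegrable _ _).const_mul _)
      ((by fun_prop : Continuous fun v : ℝ =>
        2 * π ^ 2 * (Nb : ℝ) ^ 4 * Real.exp (-(v / 2))).intervalIntegrable _ _),
      intervalIntegral.integral_const_mul, intervalIntegral.integral_const_mul]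
    exact add_le_add (mul_le_mul_of_nonneg_left hs (by positivity))
      (mul_le_mul_of_nonneg_left (integral_exp_neg_half_le V) (by positivity))
  obtain ⟨hI, hle⟩ := integral_sq_le_of_fourier (g := molF T A) (integrable_molF hT2 hA hcard)
    (memLp_molF hT2 hA hcard) hΦc hbnd hBnd
  refine ⟨hI, hle.trans ?_⟩
  rw [div_le_iff₀ Real.pi_pos]
  have hS0 : 0 ≤ S := (abs_nonneg _).trans (hS 0 le_rfl (le_trans (by positivity) hlog))
  have hexp : ((Nb : ℝ) ^ 4 * T) ^ 2 * Real.exp (-(3 / (1 / Real.log T))) ≤ (Nb : ℝ) ^ 8 := by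
    rw [div_div_eq_mul_div, div_one, Real.exp_neg, show 3 * Real.log T = Real.log (T ^ 3) by
      rw [Real.log_pow]; norm_num, Real.exp_log (by positivity), ← div_eq_mul_inv,
      div_le_iff₀ (by positivity)]
    nlinarith [mul_le_mul_of_nonneg_left (show 1 ≤ T by linarith)
      (show 0 ≤ (Nb : ℝ) ^ 8 * T ^ 2 by positivity)]
  have hL1 : 1 ≤ L ^ 2 := one_le_pow₀ (by
    have := Real.log_nonneg (one_le_mul_of_one_le_of_one_le (one_le_pow₀ (Nat.one_le_cast.2 hNb)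
      (n := 4)) (show (1 : ℝ) ≤ T by linarith))
    linarith)
  have h8 : ∀ n : ℕ, n ≤ 8 → (Nb : ℝ) ^ n ≤ (Nb : ℝ) ^ 8 * L ^ 2 := fun n hn =>
    (pow_le_pow_right₀ (Nat.one_le_cast.2 hNb) hn).trans
      (le_mul_of_one_le_right (by positivity) hL1)
  have h68 : (Nb : ℝ) ^ 6 * L ^ 2 ≤ (Nb : ℝ) ^ 8 * L ^ 2 :=
    mul_le_mul_of_nonneg_right (pow_le_pow_right₀ (Nat.one_le_cast.2 hNb) (by norm_num))
      (sq_nonneg L)
  obtain ⟨P, hP⟩ : ∃ P, P = √T * S * Real.log T := ⟨_, rfl⟩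
  obtain ⟨Q, hQ⟩ : ∃ Q, Q = (Nb : ℝ) ^ 8 * L ^ 2 := ⟨_, rfl⟩
  have hP0 : 0 ≤ P := hP ▸ mul_nonneg (mul_nonneg (Real.sqrt_nonneg _) hS0) hl.le
  rw [← hP, ← hQ]
  rw [← hQ] at h8 h68
  rw [show 14 * √T * S / (1 / Real.log T) = 14 * P by rw [hP]; field_simp]
  obtain ⟨E, hE⟩ : ∃ E, E = ((Nb : ℝ) ^ 4 * T) ^ 2 * Real.exp (-(3 / (1 / Real.log T))) :=
    ⟨_, rfl⟩
  rw [← hE] at hexp ⊢
  rw [show 8 * π ^ 2 * (3 * (14 * P + 8 * (Nb : ℝ) ^ 6 * L ^ 2) + E) +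
    2 * π ^ 2 * (Nb : ℝ) ^ 4 * 2 = (8 * π * (42 * P + 24 * ((Nb : ℝ) ^ 6 * L ^ 2) + E) +
      4 * π * (Nb : ℝ) ^ 4) * π by ring]
  refine mul_le_mul_of_nonneg_right ?_ Real.pi_pos.le
  have hQ0 : 0 ≤ Q := hQ ▸ by positivity
  have h4 := h8 4 (by norm_num)
  have := mul_le_mul_of_nonneg_left (show 42 * P + 24 * ((Nb : ℝ) ^ 6 * L ^ 2) + E ≤
    42 * P + 25 * Q by linarith [h8 8 le_rfl]) (show 0 ≤ 8 * π by positivity)
  have := mul_le_mul_of_nonneg_left h4 (show 0 ≤ 4 * π by positivity)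
  nlinarith [Real.pi_lt_four, Real.pi_pos]

end FA.SelbergZeros
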