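import Fermat.Agent.HardyLittlewoodZeros.Fourier
import Fermat.Agent.SelbergZeros.GaussMellin
import Fermat.Agent.SelbergZeros.QuadSum

/-!
# The mean square of the twisted theta series

`twistTheta T A v = ∑_{μ, ν} β_μ β_ν / ν · ∑_n exp (-π n² (μ / ν)² e^v (s + i k))`. Against
`e^((1 - θ) v / 2)` on `[0, ∞)` the pairs with `n μ λ = m κ ν` give Selberg's quadruple sums at `0`
and at `θ`, and the others `O` of a power of the length times `(log T)²`.
-/

set_option autoImplicit false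

noncomputable section

namespace FA.SelbergZeros

open MeasureTheory Complex Filter Topology Finset
open FA.HardyLittlewoodZeros (rotPoint tilt)
open scoped Real ComplexConjugate

/-- `e^((1 - θ) v / 2)`. -/
def expWeight (θ v : ℝ) : ℝ := Real.exp ((1 - θ) * v / 2)

theorem continuous_expWeight (θ : ℝ) : Continuous (expWeight θ) := by
  unfold expWeight
  fun_prop

/-- **The oscillatory integral.** -/
theorem norm_expOsc_le {θ a l V : ℝ} (hθ : 0 ≤ θ) (ha : 0 ≤ a) (hl : l ≠ 0) (hV : 0 ≤ V) :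
    ‖∫ v in (0 : ℝ)..V, ((expWeight θ v * Real.exp (-(a * Real.exp v)) : ℝ) : ℂ) *
        cexp (-(I * l * Real.exp v))‖ ≤ 2 * Real.exp (-a) / |l| := by
  obtain ⟨F, hF⟩ : ∃ F : ℝ → ℂ, F = fun v => cexp (-(I * l * Real.exp v)) / (-(I * l)) :=
    ⟨_, rfl⟩
  obtain ⟨g, hg⟩ : ∃ g : ℝ → ℝ, g = fun v => Real.exp (-((1 + θ) / 2 * v) - a * Real.exp v) :=
    ⟨_, rfl⟩
  obtain ⟨g', hg'⟩ : ∃ g' : ℝ → ℝ, g' = fun v => g v * (-((1 + θ) / 2) - a * Real.exp v) :=
    ⟨_, rfl⟩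
  have hgd : ∀ v, HasDerivAt g (g' v) v := fun v => by
    rw [hg', hg]
    refine ((((hasDerivAt_id' v).const_mul ((1 + θ) / 2)).fun_neg).sub
      ((Real.hasDerivAt_exp v).const_mul a)).exp.congr_deriv ?_
    simp
  have hgc : Continuous g' := by rw [hg', hg]; fun_prop
  have hFd : ∀ v, HasDerivAt F ((Real.exp v : ℂ) * cexp (-(I * l * Real.exp v))) v := fun v => by
    rw [hF]
    refine ((((Real.hasDerivAt_exp v).ofReal_comp.const_mul (I * (l : ℂ))).fun_neg.cexp).div_const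
      _).congr_deriv ?_
    have hlC : (l : ℂ) ≠ 0 := ofReal_ne_zero.2 hl
    field_simp
  have hFn : ∀ v, ‖F v‖ = 1 / |l| := fun v => by
    rw [hF]
    simp only [norm_div, norm_neg, norm_mul, Complex.norm_I, Complex.norm_real, Real.norm_eq_abs,
      one_mul]
    rw [Complex.norm_exp]
    simp
  have hFc : Continuous F := by rw [hF]; fun_prop
  have he : ∀ v : ℝ, ((expWeight θ v * Real.exp (-(a * Real.exp v)) : ℝ) : ℂ)
      * cexp (-(I * l * Real.exp v)) =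
        (g v : ℂ) * ((Real.exp v : ℂ) * cexp (-(I * l * Real.exp v))) := fun v => by
    rw [← mul_assoc, ← Complex.ofReal_mul, hg, expWeight, ← Real.exp_add, ← Real.exp_add]
    congr 3
    ring
  simp only [he]
  rw [intervalIntegral.integral_mul_deriv_eq_deriv_mul
    (fun v _ => (hgd v).ofReal_comp) (fun v _ => hFd v)
    ((Complex.continuous_ofReal.comp hgc).intervalIntegrable _ _)
    ((by fun_prop : Continuous fun v : ℝ =>
      (Real.exp v : ℂ) * cexp (-(I * l * Real.exp v))).intervalIntegrable _ _)]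
  have hg0 : ∀ v, 0 ≤ g v := fun v => by rw [hg]; exact (Real.exp_pos _).le
  have hneg : ∀ v, g' v ≤ 0 := fun v => by
    rw [hg']
    refine mul_nonpos_of_nonneg_of_nonpos (hg0 v) ?_
    have := mul_nonneg ha (Real.exp_pos v).le
    linarith
  have hint : ‖∫ v in (0 : ℝ)..V, (g' v : ℂ) * F v‖ ≤ (g 0 - g V) * (1 / |l|) := by
    refine (intervalIntegral.norm_integral_le_integral_norm hV).trans ?_
    rw [← neg_sub (g V), ← intervalIntegral.integral_eq_sub_of_hasDerivAt (fun v _ => hgd v)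
      (hgc.intervalIntegrable _ _), ← intervalIntegral.integral_neg,
      ← intervalIntegral.integral_mul_const]
    refine intervalIntegral.integral_mono_on hV
      (((Complex.continuous_ofReal.comp hgc).mul hFc).norm.intervalIntegrable _ _)
      ((hgc.neg.mul continuous_const).intervalIntegrable _ _) fun v _ => le_of_eq ?_
    rw [norm_mul, Complex.norm_real, Real.norm_eq_abs, abs_of_nonpos (hneg v), hFn]
  have hval : g 0 = Real.exp (-a) := by simp [hg]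
  refine (norm_sub_le _ _).trans ((add_le_add
    (show _ ≤ (g V + g 0) * (1 / |l|) from (norm_sub_le _ _).trans (le_of_eq ?_))
    hint).trans (le_of_eq ?_))
  · simp only [norm_mul, Complex.norm_real, Real.norm_eq_abs, hFn, abs_of_nonneg (hg0 _)]
    ring
  · rw [hval]
    ring

/-- `β_μ β_ν / ν`. -/
def pairCoef (e : Finset ℕ × Finset ℕ) : ℝ := setCoef e.1 * setCoef e.2 / setProd e.2

/-- `(n μ / ν)²`. -/
def ratioSq (e : Finset ℕ × Finset ℕ) (n : ℕ) : ℝ := ((n : ℝ) * setProd e.1 / setProd e.2) ^ 2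

/-- The partial sums. -/
def twistPartial (s k : ℝ) (A : Finset (Finset ℕ)) (N : ℕ) (v : ℝ) : ℂ :=
  ∑ e ∈ A ×ˢ A, (pairCoef e : ℂ) *
    ∑ n ∈ Icc 1 N, cexp (-((π * ratioSq e n * Real.exp v : ℝ) * ((s : ℂ) + k * I)))

/-- The twisted theta series. -/
def twistTheta (T : ℝ) (A : Finset (Finset ℕ)) (v : ℝ) : ℂ :=
  ∑ e ∈ A ×ˢ A, (pairCoef e : ℂ) *
    ((jacobiTheta (rotPoint T (v + 2 * (Real.log (setProd e.1) - Real.log (setProd e.2)))) - 1) / 2)

/-- `μ κ / gcd`, up to the constant. -/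
def quadScale (s : ℝ) (a b c d : Finset ℕ) : ℝ :=
  √(2 * π * s) * ((setProd a : ℝ) * setProd c /
    (Nat.gcd (setProd a * setProd d) (setProd b * setProd c) : ℝ))

/-- The range of `r` for `n, m ≤ N`. -/
def quadRange (a b c d : Finset ℕ) (N : ℕ) : ℕ :=
  min (N / (setProd b * setProd c / Nat.gcd (setProd a * setProd d) (setProd b * setProd c)))
    (N / (setProd a * setProd d / Nat.gcd (setProd a * setProd d) (setProd b * setProd c)))

/-- The product of the coefficients over `ν λ`. -/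
def quadCoef (a b c d : Finset ℕ) : ℝ := pairCoef (a, b) * pairCoef (c, d)

theorem abs_pairCoef_le (e : Finset ℕ × Finset ℕ) : |pairCoef e| ≤ 1 / setProd e.2 := by
  rw [pairCoef, abs_div, Nat.abs_cast]
  refine div_le_div_of_nonneg_right ?_ (Nat.cast_nonneg _)
  rw [abs_mul, setCoef, setCoef, abs_pow, abs_pow]
  exact mul_le_one₀ (pow_le_one₀ (abs_nonneg _) (by norm_num)) (pow_nonneg (abs_nonneg _) _)
    (pow_le_one₀ (abs_nonneg _) (by norm_num))

section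

variable {s k θ V : ℝ} {a b c d : Finset ℕ}

theorem continuous_quadPart (M : ℕ) (η : ℝ) :
    Continuous fun v => expWeight θ v * gaussPartial M (η * Real.exp (v / 2)) := by
  refine (continuous_expWeight θ).mul ?_
  unfold gaussPartial
  fun_prop

/-- **One quadruple.** -/
theorem norm_quad_sub_le {Nb : ℕ} (hA : 0 < setProd a ∧ setProd a ≤ Nb)
    (hB : 0 < setProd b ∧ setProd b ≤ Nb) (hC : 0 < setProd c ∧ setProd c ≤ Nb)
    (hD : 0 < setProd d ∧ setProd d ≤ Nb) (hs : 0 < s) (hs1 : π * s ≤ 1) (hk : 1 / 2 ≤ k)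
    (hθ : 0 ≤ θ) (hV : 0 ≤ V) (N : ℕ) :
    ‖(∑ n ∈ Icc 1 N, ∑ m ∈ Icc 1 N, ∫ v in (0 : ℝ)..V,
        ((expWeight θ v * Real.exp (-(π * s * (ratioSq (a, b) n + ratioSq (c, d) m) *
          Real.exp v)) : ℝ) : ℂ) *
            cexp (-(I * (π * k * (ratioSq (a, b) n - ratioSq (c, d) m) : ℝ) * Real.exp v))) -
      ((∫ v in (0 : ℝ)..V, expWeight θ v *
        gaussPartial (quadRange a b c d N) (quadScale s a b c d * Real.exp (v / 2)) : ℝ) : ℂ)‖ ≤
      4 * ((setProd b : ℝ) * setProd d) ^ 2 *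
        (3 + Real.log ((Nb : ℝ) ^ 4 / (π * s))) ^ 2 := by
  classical
  obtain ⟨T, hT⟩ : ∃ T : ℕ → ℕ → ℝ → ℂ, T = fun n m v =>
      ((expWeight θ v * Real.exp (-(π * s * (ratioSq (a, b) n + ratioSq (c, d) m) *
        Real.exp v)) : ℝ) : ℂ) *
          cexp (-(I * (π * k * (ratioSq (a, b) n - ratioSq (c, d) m) : ℝ) * Real.exp v)) :=
    ⟨_, rfl⟩
  have hTc : ∀ n m, Continuous (T n m) := fun n m => by
    rw [hT]
    exact (Complex.continuous_ofReal.comp ((continuous_expWeight θ).mul (by fun_prop))).mul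
      (by fun_prop)
  rw [show (∑ n ∈ Icc 1 N, ∑ m ∈ Icc 1 N, ∫ v in (0 : ℝ)..V,
        ((expWeight θ v * Real.exp (-(π * s * (ratioSq (a, b) n + ratioSq (c, d) m) *
          Real.exp v)) : ℝ) : ℂ) *
            cexp (-(I * (π * k * (ratioSq (a, b) n - ratioSq (c, d) m) : ℝ) * Real.exp v))) =
      ∑ n ∈ Icc 1 N, ∑ m ∈ Icc 1 N, ∫ v in (0 : ℝ)..V, T n m v by rw [hT]]
  obtain ⟨u, hu⟩ : ∃ u, u = setProd a * setProd d := ⟨_, rfl⟩
  obtain ⟨w, hw⟩ : ∃ w, w = setProd b * setProd c := ⟨_, rfl⟩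
  obtain ⟨q, hq⟩ : ∃ q : ℝ, q = (setProd b : ℝ) * setProd d := ⟨_, rfl⟩
  have hu0 : 0 < u := hu ▸ Nat.mul_pos hA.1 hD.1
  have hw0 : 0 < w := hw ▸ Nat.mul_pos hB.1 hC.1
  have hBr : (0 : ℝ) < setProd b := Nat.cast_pos.2 hB.1
  have hDr : (0 : ℝ) < setProd d := Nat.cast_pos.2 hD.1
  have hq0 : 0 < q := hq ▸ mul_pos hBr hDr
  have hr1 : ∀ n : ℕ, ratioSq (a, b) n = ((n * u : ℕ) : ℝ) ^ 2 / q ^ 2 := fun n => by
    rw [ratioSq, hu, hq]
    push_cast
    field_simp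
  have hr2 : ∀ m : ℕ, ratioSq (c, d) m = ((m * w : ℕ) : ℝ) ^ 2 / q ^ 2 := fun m => by
    rw [ratioSq, hw, hq]
    push_cast
    field_simp
  rw [← hq]
  -- the pairs with `n u = m w`
  obtain ⟨g, hg⟩ : ∃ g, g = Nat.gcd u w := ⟨_, rfl⟩
  have hg0 : 0 < g := hg ▸ Nat.gcd_pos_of_pos_left _ hu0
  obtain ⟨u', hu'⟩ : ∃ u', u = g * u' := hg ▸ Nat.gcd_dvd_left u w
  obtain ⟨w', hw'⟩ : ∃ w', w = g * w' := hg ▸ Nat.gcd_dvd_right u w
  have hud : u / g = u' := by rw [hu', Nat.mul_div_cancel_left _ hg0]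
  have hwd : w / g = w' := by rw [hw', Nat.mul_div_cancel_left _ hg0]
  have hu'0 : 0 < u' := Nat.pos_of_mul_pos_left (hu' ▸ hu0)
  have hw'0 : 0 < w' := Nat.pos_of_mul_pos_left (hw' ▸ hw0)
  have hM : quadRange a b c d N = min (N / w') (N / u') := by
    rw [quadRange, ← hu, ← hw, ← hg, hud, hwd]
  obtain ⟨M, hMd⟩ : ∃ M, M = quadRange a b c d N := ⟨_, rfl⟩
  rw [← hMd]
  have hcop : u'.Coprime w' := by
    have := Nat.coprime_div_gcd_div_gcd (hg ▸ hg0 : 0 < Nat.gcd u w)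
    rwa [← hg, hud, hwd] at this
  obtain ⟨D, hDd⟩ : ∃ D, D = ((Icc 1 N) ×ˢ (Icc 1 N)).filter fun e => e.1 * u = e.2 * w :=
    ⟨_, rfl⟩
  have hDimg : D = (Icc 1 M).image fun r => (r * w', r * u') := by
    ext ⟨n, m⟩
    rw [hDd, mem_filter, mem_product, mem_image, mem_Icc, mem_Icc]
    constructor
    · rintro ⟨⟨⟨hn1, hn2⟩, hm1, hm2⟩, he⟩
      have he' : n * u' = m * w' := by
        refine Nat.eq_of_mul_eq_mul_left hg0 ?_
        rw [mul_left_comm, ← hu', mul_left_comm, ← hw']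
        exact he
      obtain ⟨r, hr⟩ : w' ∣ n :=
        hcop.symm.dvd_of_dvd_mul_right (he' ▸ dvd_mul_left w' m)
      have hm' : m = r * u' := Nat.eq_of_mul_eq_mul_right hw'0 (by
        rw [← he', hr]
        ring)
      refine ⟨r, mem_Icc.2 ⟨?_, ?_⟩, ?_⟩
      · rcases Nat.eq_zero_or_pos r with h0 | h0
        · rw [h0, zero_mul] at hm'
          omega
        · exact h0
      · rw [hMd, hM, le_min_iff, Nat.le_div_iff_mul_le hw'0, Nat.le_div_iff_mul_le hu'0]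
        exact ⟨by rw [mul_comm, ← hr]; exact hn2, hm' ▸ hm2⟩
      · rw [hr, hm', mul_comm w']
    · rintro ⟨r, hr, he⟩
      rw [mem_Icc, hMd, hM, le_min_iff, Nat.le_div_iff_mul_le hw'0,
        Nat.le_div_iff_mul_le hu'0] at hr
      obtain ⟨rfl, rfl⟩ : n = r * w' ∧ m = r * u' := ⟨(congrArg Prod.fst he).symm,
        (congrArg Prod.snd he).symm⟩
      exact ⟨⟨⟨Nat.mul_pos hr.1 hw'0, hr.2.1⟩, Nat.mul_pos hr.1 hu'0, hr.2.2⟩,
        by rw [hu', hw']; ring⟩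
  have hη : ∀ r : ℕ, ∀ v : ℝ, (quadScale s a b c d * Real.exp (v / 2)) ^ 2 * (r : ℝ) ^ 2 =
      π * s * (ratioSq (a, b) (r * w') + ratioSq (c, d) (r * u')) * Real.exp v := fun r v => by
    have hgr : (g : ℝ) ≠ 0 := Nat.cast_ne_zero.2 hg0.ne'
    have huw : (g : ℝ) * u' = (setProd a : ℝ) * setProd d := by
      exact_mod_cast hu'.symm.trans hu
    have hwu : (g : ℝ) * w' = (setProd b : ℝ) * setProd c := by
      exact_mod_cast hw'.symm.trans hw
    have ex : Real.exp (v / 2) ^ 2 = Real.exp v := by rw [← Real.exp_nat_mul]; ring_nf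
    have e1 : ratioSq (a, b) (r * w') =
        (r : ℝ) ^ 2 * ((setProd a : ℝ) * setProd c / g) ^ 2 := by
      rw [ratioSq, Nat.cast_mul, show (w' : ℝ) = (setProd b : ℝ) * setProd c / g by
        rw [← hwu]; field_simp]
      field_simp
    have e2 : ratioSq (c, d) (r * u') =
        (r : ℝ) ^ 2 * ((setProd a : ℝ) * setProd c / g) ^ 2 := by
      rw [ratioSq, Nat.cast_mul, show (u' : ℝ) = (setProd a : ℝ) * setProd d / g by
        rw [← huw]; field_simp]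
      field_simp
    rw [e1, e2, quadScale, ← hu, ← hw, ← hg, mul_pow, ex, mul_pow,
      Real.sq_sqrt (by positivity)]
    ring
  have hdiag : ∑ e ∈ D, ∫ v in (0 : ℝ)..V, T e.1 e.2 v =
      ((∫ v in (0 : ℝ)..V, expWeight θ v *
        gaussPartial M (quadScale s a b c d * Real.exp (v / 2)) : ℝ) : ℂ) := by
    rw [hDimg, sum_image fun r _ r' _ h => Nat.eq_of_mul_eq_mul_right hw'0 (congrArg Prod.fst h),
      ← intervalIntegral.integral_ofReal,
      ← intervalIntegral.integral_finsetSum fun r _ => (hTc _ _).intervalIntegrable _ _]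
    refine intervalIntegral.integral_congr fun v _ => ?_
    simp only [gaussPartial, mul_sum, Complex.ofReal_sum]
    refine sum_congr rfl fun r _ => ?_
    have he : ratioSq (a, b) (r * w') - ratioSq (c, d) (r * u') = 0 := by
      rw [hr1, hr2, sub_eq_zero, show r * w' * u = r * u' * w by rw [hu', hw']; ring]
    rw [hT, hη r v]
    simp only [he, mul_zero, Complex.ofReal_zero, zero_mul, neg_zero, Complex.exp_zero, mul_one]
  have hsplit : ∑ n ∈ Icc 1 N, ∑ m ∈ Icc 1 N, (∫ v in (0 : ℝ)..V, T n m v) =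
      (∑ e ∈ D, ∫ v in (0 : ℝ)..V, T e.1 e.2 v) +
        ∑ e ∈ ((Icc 1 N) ×ˢ (Icc 1 N)).filter (fun e => ¬ e.1 * u = e.2 * w),
          ∫ v in (0 : ℝ)..V, T e.1 e.2 v := by
    rw [hDd, sum_filter_add_sum_filter_not, sum_product]
  rw [hsplit, hdiag, add_sub_cancel_left]
  -- the others
  obtain ⟨β, hβ⟩ : ∃ β, β = π * s / q ^ 2 := ⟨_, rfl⟩
  have hq1 : 1 ≤ q := by
    rw [hq]
    exact one_le_mul_of_one_le_of_one_le (Nat.one_le_cast.2 hB.1) (Nat.one_le_cast.2 hD.1)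
  have hβ0 : 0 < β := hβ ▸ by positivity
  have hβ1 : β ≤ 1 := by
    rw [hβ, div_le_one (by positivity)]
    exact hs1.trans (one_le_pow₀ hq1)
  obtain ⟨N', hN'⟩ : ∃ N', N' = N * max u w := ⟨_, rfl⟩
  obtain ⟨G, hG⟩ : ∃ G : ℕ → ℕ → ℝ, G = fun (P R : ℕ) => if P = R then 0 else
      Real.exp (-(β * ((P : ℝ) ^ 2 + (R : ℝ) ^ 2))) / |(P : ℝ) ^ 2 - (R : ℝ) ^ 2| := ⟨_, rfl⟩
  have hterm : ∀ e ∈ ((Icc 1 N) ×ˢ (Icc 1 N)).filter (fun e => ¬ e.1 * u = e.2 * w),
      ‖∫ v in (0 : ℝ)..V, T e.1 e.2 v‖ ≤ 2 * q ^ 2 * G (e.1 * u) (e.2 * w) := by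
    intro e he
    obtain ⟨P, hP⟩ : ∃ P : ℕ, P = e.1 * u := ⟨_, rfl⟩
    obtain ⟨R, hR⟩ : ∃ R : ℕ, R = e.2 * w := ⟨_, rfl⟩
    have hne : P ≠ R := hP ▸ hR ▸ (mem_filter.1 he).2
    have hsq : (P : ℝ) ^ 2 - (R : ℝ) ^ 2 ≠ 0 := fun h0 => hne (by
      exact_mod_cast (pow_left_inj₀ (Nat.cast_nonneg P) (Nat.cast_nonneg R) two_ne_zero).1
        (sub_eq_zero.1 h0))
    have hd : ratioSq (a, b) e.1 - ratioSq (c, d) e.2 =
        ((P : ℝ) ^ 2 - (R : ℝ) ^ 2) / q ^ 2 := by rw [hr1, hr2, hP, hR]; ring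
    have ha : π * s * (ratioSq (a, b) e.1 + ratioSq (c, d) e.2) =
        β * ((P : ℝ) ^ 2 + (R : ℝ) ^ 2) := by rw [hr1, hr2, hP, hR, hβ]; ring
    rw [hT, ← hP, ← hR, hG]
    simp only
    rw [if_neg hne, hd, ha]
    refine (norm_expOsc_le hθ (by positivity) ?_ hV).trans ?_
    · exact mul_ne_zero (mul_ne_zero Real.pi_ne_zero (by linarith)) (div_ne_zero hsq
        (pow_ne_zero 2 hq0.ne'))
    · rw [abs_mul, abs_div, abs_of_nonneg (sq_nonneg q),
        abs_of_nonneg (show 0 ≤ π * k by positivity)]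
      rw [← mul_div_assoc (2 * q ^ 2), div_le_div_iff₀ (by positivity) (abs_pos.2 hsq)]
      have hπk : 1 ≤ π * k := by
        have := mul_le_mul_of_nonneg_left hk Real.pi_pos.le
        linarith [Real.pi_gt_three]
      have := mul_le_mul_of_nonneg_right hπk
        (show 0 ≤ Real.exp (-(β * ((P : ℝ) ^ 2 + (R : ℝ) ^ 2))) * |(P : ℝ) ^ 2 - (R : ℝ) ^ 2| by
          positivity)
      calc 2 * Real.exp (-(β * ((P : ℝ) ^ 2 + (R : ℝ) ^ 2))) * |(P : ℝ) ^ 2 - (R : ℝ) ^ 2|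
          ≤ 2 * (π * k * (Real.exp (-(β * ((P : ℝ) ^ 2 + (R : ℝ) ^ 2))) *
              |(P : ℝ) ^ 2 - (R : ℝ) ^ 2|)) := by linarith
        _ = _ := by field_simp
  refine (norm_sum_le _ _).trans ((sum_le_sum hterm).trans ?_)
  rw [← mul_sum]
  have hG0 : ∀ P R, 0 ≤ G P R := fun P R => by
    rw [hG]
    simp only
    split_ifs
    · exact le_rfl
    · positivity
  have hinj : ∑ e ∈ ((Icc 1 N) ×ˢ (Icc 1 N)).filter (fun e => ¬ e.1 * u = e.2 * w),
      G (e.1 * u) (e.2 * w) ≤ ∑ P ∈ Icc 1 N', ∑ R ∈ Icc 1 N', G P R := by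
    rw [← sum_product (f := fun e : ℕ × ℕ => G e.1 e.2),
      ← sum_image (f := fun e : ℕ × ℕ => G e.1 e.2) (g := fun e => (e.1 * u, e.2 * w))
        fun e _ e' _ h => Prod.ext (Nat.eq_of_mul_eq_mul_right hu0 (congrArg Prod.fst h))
          (Nat.eq_of_mul_eq_mul_right hw0 (congrArg Prod.snd h))]
    refine sum_le_sum_of_subset_of_nonneg (fun x hx => ?_) fun x _ _ => hG0 _ _
    obtain ⟨e, he, rfl⟩ := mem_image.1 hx
    obtain ⟨he1, he2⟩ := mem_product.1 (mem_filter.1 he).1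
    rw [mem_Icc] at he1 he2
    refine mem_product.2 ⟨mem_Icc.2 ⟨Nat.mul_pos he1.1 hu0, ?_⟩,
      mem_Icc.2 ⟨Nat.mul_pos he2.1 hw0, ?_⟩⟩
    · exact hN' ▸ Nat.mul_le_mul he1.2 (le_max_left _ _)
    · exact hN' ▸ Nat.mul_le_mul he2.2 (le_max_right _ _)
  have hoff : ∑ P ∈ Icc 1 N', ∑ R ∈ Icc 1 N', G P R ≤ 2 * (3 + Real.log (1 / β)) ^ 2 := by
    rw [hG]
    exact HardyLittlewoodZeros.sum_offdiag_le hβ0 hβ1 N'
  refine (mul_le_mul_of_nonneg_left (hinj.trans hoff) (by positivity)).trans ?_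
  rw [show 2 * q ^ 2 * (2 * (3 + Real.log (1 / β)) ^ 2) =
    4 * q ^ 2 * (3 + Real.log (1 / β)) ^ 2 by ring]
  refine mul_le_mul_of_nonneg_left (pow_le_pow_left₀ ?_ (add_le_add le_rfl
    (Real.log_le_log (by positivity) ?_)) 2) (by positivity)
  · have := Real.log_nonneg ((one_le_div hβ0).2 hβ1)
    linarith
  · rw [hβ, one_div_div]
    refine div_le_div_of_nonneg_right ?_ (by positivity)
    have hqN : q ≤ (Nb : ℝ) * Nb :=
      hq ▸ mul_le_mul (Nat.cast_le.2 hB.2) (Nat.cast_le.2 hD.2) hDr.le (Nat.cast_nonneg _)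
    calc q ^ 2 ≤ ((Nb : ℝ) * Nb) ^ 2 := pow_le_pow_left₀ hq0.le hqN 2
      _ = (Nb : ℝ) ^ 4 := by ring

end

end FA.SelbergZeros
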